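import Fermat.Agent.LevelP.X0.Charts.Coord
import Fermat.Agent.BadPrime.ChartFinite
import Fermat.Agent.BadPrime.Sq.ResidueField

/-!
# Generators of the affine rings of `X₀(M)` over `k` and their lifts to `X₀(Mp)`

The affine rings are spanned by functions with coefficients in `𝔽_p`; these lift to functions over
`ℚ`, and composing with the two degeneracy maps gives the residues `(a, a ^ p)` and `(a ^ p, a)`.
-/

set_option autoImplicit false
set_option synthInstance.maxHeartbeats 400000
set_option linter.unusedSectionVars false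
set_option linter.style.haveILetI false

noncomputable section

namespace Fermat.Agent.LevelP.X0

open AlgebraicCurve ModularCurve IsLocalRing Polynomial Fermat.Agent.Modular Fermat.Agent.BadPrime
  Fermat.Agent.Curve

local notation "Qb" => AlgebraicClosure ℚ
local notation "Γℚ" => (AlgebraicClosure ℚ ≃ₐ[ℚ] AlgebraicClosure ℚ)

local instance : Algebra.IsAlgebraic ℚ Qb := AlgebraicClosure.isAlgebraic ℚ

section Prime

variable {q : ℕ} [Fact q.Prime] {k : Type} [Field k] [Algebra (ZMod q) k] (M : ℕ)

theorem coeffMap_chartCoordRed {K K' : Type*} [Field K] [Field K'] (ι : K →+* K') (c : Bool) :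
    coeffMap ι (chartCoordRed K c) = chartCoordRed K' c := by
  cases c <;> simp [chartCoordRed, map_inv₀, coeffMap_jqModC]

/-- The regular functions with coefficients in the prime field. -/
def primeRegular (c : Bool) : Set (LaurentSeries k) :=
  {z | ∃ y : LaurentSeries (ZMod q), y ∈ modularFunctionFieldFullC (ZMod q) M ∧
    IsRegularOver (chartCoordRed (ZMod q) c) y ∧ coeffMap (algebraMap (ZMod q) k) y = z}

/-- Regular functions are combinations of those over the prime field. -/
theorem exists_combination_primeRegular (hk : Algebra.IsAlgebraic (ZMod q) k) {c : Bool}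
    {g : LaurentSeries k} (hgX : g ∈ modularFunctionFieldFullC k M)
    (hgr : IsRegularOver (chartCoordRed k c) g) :
    ∃ (n : ℕ) (d : Fin n → k) (z : Fin n → LaurentSeries k),
      (∀ i, z i ∈ primeRegular (q := q) M c) ∧ g = ∑ i, HahnSeries.C (d i) * z i := by
  obtain ⟨k₀, hfd, g₀, rfl⟩ := Sq.exists_finite_coeff M hk hgX
  haveI : Finite k₀ := Module.finite_of_finite (ZMod q)
  have hg₀ : g₀ ∈ modularFunctionFieldFullC k₀ M := mem_fullC_of_coeffMap_mem M _ hgX
  rw [← coeffMap_chartCoordRed k₀.val.toRingHom c] at hgr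
  have hι : k₀.val.toRingHom.IsIntegral := fun x => by
    obtain ⟨P, hP, hPx⟩ := (hk.isAlgebraic x).isIntegral
    refine ⟨P.map (algebraMap (ZMod q) k₀), hP.map _, ?_⟩
    rw [eval₂_map]
    exact hPx
  have hr₀ := IsRegularOver.of_map _ hι hgr
  rw [← coeffMap_chartCoordRed (algebraMap (ZMod q) k₀) c] at hr₀
  obtain ⟨n, d, y, hxy, hy⟩ := exists_regular_decomposition_fullC (K := ZMod q) M hg₀ hr₀
  refine ⟨n, fun i => ((d i : k₀) : k),
    fun i => coeffMap (algebraMap (ZMod q) k) (y i), fun i => ⟨y i, (hy i).1, (hy i).2, rfl⟩, ?_⟩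
  rw [hxy, map_sum]
  refine Finset.sum_congr rfl fun i _ => ?_
  rw [map_mul, show coeffMap k₀.val.toRingHom (HahnSeries.C (d i)) =
    HahnSeries.C ((d i : k₀) : k) by rw [HahnSeries.C_apply, coeffMap_single]; rfl,
    coeffMap_coeffMap]
  congr 1

/-- A finite integral closure spanned by a set is generated by finitely many of its elements. -/
theorem exists_finset_generators {K E : Type*} [Field K] [Field E] [Algebra K E] (τ : E)
    (R : Set E) (hfin : Module.Finite (Algebra.adjoin K ({τ} : Set E))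
      (integralClosure (Algebra.adjoin K ({τ} : Set E)) E))
    (hspan : ∀ g : E, IsIntegral (Algebra.adjoin K ({τ} : Set E)) g → g ∈ Submodule.span K R) :
    ∃ T : Finset E, ↑T ⊆ R ∧ ∀ g : E, IsIntegral (Algebra.adjoin K ({τ} : Set E)) g →
      g ∈ Algebra.adjoin K (insert τ (T : Set E)) := by
  classical
  obtain ⟨S, hS⟩ := hfin.fg_top
  choose T hTR hT using fun s : integralClosure (Algebra.adjoin K ({τ} : Set E)) E =>
    Submodule.mem_span_finite_of_mem_span (hspan _ s.2)
  refine ⟨S.biUnion T, fun z hz => ?_, fun g hg => ?_⟩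
  · obtain ⟨s, -, hs⟩ := Finset.mem_biUnion.1 (Finset.mem_coe.1 hz)
    exact hTR s hs
  set U := Algebra.adjoin K (insert τ (S.biUnion T : Set E)) with hU
  have hτU : Algebra.adjoin K ({τ} : Set E) ≤ U :=
    Algebra.adjoin_mono (Set.singleton_subset_iff.2 (Set.mem_insert _ _))
  have hx : (⟨g, hg⟩ : integralClosure (Algebra.adjoin K ({τ} : Set E)) E) ∈
      Submodule.span _ (S : Set _) := hS ▸ Submodule.mem_top
  obtain ⟨r, -, hr⟩ := Submodule.mem_span_finset.1 hx
  have hr' := congrArg Subtype.val hr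
  simp only [AddSubmonoidClass.coe_finsetSum, SetLike.val_smul] at hr'
  rw [← hr']
  refine Subalgebra.sum_mem _ fun s hs => ?_
  rw [Algebra.smul_def]
  refine mul_mem (hτU (r s).2) ?_
  exact (Submodule.span_le (p := Subalgebra.toSubmodule U)).2
    (fun z hz => Algebra.subset_adjoin (Set.mem_insert_of_mem _
      (Finset.mem_coe.2 (Finset.mem_biUnion.2 ⟨s, hs, hz⟩)))) (hT s)

/-- On series over the prime field the geometric Frobenius is the `q`-th power. -/
theorem qExpand_eq_pow_of_prime [CharP k q] (y : LaurentSeries (ZMod q)) :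
    qExpand k q (coeffMap (algebraMap (ZMod q) k) y) = coeffMap (algebraMap (ZMod q) k) y ^ q := by
  rw [pow_char_eq_qExpand, coeffMap_coeffMap]
  congr 1
  exact coeffMap_congr (RingHom.ext_zmod _ _) _

end Prime

variable (A : ValuationSubring Qb) (p M : ℕ) [Fact p.Prime] [NeZero M]
  [IsAlgClosed (ResidueField A)] (hpM : ¬ p ∣ M) (hA : A.LiesOverPrime p)

local notation "F" => modularFunctionFieldBar (M * p)
local notation "Fb" => modularFunctionFieldFullC (ResidueField A) M

theorem coe_coord_jBarMp (c : Bool) :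
    ((coord c (jBarMp p M) : F) : LaurentSeries Qb) = chartCoordRed Qb c := by
  have h : ((jBarMp p M : F) : LaurentSeries Qb) = jqModC Qb := by
    show coeffEmb Qb jq = _
    rw [coeffEmb, ← jqModC_rat, coeffMap_jqModC]
  cases c
  · exact h
  · rw [coord_true, IntermediateField.coe_inv, h]; rfl

theorem coe_coord_jBetaMp (c : Bool) :
    ((coord c (jBetaMp p M) : F) : LaurentSeries Qb) = qExpand Qb p (chartCoordRed Qb c) := by
  have h : ((jBetaMp p M : F) : LaurentSeries Qb) = qExpand Qb p (jqModC Qb) := by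
    show qExpand Qb p (coeffEmb Qb jq) = _
    rw [coeffEmb, ← jqModC_rat, coeffMap_jqModC]
  cases c
  · exact h
  · rw [coord_true, IntermediateField.coe_inv, h, ← map_inv₀]; rfl

theorem coe_coord_jResM (c : Bool) :
    ((coord c (jResM A M) : Fb) : LaurentSeries (ResidueField A)) =
      chartCoordRed (ResidueField A) c := by
  cases c
  · rfl
  · rw [coord_true, IntermediateField.coe_inv]; rfl

/-- Regularity of series passes through `q ↦ q ^ m`. -/
theorem isRegularOver_qExpand {K : Type*} [Field K] (m : ℕ) [NeZero m] {t x : LaurentSeries K}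
    (h : IsRegularOver t x) : IsRegularOver (qExpand K m t) (qExpand K m x) := by
  obtain ⟨P, hP, he⟩ := h
  refine ⟨P, hP, ?_⟩
  have hcomp : (qExpand K m).comp (Reduction.evalAt t) = Reduction.evalAt (qExpand K m t) :=
    Polynomial.ringHom_ext (fun a => by simp) (by simp)
  rw [← hcomp, ← hom_eval₂, he, map_zero]

/-- A regular function has no pole where the coordinate has none. -/
theorem mem_place_of_isRegularOver {t x : F}
    (h : IsRegularOver (t : LaurentSeries Qb) (x : LaurentSeries Qb)) {P : Place Qb F}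
    (ht : t ∈ P.toValuationSubring) : x ∈ P.toValuationSubring := by
  obtain ⟨R, hR, he⟩ := h
  refine mem_place_of_root P (hR.map (Polynomial.aeval t : Qb[X] →ₐ[Qb] F).toRingHom)
    (fun i => ?_) ?_
  · rw [coeff_map]
    show Polynomial.aeval t (R.coeff i) ∈ _
    rw [aeval_eq_sum_range]
    refine sum_mem fun j _ => ?_
    rw [Algebra.smul_def]
    exact mul_mem (P.algebraMap_mem' _) (pow_mem ht j)
  · apply (IntermediateField.val (modularFunctionFieldBar (M * p))).toRingHom.injective
    rw [eval_map, map_zero, hom_eval₂]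
    have hcomp : ((IntermediateField.val (modularFunctionFieldBar (M * p))).toRingHom.comp
        (Polynomial.aeval t : Qb[X] →ₐ[Qb] F).toRingHom) =
          Reduction.evalAt (t : LaurentSeries Qb) := by
      refine Polynomial.ringHom_ext (fun a => ?_) ?_
      · simp [algebraMap_laurentSeries_eq_single]
      · simp
    rw [hcomp]
    exact he

/-- Multiplying by a power of a function with residue one keeps the residue. -/
theorem exists_res_pow_mul {K R : Type*} [Field K] [CommRing R] {S : ValuationSubring K}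
    (φ : S →+* R) {s f : K} {g : R} (hs : ∃ h : s ∈ S, φ ⟨s, h⟩ = 1)
    (hf : ∃ h : f ∈ S, φ ⟨f, h⟩ = g) (N : ℕ) :
    ∃ h : s ^ N * f ∈ S, φ ⟨s ^ N * f, h⟩ = g := by
  obtain ⟨hsm, hsr⟩ := hs
  obtain ⟨hfm, hfr⟩ := hf
  refine ⟨mul_mem (pow_mem hsm N) hfm, ?_⟩
  rw [← hfr, show (⟨s ^ N * f, mul_mem (pow_mem hsm N) hfm⟩ : S) =
    ⟨s, hsm⟩ ^ N * ⟨f, hfm⟩ from Subtype.ext rfl, map_mul, map_pow, hsr, one_pow, one_mul]

theorem ne_zero_of_res_eq_one {K R : Type*} [Field K] [CommRing R] [Nontrivial R]
    {S : ValuationSubring K} (φ : S →+* R) {s : K} (hs : ∃ h : s ∈ S, φ ⟨s, h⟩ = 1) : s ≠ 0 := by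
  rintro rfl
  obtain ⟨h, h1⟩ := hs
  exact one_ne_zero (h1.symm.trans (map_zero φ))

include hA in
/-- The reduction map `ℤ_(p) → 𝔽_p`. -/
theorem exists_primeReduction :
    ∃ (AL : ValuationSubring ℚ) (hAL : ∀ a, a ∈ AL → algebraMap ℚ Qb a ∈ A)
      (π : AL →+* ZMod p) (κ : ZMod p →+* ResidueField A), IsLocalHom π ∧ Function.Surjective π ∧
      ∀ a : AL, residue A ⟨algebraMap ℚ Qb a, hAL a a.2⟩ = κ (π a) := by
  haveI := EC.charP_residueField A (Fact.out : p.Prime) hA
  let κ : ZMod p →+* ResidueField A := ZMod.castHom (dvd_refl p) _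
  let AL : ValuationSubring ℚ := A.comap (algebraMap ℚ Qb)
  let incl : AL →+* A :=
    ((algebraMap ℚ Qb).comp AL.subtype).codRestrict A.toSubring fun x => x.2
  have hmem : ∀ a : AL, residue A (incl a) ∈ κ.fieldRange := fun a => by
    have hden : incl a * ((a : ℚ).den : A) = ((a : ℚ).num : A) := Subtype.ext (by
      show algebraMap ℚ Qb (a : ℚ) * _ = _
      rw [eq_ratCast]
      push_cast
      exact_mod_cast congrArg (fun x : ℚ => (x : Qb)) (Rat.mul_den_eq_num (a : ℚ)))
    have h := congrArg (residue A) hden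
    rw [map_mul, map_natCast, map_intCast] at h
    by_cases hd : (((a : ℚ).den : ℕ) : ResidueField A) = 0
    · exfalso
      rw [hd, mul_zero] at h
      have h1 : p ∣ (a : ℚ).den := (CharP.cast_eq_zero_iff (ResidueField A) p _).1 hd
      have h2 : p ∣ (a : ℚ).num.natAbs :=
        Int.natCast_dvd.1 ((CharP.intCast_eq_zero_iff (ResidueField A) p _).1 h.symm)
      exact Nat.Prime.not_dvd_one Fact.out ((a : ℚ).reduced ▸ Nat.dvd_gcd h2 h1)
    · rw [show residue A (incl a) =
        ((a : ℚ).num : ResidueField A) / ((a : ℚ).den : ResidueField A) by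
          rw [eq_div_iff hd, h]]
      exact div_mem (intCast_mem _ _) (natCast_mem _ _)
  let e : ZMod p ≃+* κ.fieldRange :=
    RingEquiv.ofBijective κ.rangeRestrictField
      ⟨κ.rangeRestrictField.injective, fun ⟨_, y, hy⟩ => ⟨y, Subtype.ext hy⟩⟩
  let π : AL →+* ZMod p :=
    e.symm.toRingHom.comp (((residue A).comp incl).codRestrict κ.fieldRange.toSubring hmem)
  have hκ : ∀ a : AL, residue A (incl a) = κ (π a) := fun a =>
    (congrArg Subtype.val (e.apply_symm_apply ⟨_, hmem a⟩)).symm
  refine ⟨AL, fun a ha => ha, π, κ, ⟨fun a ha => ?_⟩, fun z => ?_, hκ⟩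
  · have hne : residue A (incl a) ≠ 0 := by
      rw [hκ]
      exact (map_ne_zero κ).2 ha.ne_zero
    have hu : IsUnit (incl a) := not_not.1 fun h => hne ((IsLocalRing.residue_eq_zero_iff _).2 h)
    have hunit : (A.valuation (algebraMap ℚ Qb (a : ℚ))) = 1 :=
      (A.valuation_eq_one_iff _).1 hu
    have ha0 : (a : ℚ) ≠ 0 := fun h => by simp [h] at hunit
    refine ⟨⟨a, ⟨(a : ℚ)⁻¹, ?_⟩, Subtype.ext (mul_inv_cancel₀ ha0),
      Subtype.ext (inv_mul_cancel₀ ha0)⟩, rfl⟩
    show algebraMap ℚ Qb (a : ℚ)⁻¹ ∈ A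
    rw [map_inv₀, ← A.valuation_le_one_iff, map_inv₀, hunit, inv_one]
  · exact ⟨(z.val : AL), by rw [map_natCast, ZMod.natCast_zmod_val]⟩

include hpM hA in
/-- Regular series over `𝔽_p` lift to regular series over `ℚ`. -/
theorem exists_rational_lift [Algebra (ZMod p) (ResidueField A)] (hN : (p = 2 → 3 ∣ M) ∧ (p = 3 → 2 ∣ M)) (c : Bool)
    {y : LaurentSeries (ZMod p)} (hy : y ∈ modularFunctionFieldFullC (ZMod p) M)
    (hreg : IsRegularOver (chartCoordRed (ZMod p) c) y) :
    ∃ x : modularFunctionFieldBar M,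
      (∀ σ : Γℚ, coeffMap (σ : Qb →+* Qb) (x : LaurentSeries Qb) = (x : LaurentSeries Qb)) ∧
      IsRegularOver (chartCoordRed Qb c) (x : LaurentSeries Qb) ∧
      HasGaussRed (residue A) (x : LaurentSeries Qb)
        (coeffMap (algebraMap (ZMod p) (ResidueField A)) y) := by
  obtain ⟨AL, hAL, π, κ, hloc, hsurj, hκ⟩ := exists_primeReduction A p hA
  haveI := hloc
  have hlift := exists_regular_lift_of_lift (L := ℚ) M hpM A hA
    hN hAL κ hκ hsurj hy
  obtain ⟨x, hx, hxr, hxy⟩ : ∃ x ∈ FL M ℚ, IsRegularOver (chartCoordRed ℚ c) x ∧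
      HasGaussRed π x y := by
    cases c
    · exact hlift.1 hreg
    · exact hlift.2 hreg
  have hmem : coeffMap (algebraMap ℚ Qb) x ∈ modularFunctionFieldBar M :=
    (Reduction.fullC_le_base (L := Qb) M).le
      (coeffMap_mem_fullC M (algebraMap ℚ Qb) ((Reduction.fullC_le_base (L := ℚ) M).ge hx))
  refine ⟨⟨_, hmem⟩, fun σ => ?_, ?_, ?_⟩
  · show coeffMap _ (coeffMap _ x) = coeffMap _ x
    rw [coeffMap_coeffMap]
    exact coeffMap_congr (RingHom.ext_rat _ _) _
  · have := hxr.map (algebraMap ℚ Qb)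
    rwa [coeffMap_chartCoordRed] at this
  · have h := HasGaussRed.map_coeff (π := residue A) (ι := algebraMap ℚ Qb) (κ := κ) hAL hκ hxy
    rwa [show κ = algebraMap (ZMod p) (ResidueField A) from RingHom.ext_zmod _ _] at h

include hpM hA in
/-- The residues of the two pull backs of a function of level `M`. -/
theorem red_pullbacks {x : modularFunctionFieldBar M} {a b : Fb}
    (hxa : HasGaussRed (residue A) (x : LaurentSeries Qb) (a : LaurentSeries (ResidueField A)))
    (hb : qExpand (ResidueField A) p (a : LaurentSeries (ResidueField A)) =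
      (b : LaurentSeries (ResidueField A))) :
    (∀ i, ∃ h : heckeAlphaBar Qb M p x ∈ V A p M i,
      red A p M hpM hA i ⟨_, h⟩ = if i = false then a else b) ∧
    ∀ i, ∃ h : heckeBetaBar Qb M p x ∈ V A p M i,
      red A p M hpM hA i ⟨_, h⟩ = if i = true then a else b := by
  haveI := EC.charP_residueField A (Fact.out : p.Prime) hA
  have hα := hasGaussRed_alpha (residue A) (q := p) hxa
  have hβ := hasGaussRed_beta (residue A) (q := p) hxa
  rw [hb] at hβ
  obtain ⟨s1, s2, -⟩ := swap_spec p M hpM
  refine ⟨fun i => hasRed_of_hasGaussRed A p M hpM hA ?_,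
    fun i => hasRed_of_hasGaussRed A p M hpM hA ?_⟩
  · cases i
    · rw [toFirst_false, if_pos rfl]
      exact hα
    · rw [toFirst_true, s1, if_neg Bool.noConfusion]
      exact hβ
  · cases i
    · rw [toFirst_false, if_neg Bool.noConfusion]
      exact hβ
    · rw [toFirst_true, s2, if_pos rfl]
      exact hα

/-- The first pull back of a regular function is regular. -/
theorem alpha_mem_of_regular {c : Bool} {x : modularFunctionFieldBar M}
    (hx : IsRegularOver (chartCoordRed Qb c) (x : LaurentSeries Qb)) {P : Place Qb F}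
    (hP : coord c (jBarMp p M) ∈ P.toValuationSubring) :
    heckeAlphaBar Qb M p x ∈ P.toValuationSubring := by
  refine mem_place_of_isRegularOver p M (t := coord c (jBarMp p M)) ?_ hP
  rw [coe_coord_jBarMp, coe_heckeAlphaBar]
  exact hx

/-- The second pull back of a regular function is regular where `j(pτ)` is. -/
theorem beta_mem_of_regular {c : Bool} {x : modularFunctionFieldBar M}
    (hx : IsRegularOver (chartCoordRed Qb c) (x : LaurentSeries Qb)) {P : Place Qb F}
    (hP : coord c (jBetaMp p M) ∈ P.toValuationSubring) :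
    heckeBetaBar Qb M p x ∈ P.toValuationSubring := by
  refine mem_place_of_isRegularOver p M (t := coord c (jBetaMp p M)) ?_ hP
  rw [coe_coord_jBetaMp, coe_heckeBetaBar]
  exact isRegularOver_qExpand p hx

/-- A power of `s` clears the poles of `f`. -/
theorem exists_pow_clear {s f : F} {U W : Place Qb F → Prop} (hs0 : s ≠ 0)
    (hs : ∀ P, U P → s ∈ P.toValuationSubring) (hpole : ∀ P, U P → ¬ W P → s = 0 ∨ 0 < P.ord s)
    (hf : ∀ P, W P → f ∈ P.toValuationSubring) :
    ∃ N : ℕ, ∀ P, U P → s ^ N * f ∈ P.toValuationSubring := by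
  haveI := isFunctionField1_mul_prime p M
  refine ⟨∑ P ∈ (finite_ord_ne_zero (K := Qb) f).toFinset, (P.ord f).natAbs, fun P hP => ?_⟩
  set N := ∑ P ∈ (finite_ord_ne_zero (K := Qb) f).toFinset, (P.ord f).natAbs
  by_cases hW : W P
  · exact mul_mem (pow_mem (hs P hP) N) (hf P hW)
  have hsord : 0 < P.ord s := (hpole P hP hW).resolve_left hs0
  rcases eq_or_ne f 0 with h0 | h0
  · rw [h0, mul_zero]; exact zero_mem _
  refine mem_of_ord_nonneg P ?_
  rw [P.ord_mul (pow_ne_zero _ hs0) h0, ord_pow]
  have hle : (P.ord f).natAbs ≤ N := by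
    by_cases hz : P.ord f = 0
    · simp [hz]
    · exact Finset.single_le_sum (f := fun P : Place Qb F => (P.ord f).natAbs)
        (fun _ _ => Nat.zero_le _)
        ((Set.Finite.mem_toFinset (finite_ord_ne_zero (K := Qb) f)).2 hz)
  have : (N : ℤ) ≤ N * P.ord s := le_mul_of_one_le_right (Int.natCast_nonneg N) hsord
  omega

include hpM hA in
/-- The two lifts of a regular function over `𝔽_p`. -/
theorem exists_twisted_lift [Algebra (ZMod p) (ResidueField A)] (hN : (p = 2 → 3 ∣ M) ∧ (p = 3 → 2 ∣ M)) (c : Bool) {a : Fb}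
    (ha : (a : LaurentSeries (ResidueField A)) ∈ primeRegular (q := p) M c) (j : Bool) :
    ∃ f : F, (∀ σ ∈ A.inertiaSubgroupIn ℚ, act p M σ • f = f) ∧
      (∀ P : Place Qb F, coord c (jBarMp p M) ∈ P.toValuationSubring →
        f ∈ P.toValuationSubring) ∧
      ∀ i, ∃ h : f ∈ V A p M i,
        red A p M hpM hA i ⟨f, h⟩ = if i = j then a else a ^ p := by
  haveI := EC.charP_residueField A (Fact.out : p.Prime) hA
  obtain ⟨y, hy, hreg, hya⟩ := ha
  obtain ⟨x, hxfix, hxreg, hxa⟩ := exists_rational_lift A p M hpM hA hN c hy hreg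
  rw [hya] at hxa
  have hpow : qExpand (ResidueField A) p (a : LaurentSeries (ResidueField A)) =
      ((a ^ p : Fb) : LaurentSeries (ResidueField A)) := by
    rw [IntermediateField.coe_pow, ← hya]
    exact qExpand_eq_pow_of_prime y
  obtain ⟨resA, resB⟩ := red_pullbacks A p M hpM hA hxa hpow
  cases j
  · exact ⟨_, fun σ _ => act_smul_alpha p M (hxfix σ),
      fun P hP => alpha_mem_of_regular p M hxreg hP, resA⟩
  cases c
  · refine ⟨_, fun σ _ => act_smul_beta p M (hxfix σ),
      fun P hP => beta_mem_of_regular p M hxreg ?_, resB⟩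
    rw [coord_false] at hP ⊢
    exact jBetaMp_mem p M hP
  -- on the chart at infinity the poles are cleared by a power of `s`
  obtain ⟨s, hsfix, hsres, hsreg, hspole⟩ := exists_clearing A p M hpM hA
  obtain ⟨N, hN⟩ := exists_pow_clear p M
    (U := fun P => (jBarMp p M)⁻¹ ∈ P.toValuationSubring)
    (W := fun P => (jBetaMp p M)⁻¹ ∈ P.toValuationSubring)
    (ne_zero_of_res_eq_one (red A p M hpM hA false) (hsres false)) hsreg hspole
    (f := heckeBetaBar Qb M p x) (fun P hP => beta_mem_of_regular p M hxreg (by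
      rw [coord_true]; exact hP))
  refine ⟨s ^ N * heckeBetaBar Qb M p x,
    fun σ _ => by rw [smul_mul', smul_pow', hsfix, act_smul_beta p M (hxfix σ)],
    fun P hP => hN P (by rw [coord_true] at hP; exact hP),
    fun i => exists_res_pow_mul (red A p M hpM hA i) (hsres i) (resB i) N⟩

include hpM hA in
set_option maxHeartbeats 800000 in
/-- Generators of the affine rings with their lifts. -/
theorem exists_gens_X0 [IsFunctionField1 (ResidueField A) Fb] (hN : (p = 2 → 3 ∣ M) ∧ (p = 3 → 2 ∣ M)) (c : Bool) :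
    ∃ G : Finset Fb, coord c (jResM A M) ∈ G ∧
    (∀ a ∈ G, ∀ Q : Place (ResidueField A) Fb, coord c (jResM A M) ∈ Q.toValuationSubring →
      a ∈ Q.toValuationSubring) ∧
    (∀ g : Fb, (∀ Q : Place (ResidueField A) Fb, coord c (jResM A M) ∈ Q.toValuationSubring →
      g ∈ Q.toValuationSubring) → g ∈ Algebra.adjoin (ResidueField A) (G : Set Fb)) ∧
    ∀ a ∈ G, ∀ j : Bool, ∃ f : F, (∀ σ ∈ A.inertiaSubgroupIn ℚ, act p M σ • f = f) ∧
      (∀ P : Place Qb F, coord c (jBarMp p M) ∈ P.toValuationSubring →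
        f ∈ P.toValuationSubring) ∧
      ∀ i, ∃ h : f ∈ V A p M i,
        red A p M hpM hA i ⟨f, h⟩ = if i = j then a else a ^ p := by
  classical
  haveI := EC.charP_residueField A (Fact.out : p.Prime) hA
  letI : Algebra (ZMod p) (ResidueField A) := ZMod.algebra _ p
  have hk : Algebra.IsAlgebraic (ZMod p) (ResidueField A) := ⟨fun x => by
    obtain ⟨m, hm, hx⟩ := EC.exists_pow_q_pow_eq_self A (Fact.out : p.Prime) hA x
    exact ⟨X ^ p ^ m - X,
      FiniteField.X_pow_card_pow_sub_X_ne_zero _ hm.ne' (Fact.out : p.Prime).one_lt, by simp [hx]⟩⟩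
  set τ : Fb := coord c (jResM A M) with hτ
  have hτK : (τ : LaurentSeries (ResidueField A)) = chartCoordRed (ResidueField A) c :=
    coe_coord_jResM A M c
  have hreg_iff : ∀ g : Fb,
      IsRegularOver (chartCoordRed (ResidueField A) c) (g : LaurentSeries (ResidueField A)) ↔
        ∀ Q : Place (ResidueField A) Fb, τ ∈ Q.toValuationSubring →
          g ∈ Q.toValuationSubring := fun g => by
    rw [← hτK, isRegularOver_iff_forall_place]
    simp only [mem_iff_ord_nonneg]
  set R : Set Fb := {a | (a : LaurentSeries (ResidueField A)) ∈ primeRegular (q := p) M c} with hR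
  have hτR : τ ∈ R :=
    ⟨chartCoordRed (ZMod p) c, by
      cases c
      · exact jqModC_mem_full _ M
      · exact inv_mem (jqModC_mem_full _ M),
      by simpa using IsRegularOver.evalAt_self (chartCoordRed (ZMod p) c) X,
      by rw [coeffMap_chartCoordRed, hτK]⟩
  have hint : ∀ g : Fb, IsIntegral (Algebra.adjoin (ResidueField A) ({τ} : Set Fb)) g ↔
      ∀ Q : Place (ResidueField A) Fb, τ ∈ Q.toValuationSubring → g ∈ Q.toValuationSubring :=
    fun g => by rw [← isRegularOver_iff_isIntegral_adjoin, hτK, hreg_iff]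
  have hspan : ∀ g : Fb, IsIntegral (Algebra.adjoin (ResidueField A) ({τ} : Set Fb)) g →
      g ∈ Submodule.span (ResidueField A) R := fun g hg => by
    obtain ⟨n, d, z, hz, hgz⟩ :=
      exists_combination_primeRegular M hk g.2 ((hreg_iff g).2 ((hint g).1 hg))
    choose y hy hyr hyz using hz
    have hzF : ∀ i, z i ∈ modularFunctionFieldFullC (ResidueField A) M := fun i =>
      hyz i ▸ coeffMap_mem_fullC M _ (hy i)
    have he : g = ∑ i, algebraMap (ResidueField A) Fb (d i) * (⟨z i, hzF i⟩ : Fb) := by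
      apply (IntermediateField.val Fb).toRingHom.injective
      rw [map_sum]
      refine hgz.trans (Finset.sum_congr rfl fun i _ => ?_)
      rw [map_mul]
      show HahnSeries.C (d i) * z i =
        algebraMap (ResidueField A) (LaurentSeries (ResidueField A)) (d i) * z i
      rw [algebraMap_laurentSeries_eq_single, HahnSeries.C_apply]
    rw [he]
    refine Submodule.sum_mem _ fun i _ => ?_
    rw [← Algebra.smul_def]
    exact Submodule.smul_mem _ _ (Submodule.subset_span ⟨y i, hy i, hyr i, hyz i⟩)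
  have hcoordK : chartCoordK (ResidueField A) M c = τ := Subtype.ext (by
    rw [coe_chartCoordK, hτK])
  have hfin := finite_integralClosure_chartCoordK (ResidueField A) M c
  rw [hcoordK] at hfin
  obtain ⟨T, hTR, hT⟩ := exists_finset_generators τ R hfin hspan
  have hmemR : ∀ a ∈ insert τ T, a ∈ R := fun a ha => by
    rcases Finset.mem_insert.1 ha with rfl | h
    · exact hτR
    · exact hTR h
  refine ⟨insert τ T, Finset.mem_insert_self _ _, fun a ha => ?_, fun g hg => ?_,
    fun a ha => exists_twisted_lift A p M hpM hA hN c (hmemR a ha)⟩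
  · obtain ⟨y, -, hyr, hya⟩ := hmemR a ha
    have := hyr.map (algebraMap (ZMod p) (ResidueField A))
    rw [coeffMap_chartCoordRed, hya] at this
    exact (hreg_iff a).1 this
  · rw [Finset.coe_insert]
    exact hT g ((hint g).2 hg)

end Fermat.Agent.LevelP.X0
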