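import Fermat.Agent.LevelP.Model.Data
import Fermat.Agent.BadPrime.RankOne
import Fermat.Agent.Curve.AffineModel
import Fermat.Agent.Reduction.ConstReduction.Eval
import Fermat.Agent.EC.Red.ResidueQbar

/-!
# Input data for the charts of a two-component reduction

The affine charts of the special fibre are computed from: the two valuations with their residues,
the coordinate `t` with residues `tb`, `tb ^ p`, lifts of the pairs `(a, a ^ p)`, `(a ^ p, a)` for
generators `a` of the affine rings of a component, and the unit `w`.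
-/

set_option autoImplicit false

noncomputable section

namespace Fermat.Agent.LevelP.X0

open AlgebraicCurve Fermat.Agent.Curve IsLocalRing
open scoped IntermediateField

local notation "Qb" => AlgebraicClosure ℚ
local notation "Γℚ" => (AlgebraicClosure ℚ ≃ₐ[ℚ] AlgebraicClosure ℚ)

/-- The coordinate of a chart. -/
def coord {R : Type*} [Inv R] (c : Bool) (x : R) : R := if c then x⁻¹ else x

@[simp] theorem coord_false {R : Type*} [Inv R] (x : R) : coord false x = x := rfl

@[simp] theorem coord_true {R : Type*} [Inv R] (x : R) : coord true x = x⁻¹ := rfl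

/-- The functions integral over `A[x]`. -/
def chartRing (A : ValuationSubring Qb) {F : Type*} [Field F] [Algebra Qb F] (x : F) : Subring F :=
  (integralClosure (Subring.closure (algebraMap Qb F '' (A : Set Qb) ∪ {x})) F).toSubring

/-- The inputs. -/
structure ChartInputs (p : ℕ) (A : ValuationSubring Qb) (F : Type*) [Field F] [Algebra Qb F]
    (Fb : Type*) [Field Fb] [Algebra (ResidueField A) Fb] where
  /-- The Galois action. -/
  act : Γℚ →* SemilinearAut Qb F
  baseAut_act : ∀ (σ : Γℚ) (a : Qb), SemilinearAut.baseAut (act σ) a = σ a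
  exists_fixing : ∀ f : F, ∃ L : IntermediateField ℚ Qb, FiniteDimensional ℚ L ∧
    ∀ σ ∈ L.fixingSubgroup, act σ • f = f
  /-- The valuation rings along the two components. -/
  V : Bool → ValuationSubring F
  algebraMap_mem_iff : ∀ i (a : Qb), algebraMap Qb F a ∈ V i ↔ a ∈ A
  act_mem_iff : ∀ i, ∀ σ ∈ A.inertiaSubgroupIn ℚ, ∀ f : F, act σ • f ∈ V i ↔ f ∈ V i
  /-- The residue maps. -/
  red : (i : Bool) → V i →+* Fb
  red_algebraMap : ∀ i (a : A) (ha : algebraMap Qb F a ∈ V i),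
    red i ⟨algebraMap Qb F a, ha⟩ = algebraMap (ResidueField A) Fb (residue A a)
  red_eq_zero_iff : ∀ i (f : V i), red i f = 0 ↔ (f : F) ∈ (V i).nonunits
  red_act : ∀ i, ∀ σ ∈ A.inertiaSubgroupIn ℚ, ∀ (f : V i) (h : act σ • (f : F) ∈ V i),
    red i ⟨act σ • (f : F), h⟩ = red i f
  exists_scale : ∀ i (f : F), f ≠ 0 →
    ∃ c : Qb, c ≠ 0 ∧ (V i).valuation (algebraMap Qb F c * f) = 1
  /-- Residues of constants lift to constants fixed by inertia. -/
  exists_const : ∀ r : ResidueField A, ∃ a : A, residue A a = r ∧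
    ∀ σ ∈ A.inertiaSubgroupIn ℚ, σ (a : Qb) = a
  /-- The coordinate. -/
  t : F
  t_fixed : ∀ σ : Γℚ, act σ • t = t
  /-- Its residue along the first component. -/
  tb : Fb
  transcendental_tb : Transcendental (ResidueField A) tb
  isSeparable_tb : Algebra.IsSeparable (ResidueField A)⟮tb⟯ Fb
  red_t : ∀ i, ∃ h : t ∈ V i, red i ⟨t, h⟩ = if i then tb ^ p else tb
  /-- Regular on a chart and integral along both components implies integral over the chart. -/
  mem_chartRing : ∀ c (x : F), (∀ i, x ∈ V i) →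
    (∀ P : Place Qb F, coord c t ∈ P.toValuationSubring → x ∈ P.toValuationSubring) →
    x ∈ chartRing A (coord c t)
  /-- Generators of the affine rings of a component, lifted with both Frobenius twists. -/
  exists_gens : ∀ c, ∃ G : Finset Fb, coord c tb ∈ G ∧
    (∀ a ∈ G, ∀ Q : Place (ResidueField A) Fb, coord c tb ∈ Q.toValuationSubring →
      a ∈ Q.toValuationSubring) ∧
    (∀ g : Fb, (∀ Q : Place (ResidueField A) Fb, coord c tb ∈ Q.toValuationSubring →
      g ∈ Q.toValuationSubring) → g ∈ Algebra.adjoin (ResidueField A) (G : Set Fb)) ∧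
    ∀ a ∈ G, ∀ j : Bool, ∃ f : F, (∀ σ ∈ A.inertiaSubgroupIn ℚ, act σ • f = f) ∧
      (∀ P : Place Qb F, coord c t ∈ P.toValuationSubring → f ∈ P.toValuationSubring) ∧
      ∀ i, ∃ h : f ∈ V i, red i ⟨f, h⟩ = if i = j then a else a ^ p
  /-- A function separating the cusps on the two components. -/
  exists_cusp : ∃ f : F, (∀ σ ∈ A.inertiaSubgroupIn ℚ, act σ • f = f) ∧
    (∀ P : Place Qb F, t⁻¹ ∈ P.toValuationSubring → f ∈ P.toValuationSubring) ∧
    ∀ i, ∃ h : f ∈ V i, red i ⟨f, h⟩ = if i then tb⁻¹ ^ (p * p - 1) else 1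
  /-- The unit. -/
  w : F
  w_fixed : ∀ σ ∈ A.inertiaSubgroupIn ℚ, act σ • w = w
  w_false : (V false).valuation w = 1
  w_true : (V true).valuation (w / algebraMap Qb F ((p : Qb) ^ 12)) = 1
  ord_w : ∀ P : Place Qb F, t ∈ P.toValuationSubring → P.ord w = 0
  ord_red_w : ∀ (h : w ∈ V false) (Q : Place (ResidueField A) Fb), tb ∈ Q.toValuationSubring →
    0 ≤ Q.ord (red false ⟨w, h⟩) ∧
      (5 ≤ p → 0 < Q.ord (red false ⟨w, h⟩) → ¬ (p : ℤ) ∣ 12 * Q.ord (red false ⟨w, h⟩))
  exists_zero_red_w : ∀ h : w ∈ V false, ∃ Q : Place (ResidueField A) Fb,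
    tb ∈ Q.toValuationSubring ∧ 0 < Q.ord (red false ⟨w, h⟩)
  /-- Rational functions span. -/
  exists_spanning : ∃ G : Finset F, (∀ (σ : Γℚ), ∀ e ∈ G, act σ • e = e) ∧
    Submodule.span Qb⟮t⟯ (G : Set F) = ⊤

namespace ChartInputs

variable {p : ℕ} {A : ValuationSubring Qb} {F : Type*} [Field F] [Algebra Qb F]
  {Fb : Type*} [Field Fb] [Algebra (ResidueField A) Fb] (D : ChartInputs p A F Fb)

/-- The coordinate of a chart upstairs. -/
def tc (c : Bool) : F := coord c D.t

/-- The coordinate of a chart on a component. -/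
def tbc (c : Bool) : Fb := coord c D.tb

/-- Fixed by a group of automorphisms. -/
def Fixed (H : Subgroup Γℚ) (f : F) : Prop := ∀ σ ∈ H, D.act σ • f = f

/-- No pole where the coordinate of the chart is finite. -/
def RegOn (c : Bool) (f : F) : Prop :=
  ∀ P : Place Qb F, D.tc c ∈ P.toValuationSubring → f ∈ P.toValuationSubring

/-- The residue along a component. -/
def HasRes (i : Bool) (f : F) (a : Fb) : Prop := ∃ h : f ∈ D.V i, D.red i ⟨f, h⟩ = a

/-- The ring of a chart. -/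
def ring (c : Bool) : Subring F := chartRing A (D.tc c)

section Res

variable {D} {i : Bool} {f g : F} {a b : Fb}

theorem HasRes.mem (h : D.HasRes i f a) : f ∈ D.V i := h.1

theorem HasRes.unique (h : D.HasRes i f a) (h' : D.HasRes i f b) : a = b := h.2.symm.trans h'.2

theorem hasRes_red (h : f ∈ D.V i) : D.HasRes i f (D.red i ⟨f, h⟩) := ⟨h, rfl⟩

theorem HasRes.add (h : D.HasRes i f a) (h' : D.HasRes i g b) : D.HasRes i (f + g) (a + b) :=
  ⟨add_mem h.1 h'.1, by rw [← h.2, ← h'.2, ← map_add]; rfl⟩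

theorem HasRes.mul (h : D.HasRes i f a) (h' : D.HasRes i g b) : D.HasRes i (f * g) (a * b) :=
  ⟨mul_mem h.1 h'.1, by rw [← h.2, ← h'.2, ← map_mul]; rfl⟩

theorem HasRes.neg (h : D.HasRes i f a) : D.HasRes i (-f) (-a) :=
  ⟨neg_mem h.1, by rw [← h.2, ← map_neg]; rfl⟩

theorem HasRes.sub (h : D.HasRes i f a) (h' : D.HasRes i g b) : D.HasRes i (f - g) (a - b) := by
  simpa [sub_eq_add_neg] using h.add h'.neg

theorem hasRes_one : D.HasRes i 1 1 := ⟨one_mem _, map_one (D.red i)⟩

theorem hasRes_zero : D.HasRes i 0 0 := ⟨zero_mem _, map_zero (D.red i)⟩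

theorem HasRes.pow (h : D.HasRes i f a) : ∀ n : ℕ, D.HasRes i (f ^ n) (a ^ n)
  | 0 => by simpa using hasRes_one
  | n + 1 => by simpa [pow_succ] using (h.pow n).mul h

theorem hasRes_algebraMap (c : A) :
    D.HasRes i (algebraMap Qb F c) (algebraMap (ResidueField A) Fb (residue A c)) :=
  ⟨(D.algebraMap_mem_iff i _).2 c.2, D.red_algebraMap i c _⟩

theorem hasRes_t : D.HasRes i D.t (if i then D.tb ^ p else D.tb) := D.red_t i

theorem HasRes.eq_zero_iff (h : D.HasRes i f a) : a = 0 ↔ (D.V i).valuation f < 1 := by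
  obtain ⟨hf, rfl⟩ := h
  rw [D.red_eq_zero_iff, ValuationSubring.mem_nonunits_iff]

theorem HasRes.valuation_eq_one (h : D.HasRes i f a) (ha : a ≠ 0) : (D.V i).valuation f = 1 :=
  le_antisymm (((D.V i).valuation_le_one_iff f).2 h.1) (le_of_not_gt fun hlt =>
    ha (h.eq_zero_iff.2 hlt))

theorem HasRes.inv (h : D.HasRes i f a) (ha : a ≠ 0) : D.HasRes i f⁻¹ a⁻¹ := by
  have hv := h.valuation_eq_one ha
  have hf : f ≠ 0 := by rintro rfl; simp at hv
  have hmem : f⁻¹ ∈ D.V i := by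
    rw [← ValuationSubring.valuation_le_one_iff, map_inv₀, hv, inv_one]
  obtain ⟨b, hb⟩ : ∃ b, D.HasRes i f⁻¹ b := ⟨_, hasRes_red hmem⟩
  have := (h.mul hb).unique (by rw [mul_inv_cancel₀ hf]; exact hasRes_one)
  rwa [← eq_inv_of_mul_eq_one_right this]

theorem HasRes.act {σ : Γℚ} (hσ : σ ∈ A.inertiaSubgroupIn ℚ) (h : D.HasRes i f a) :
    D.HasRes i (D.act σ • f) a :=
  ⟨(D.act_mem_iff i σ hσ f).2 h.1, (D.red_act i σ hσ ⟨f, h.1⟩ _).trans h.2⟩

end Res

theorem tbc_ne_zero (c : Bool) : D.tbc c ≠ 0 := by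
  have h : D.tb ≠ 0 := fun h => D.transcendental_tb (h ▸ isAlgebraic_zero)
  cases c
  · exact h
  · exact inv_ne_zero h

theorem transcendental_tbc (c : Bool) : Transcendental (ResidueField A) (D.tbc c) := by
  cases c
  · exact D.transcendental_tb
  · exact fun h => D.transcendental_tb (by simpa [tbc] using h.inv)

theorem hasRes_tc (c i : Bool) : D.HasRes i (D.tc c) (if i then D.tbc c ^ p else D.tbc c) := by
  cases c
  · exact hasRes_t
  · cases i
    · exact hasRes_t.inv (D.tbc_ne_zero false)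
    · simp only [tc, tbc, coord_true, inv_pow, if_true]
      exact hasRes_t.inv (pow_ne_zero _ (D.tbc_ne_zero false))

theorem t_ne_zero : D.t ≠ 0 := fun h => D.tbc_ne_zero false
  ((hasRes_t (i := false)).unique (h ▸ hasRes_zero))

theorem tc_mem_V (c i : Bool) : D.tc c ∈ D.V i := (D.hasRes_tc c i).1

section Chart

variable {D} {c : Bool} {f g : F}

theorem algebraMap_mem_ring {a : Qb} (ha : a ∈ A) : algebraMap Qb F a ∈ D.ring c :=
  (mem_integralClosure_iff _ _).2 <| isIntegral_algebraMap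
    (x := (⟨_, Subring.subset_closure (.inl ⟨a, ha, rfl⟩)⟩ :
      Subring.closure (algebraMap Qb F '' (A : Set Qb) ∪ {D.tc c})))

theorem tc_mem_ring : D.tc c ∈ D.ring c :=
  (mem_integralClosure_iff _ _).2 <| isIntegral_algebraMap
    (x := (⟨_, Subring.subset_closure (.inr rfl)⟩ :
      Subring.closure (algebraMap Qb F '' (A : Set Qb) ∪ {D.tc c})))

/-- An integrally closed ring containing the coordinate and the constants contains the chart. -/
theorem ring_le_valuationSubring (W : ValuationSubring F) (hA : ∀ a ∈ A, algebraMap Qb F a ∈ W)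
    (hx : D.tc c ∈ W) (hf : f ∈ D.ring c) : f ∈ W := by
  obtain ⟨P, hP, hPf⟩ := (mem_integralClosure_iff _ _).1 hf
  have hle : Subring.closure (algebraMap Qb F '' (A : Set Qb) ∪ {D.tc c}) ≤ W.toSubring := by
    rw [Subring.closure_le]
    rintro _ (⟨a, ha, rfl⟩ | rfl)
    · exact hA a ha
    · exact hx
  have hint : IsIntegral W f := ⟨P.map (Subring.inclusion hle), hP.map _, by
    rw [Polynomial.eval₂_map]; exact hPf⟩
  obtain ⟨y, hy⟩ := IsIntegrallyClosed.isIntegral_iff.1 hint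
  exact hy ▸ y.2

theorem mem_V_of_mem_ring (hf : f ∈ D.ring c) (i : Bool) : f ∈ D.V i :=
  ring_le_valuationSubring (D.V i) (fun a ha => (D.algebraMap_mem_iff i a).2 ha) (D.tc_mem_V c i) hf

theorem regOn_of_mem_ring (hf : f ∈ D.ring c) : D.RegOn c f := fun P hP =>
  ring_le_valuationSubring P.toValuationSubring (fun a _ => P.algebraMap_mem' a) hP hf

theorem mem_ring_iff : f ∈ D.ring c ↔ (∀ i, f ∈ D.V i) ∧ D.RegOn c f :=
  ⟨fun h => ⟨mem_V_of_mem_ring h, regOn_of_mem_ring h⟩,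
    fun h => D.mem_chartRing c f h.1 h.2⟩

theorem mem_ring_of_hasRes {a : Bool → Fb} (hf : D.RegOn c f) (h : ∀ i, D.HasRes i f (a i)) :
    f ∈ D.ring c := mem_ring_iff.2 ⟨fun i => (h i).1, hf⟩

end Chart

section Action

variable {D} {σ : Γℚ}

theorem act_algebraMap (σ : Γℚ) (a : Qb) :
    D.act σ • algebraMap Qb F a = algebraMap Qb F (σ a) := by
  rw [SemilinearAut.smul_algebraMap, D.baseAut_act]

theorem tc_fixed (c : Bool) (σ : Γℚ) : D.act σ • D.tc c = D.tc c := by
  cases c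
  · exact D.t_fixed σ
  · show D.act σ • D.t⁻¹ = D.t⁻¹
    rw [smul_inv'', D.t_fixed]

theorem act_mem_place_iff {P : Place Qb F} {f : F} :
    D.act σ • f ∈ (D.act σ • P).toValuationSubring ↔ f ∈ P.toValuationSubring := by
  rw [SemilinearAut.smul_toValuationSubring, ValuationSubring.smul_mem_pointwise_smul_iff]

theorem regOn_act {c : Bool} {f : F} (h : D.RegOn c f) : D.RegOn c (D.act σ • f) := fun P hP => by
  have hP' : D.tc c ∈ ((D.act σ)⁻¹ • P).toValuationSubring := by
    have := (act_mem_place_iff (D := D) (σ := σ⁻¹) (P := P)).2 hP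
    rwa [tc_fixed, map_inv] at this
  have := (act_mem_place_iff (D := D) (σ := σ)).2 (h _ hP')
  rwa [smul_inv_smul] at this

theorem act_mem_ring (hσ : σ ∈ A.inertiaSubgroupIn ℚ) {c : Bool} {f : F} (h : f ∈ D.ring c) :
    D.act σ • f ∈ D.ring c :=
  mem_ring_iff.2 ⟨fun i => (D.act_mem_iff i σ hσ f).2 (mem_V_of_mem_ring h i),
    regOn_act (regOn_of_mem_ring h)⟩

variable (D)

theorem finite_orbit (H : Subgroup Γℚ) (f : F) :
    (Set.range fun σ : H => D.act σ • f).Finite := by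
  obtain ⟨L, hL, hfix⟩ := D.exists_fixing f
  haveI : Finite (L →ₐ[ℚ] Qb) := Finite.of_fintype _
  refine Set.Finite.subset (Set.finite_range fun φ : L →ₐ[ℚ] Qb =>
    Classical.epsilon fun x : F => ∃ σ : Γℚ, (σ : Qb →ₐ[ℚ] Qb).comp L.val = φ ∧ D.act σ • f = x) ?_
  rintro _ ⟨σ, rfl⟩
  refine ⟨((σ : Γℚ) : Qb →ₐ[ℚ] Qb).comp L.val, ?_⟩
  obtain ⟨τ, hτ, hτf⟩ := Classical.epsilon_spec
    (p := fun x : F => ∃ τ : Γℚ, (τ : Qb →ₐ[ℚ] Qb).comp L.val =
      ((σ : Γℚ) : Qb →ₐ[ℚ] Qb).comp L.val ∧ D.act τ • f = x) ⟨_, σ, rfl, rfl⟩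
  refine hτf.symm.trans ?_
  have hmem : (σ : Γℚ)⁻¹ * τ ∈ L.fixingSubgroup := fun x => by
    have := DFunLike.congr_fun hτ x
    change τ (x : Qb) = (σ : Γℚ) x at this
    show ((σ : Γℚ)⁻¹ * τ) (x : Qb) = x
    rw [AlgEquiv.mul_apply, this, ← AlgEquiv.mul_apply, inv_mul_cancel, AlgEquiv.one_apply]
  have h := congrArg (D.act σ • ·) (hfix _ hmem)
  simp only [map_mul, mul_smul, map_inv, smul_inv_smul] at h
  exact h

/-- The product of the conjugates. -/
def normOrbit (H : Subgroup Γℚ) (f : F) : F := ∏ x ∈ (D.finite_orbit H f).toFinset, x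

theorem normOrbit_fixed (H : Subgroup Γℚ) (f : F) : D.Fixed H (D.normOrbit H f) := by
  classical
  intro σ hσ
  rw [normOrbit, Finset.smul_prod']
  refine Finset.prod_nbij (fun x => D.act σ • x) ?_ ?_ ?_ fun _ _ => rfl
  · intro x hx
    obtain ⟨τ, rfl⟩ := (Set.Finite.mem_toFinset _).1 hx
    refine (Set.Finite.mem_toFinset _).2 ⟨⟨σ, hσ⟩ * τ, ?_⟩
    simp [mul_smul]
  · exact fun x _ y _ h => MulAction.injective (D.act σ) h
  · intro x hx
    obtain ⟨τ, rfl⟩ := (Set.Finite.mem_toFinset _).1 hx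
    refine ⟨_, (Set.Finite.mem_toFinset _).2 ⟨⟨σ, hσ⟩⁻¹ * τ, rfl⟩, ?_⟩
    simp [mul_smul]

theorem self_mem_orbit (H : Subgroup Γℚ) (f : F) : f ∈ (D.finite_orbit H f).toFinset :=
  (Set.Finite.mem_toFinset _).2 ⟨1, by simp⟩

theorem exists_normOrbit_eq_mul (H : Subgroup Γℚ) (f : F) (S : Submonoid F)
    (h : ∀ σ ∈ H, D.act σ • f ∈ S) : ∃ g ∈ S, D.normOrbit H f = f * g := by
  classical
  refine ⟨∏ x ∈ (D.finite_orbit H f).toFinset.erase f, x, prod_mem fun x hx => ?_,
    (Finset.mul_prod_erase _ (fun x => x) (D.self_mem_orbit H f)).symm⟩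
  obtain ⟨τ, rfl⟩ := (Set.Finite.mem_toFinset _).1 (Finset.mem_of_mem_erase hx)
  exact h _ τ.2

theorem normOrbit_mem (H : Subgroup Γℚ) (f : F) (S : Submonoid F)
    (h : ∀ σ ∈ H, D.act σ • f ∈ S) : D.normOrbit H f ∈ S := prod_mem fun x hx => by
  obtain ⟨τ, rfl⟩ := (Set.Finite.mem_toFinset _).1 hx
  exact h _ τ.2

end Action

section RankOne

variable [Fact p.Prime] (hA : A.LiesOverPrime p)

include hA in
/-- High powers of a function with residue zero are small. -/
theorem exists_pow_valuation_le {i : Bool} {f : F} (hf : (D.V i).valuation f < 1) {g : F}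
    (hg : g ≠ 0) : ∃ n : ℕ, ∀ m, n ≤ m → (D.V i).valuation (f ^ m) ≤ (D.V i).valuation g := by
  rcases eq_or_ne f 0 with rfl | hf0
  · exact ⟨1, fun m hm => by simp [zero_pow (Nat.one_le_iff_ne_zero.1 hm)]⟩
  obtain ⟨c, hc, hcv⟩ := D.exists_scale i f hf0
  obtain ⟨e, he, hev⟩ := D.exists_scale i g hg
  rw [map_mul] at hcv hev
  have hvc : (D.V i).valuation f = (D.V i).valuation (algebraMap Qb F c⁻¹) := by
    rw [map_inv₀, map_inv₀]; exact eq_inv_of_mul_eq_one_right hcv
  have hve : (D.V i).valuation g = (D.V i).valuation (algebraMap Qb F e⁻¹) := by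
    rw [map_inv₀, map_inv₀]; exact eq_inv_of_mul_eq_one_right hev
  have hca : c⁻¹ ∈ A.nonunits := by
    rw [ValuationSubring.mem_nonunits_iff]
    by_contra h
    rw [not_lt, map_inv₀, one_le_inv₀ (zero_lt_iff.2 ((map_ne_zero _).2 hc)),
      A.valuation_le_one_iff, ← D.algebraMap_mem_iff i, ← (D.V i).valuation_le_one_iff] at h
    rw [hvc, map_inv₀, map_inv₀, inv_lt_one₀ (zero_lt_iff.2 (by simpa using hc))] at hf
    exact absurd h (not_le.2 hf)
  haveI : Algebra.IsAlgebraic ℚ Qb := AlgebraicClosure.isAlgebraic ℚ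
  obtain ⟨N, hN⟩ := BadPrime.exists_pow_mul_inv_mem_nonunits (Fact.out : p.Prime) hA hca
    (inv_ne_zero he)
  refine ⟨N, fun m hm => ?_⟩
  have h1 : (D.V i).valuation (f ^ N) ≤ (D.V i).valuation g := by
    have hmem := (D.algebraMap_mem_iff i _).2 (A.nonunits_subset hN)
    rw [← ValuationSubring.valuation_le_one_iff, map_mul, map_pow, map_mul, map_pow, ← hvc,
      map_inv₀ (algebraMap Qb F), map_inv₀ (D.V i).valuation, ← hve,
      ← div_eq_mul_inv, div_le_one₀ (zero_lt_iff.2 ((map_ne_zero _).2 hg))] at hmem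
    rwa [map_pow]
  refine le_trans ?_ h1
  rw [map_pow, map_pow]
  exact pow_le_pow_right_of_le_one' hf.le hm

end RankOne

end ChartInputs

end Fermat.Agent.LevelP.X0
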