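import Fermat.Agent.LevelP.X0.Fields
import Fermat.Agent.LevelP.X0.Charts.Inputs
import Fermat.Agent.BadPrime.GaussModularEq
import Fermat.Agent.BadPrime.RegularDescent
import Fermat.Agent.Modular.Genus

/-!
# The two coordinates `j(τ)`, `j(pτ)` on the charts of `X₀(Mp)`
-/

set_option autoImplicit false
set_option synthInstance.maxHeartbeats 400000
set_option linter.unusedSectionVars false
set_option linter.style.haveILetI false

noncomputable section

namespace Fermat.Agent.LevelP.X0

open AlgebraicCurve ModularCurve IsLocalRing Polynomial Fermat.Agent.Modular Fermat.Agent.BadPrime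
  Fermat.Agent.Curve

local notation "Qb" => AlgebraicClosure ℚ
local notation "Γℚ" => (AlgebraicClosure ℚ ≃ₐ[ℚ] AlgebraicClosure ℚ)

variable (A : ValuationSubring Qb) (p M : ℕ) [Fact p.Prime] [NeZero M]
  [IsAlgClosed (ResidueField A)] (hpM : ¬ p ∣ M) (hA : A.LiesOverPrime p)

local notation "F" => modularFunctionFieldBar (M * p)
local notation "Fb" => modularFunctionFieldFullC (ResidueField A) M

local instance : Algebra.IsAlgebraic ℚ Qb := AlgebraicClosure.isAlgebraic ℚ

/-- `j(pτ)` at level `Mp`. -/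
def jBetaMp : F := heckeBetaBar Qb M p (jL M Qb)

theorem jBarMp_eq : jBarMp p M = heckeAlphaBar Qb M p (jL M Qb) := Subtype.ext rfl

theorem qbarToC : Nonempty (Qb →+* ℂ) :=
  ⟨(IsAlgClosed.lift (R := ℚ) (S := Qb) (M := ℂ) : Qb →ₐ[ℚ] ℂ)⟩

theorem isFunctionField1_mul_prime : IsFunctionField1 Qb F :=
  Modular.isFunctionField1_FL (M * p) qbarToC.some

include hpM in
theorem isALInvolution_swap :
    IsALInvolution ((swap p M : F ≃ₐ[Qb] F) : F →ₐ[Qb] F) :=
  ⟨(swap_spec p M hpM).1, (swap_spec p M hpM).2.1, (swap_spec p M hpM).2.2⟩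

/-- A Gauss reduction gives a residue. -/
theorem hasRed_of_hasGaussRed {i : Bool} {f : F} {g : Fb}
    (h : HasGaussRed (residue A) ((toFirst p M i f : F) : LaurentSeries Qb)
      (g : LaurentSeries (ResidueField A))) :
    ∃ hf : f ∈ V A p M i, red A p M hpM hA i ⟨f, hf⟩ = g :=
  ⟨(mem_V_iff A p M i f).2 ⟨_, h⟩, red_eq_of_hasGaussRed A p M hpM hA i _ h⟩

theorem hasGaussRed_jBarMp :
    HasGaussRed (residue A) ((jBarMp p M : F) : LaurentSeries Qb)
      (jqModC (ResidueField A)) := hasGaussRed_jL (M * p)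

include hA in
theorem hasGaussRed_jBetaMp :
    HasGaussRed (residue A) ((jBetaMp p M : F) : LaurentSeries Qb)
      (jqModC (ResidueField A) ^ p) := by
  haveI := EC.charP_residueField A (Fact.out : p.Prime) hA
  have hb := hasGaussRed_beta (residue A) (q := p) (hasGaussRed_jL (π := residue A) (L := Qb) M)
  rwa [qExpand_jqModC_eq_pow] at hb

include hpM in
theorem toFirst_true_jBarMp : toFirst p M true (jBarMp p M) = jBetaMp p M := by
  rw [toFirst_true, jBarMp_eq]
  exact (swap_spec p M hpM).1 _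

include hpM in
theorem toFirst_true_jBetaMp : toFirst p M true (jBetaMp p M) = jBarMp p M := by
  rw [toFirst_true, jBarMp_eq]
  exact (swap_spec p M hpM).2.1 _

theorem red_jBarMp (i : Bool) :
    ∃ h : jBarMp p M ∈ V A p M i,
      red A p M hpM hA i ⟨jBarMp p M, h⟩ = if i then jResM A M ^ p else jResM A M := by
  refine hasRed_of_hasGaussRed A p M hpM hA ?_
  cases i
  · exact hasGaussRed_jBarMp A p M
  · rw [toFirst_true_jBarMp p M hpM, if_pos rfl, IntermediateField.coe_pow]
    exact hasGaussRed_jBetaMp A p M hA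

theorem red_jBetaMp (i : Bool) :
    ∃ h : jBetaMp p M ∈ V A p M i,
      red A p M hpM hA i ⟨jBetaMp p M, h⟩ = if i then jResM A M else jResM A M ^ p := by
  refine hasRed_of_hasGaussRed A p M hpM hA ?_
  cases i
  · rw [toFirst_false, if_neg Bool.false_ne_true, IntermediateField.coe_pow]
    exact hasGaussRed_jBetaMp A p M hA
  · rw [toFirst_true_jBetaMp p M hpM]
    exact hasGaussRed_jBarMp A p M

theorem jResM_ne_zero : jResM A M ≠ 0 := fun h =>
  jqModC_ne_zero_of_nontrivial (ResidueField A) (congrArg Subtype.val h)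

theorem act_jBarMp (σ : Γℚ) : act p M σ • jBarMp p M = jBarMp p M :=
  Subtype.ext (coeffMap_coeffEmb σ _)

theorem act_jBetaMp (σ : Γℚ) : act p M σ • jBetaMp p M = jBetaMp p M :=
  act_smul_beta p M (coeffMap_coeffEmb σ _)

theorem act_evalIntAt (σ : Γℚ) {x : F} (hx : act p M σ • x = x) (a : ℤ[X]) :
    act p M σ • evalIntAt x a = evalIntAt x a := by
  induction a using Polynomial.induction_on' with
  | add f g hf hg => rw [map_add, smul_add, hf, hg]
  | monomial i c =>
    rw [coe_eval₂RingHom, eval₂_monomial, eq_intCast, smul_mul', smul_pow', hx,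
      SemilinearAut.smul_def, map_intCast]

section Places

variable {K E : Type*} [Field K] [Field E] [Algebra K E] (P : Place K E)

theorem evalIntAt_mem {x : E} (hx : x ∈ P.toValuationSubring) (a : ℤ[X]) :
    evalIntAt x a ∈ P.toValuationSubring := by
  induction a using Polynomial.induction_on' with
  | add f g hf hg => rw [map_add]; exact add_mem hf hg
  | monomial i c =>
    rw [coe_eval₂RingHom, eval₂_monomial, eq_intCast]
    exact mul_mem (intCast_mem _ c) (pow_mem hx i)

/-- `T ^ m a(1 / T)` is regular where `T` is. -/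
theorem inv_pow_mul_evalIntAt_mem {x : E} (hx0 : x ≠ 0) (hx : x⁻¹ ∈ P.toValuationSubring)
    {a : ℤ[X]} {m : ℕ} (ha : a.natDegree ≤ m) :
    x⁻¹ ^ m * evalIntAt x a ∈ P.toValuationSubring := by
  rw [coe_eval₂RingHom, eval₂_eq_sum_range, Finset.mul_sum]
  refine sum_mem fun i hi => ?_
  have hi' : i ≤ m := le_trans (Nat.lt_succ_iff.1 (Finset.mem_range.1 hi)) ha
  have e : x⁻¹ ^ m * ((Int.castRingHom E) (a.coeff i) * x ^ i) =
      (Int.castRingHom E) (a.coeff i) * x⁻¹ ^ (m - i) := by
    rw [← Nat.sub_add_cancel hi', pow_add, Nat.add_sub_cancel, inv_pow x i]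
    field_simp
  rw [e, eq_intCast]
  exact mul_mem (intCast_mem _ _) (pow_mem hx _)

theorem mem_place_of_root {x : E} {q : E[X]} (hq : q.Monic)
    (hcoeff : ∀ i, q.coeff i ∈ P.toValuationSubring) (h : q.eval x = 0) :
    x ∈ P.toValuationSubring := by
  obtain ⟨Q, hQ⟩ := (Polynomial.mem_lifts q).1
    ((Polynomial.lifts_iff_coeff_lifts (f := P.toValuationSubring.subtype) q).2
      fun i => ⟨⟨_, hcoeff i⟩, rfl⟩)
  have hm : Q.Monic := monic_of_injective P.toValuationSubring.subtype_injective (hQ ▸ hq)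
  have hint : IsIntegral P.toValuationSubring x :=
    ⟨Q, hm, by rw [← h, ← hQ, eval_map]; rfl⟩
  obtain ⟨y, hy⟩ := IsIntegrallyClosed.isIntegral_iff.1 hint
  exact hy ▸ y.2

end Places

/-- `j(pτ)` has no pole where `j` has none. -/
theorem jBetaMp_mem {P : Place Qb F} (hP : jBarMp p M ∈ P.toValuationSubring) :
    jBetaMp p M ∈ P.toValuationSubring := by
  obtain ⟨Φ, hΦ⟩ := Mazur.Moduli.exists_isModularShape (p := p)
  refine mem_place_of_root P (hΦ.monic.map (evalIntAt (jBarMp p M))) (fun i => ?_) ?_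
  · rw [coeff_map]; exact evalIntAt_mem P hP _
  · rw [eval_map, jBarMp_eq]; exact eval₂_modularShape_fun hΦ

/-- The relation between `j` and `j(pτ)` scaled by a power of `1/j`. -/
theorem exists_inv_relation :
    ∃ a : ℕ → ℤ[X], (∀ i, 1 ≤ i → i ≤ p → (a i).natDegree ≤ p) ∧ a (p + 1) = 1 ∧
      (a 0).natDegree ≤ p + 1 ∧
      (∑ i ∈ Finset.range (p + 1 + 1), evalIntAt (jBarMp p M) (a i) * jBetaMp p M ^ i = 0) ∧
      ∀ (w : F →ₐ[Qb] F), IsALInvolution w → CharP (ResidueField A) p →
        (a 0).map (Int.castRingHom (ResidueField A)) = X ^ (p + 1) := by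
  obtain ⟨Φ, hΦ⟩ := Mazur.Moduli.exists_isModularShape (p := p)
  refine ⟨Φ.coeff, hΦ.natDegree_coeff_le, hΦ.natDegree_eq ▸ hΦ.monic.coeff_natDegree,
    hΦ.natDegree_coeff_zero, ?_, fun w hw _ => modularShape_coeff_zero (A := A) hΦ hw⟩
  have h := eval₂_modularShape_fun (L := Qb) (M := M) hΦ
  rw [eval₂_eq_sum_range, hΦ.natDegree_eq, ← jBarMp_eq] at h
  exact h

include hpM hA in
/-- A function with residues one clearing the poles of `1 / j(pτ)` on the chart at infinity. -/
theorem exists_clearing : ∃ s : F, (∀ σ : Γℚ, act p M σ • s = s) ∧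
    (∀ i, ∃ h : s ∈ V A p M i, red A p M hpM hA i ⟨s, h⟩ = 1) ∧
    (∀ P : Place Qb F, (jBarMp p M)⁻¹ ∈ P.toValuationSubring → s ∈ P.toValuationSubring) ∧
    ∀ P : Place Qb F, (jBarMp p M)⁻¹ ∈ P.toValuationSubring →
      (jBetaMp p M)⁻¹ ∉ P.toValuationSubring → s = 0 ∨ 0 < P.ord s := by
  haveI := EC.charP_residueField A (Fact.out : p.Prime) hA
  obtain ⟨a, hdeg, htop, hdeg0, hrel, hres⟩ := exists_inv_relation A p M
  have h0 := hres _ (isALInvolution_swap p M hpM) inferInstance
  set J := jBarMp p M with hJ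
  set Y := jBetaMp p M with hY
  have hJ0 : J ≠ 0 := fun h => by
    have h' := hasGaussRed_jBarMp A p M
    rw [← hJ, h, ZeroMemClass.coe_zero] at h'
    exact jqModC_ne_zero_of_nontrivial _ (h'.unique hasGaussRed_zero)
  refine ⟨J⁻¹ ^ (p + 1) * evalIntAt J (a 0), fun σ => ?_, fun i => ?_, fun P hP =>
    inv_pow_mul_evalIntAt_mem P hJ0 hP hdeg0, fun P hP hYP => ?_⟩
  · rw [smul_mul', smul_pow', smul_inv'', act_jBarMp, act_evalIntAt p M σ (act_jBarMp p M σ)]
  · refine hasRed_of_hasGaussRed A p M hpM hA ?_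
    have key : ∀ (x : F) (g : LaurentSeries (ResidueField A)), g ≠ 0 →
        HasGaussRed (residue A) (x : LaurentSeries Qb) g →
        HasGaussRed (residue A) ((x⁻¹ ^ (p + 1) * evalIntAt x (a 0) : F) : LaurentSeries Qb) 1 := by
      intro x g hg hx
      have he : evalIntAt g (a 0) = g ^ (p + 1) := by
        have h := congrArg (fun f : (ResidueField A)[X] => aeval g f) h0
        simp only [map_pow, aeval_X] at h
        rw [← h, aeval_def, eval₂_map, coe_eval₂RingHom]
        congr 1
        exact RingHom.ext_int _ _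
      have h1 := ((hx.inv hg).pow (p + 1)).mul (hasGaussRed_evalIntAt hx (a 0))
      rw [he, ← mul_pow, inv_mul_cancel₀ hg, one_pow] at h1
      rw [IntermediateField.coe_mul, IntermediateField.coe_pow, IntermediateField.coe_inv]
      exact h1
    have e : ∀ f : F, toFirst p M i (evalIntAt f (a 0)) = evalIntAt (toFirst p M i f) (a 0) :=
      fun f => by
        rw [coe_eval₂RingHom, coe_eval₂RingHom, hom_eval₂]
        congr 1
        exact RingHom.ext_int _ _
    rw [map_mul, map_pow, map_inv₀, e, OneMemClass.coe_one]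
    cases i
    · exact key _ _ (jqModC_ne_zero_of_nontrivial _) (hasGaussRed_jBarMp A p M)
    · rw [hJ, toFirst_true_jBarMp p M hpM]
      exact key _ _ (pow_ne_zero _ (jqModC_ne_zero_of_nontrivial _)) (hasGaussRed_jBetaMp A p M hA)
  · set s := J⁻¹ ^ (p + 1) * evalIntAt J (a 0)
    have hY0 : Y ≠ 0 := fun h => hYP (by rw [h, inv_zero]; exact zero_mem _)
    have hYpos : 0 < P.ord Y := by
      by_contra hle
      exact hYP (mem_of_ord_nonneg P (by rw [P.ord_inv]; omega))
    have hs : s = Y * -∑ i ∈ Finset.range (p + 1),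
        J⁻¹ ^ (p + 1) * evalIntAt J (a (i + 1)) * Y ^ i := by
      have h := congrArg (J⁻¹ ^ (p + 1) * ·) hrel
      simp only [mul_zero, Finset.sum_range_succ' _ (p + 1), pow_zero, mul_one, mul_add] at h
      show J⁻¹ ^ (p + 1) * evalIntAt J (a 0) = _
      rw [eq_neg_of_add_eq_zero_right h, mul_neg, Finset.mul_sum, Finset.mul_sum]
      congr 1
      exact Finset.sum_congr rfl fun i _ => by ring
    have hmem : -∑ i ∈ Finset.range (p + 1),
        J⁻¹ ^ (p + 1) * evalIntAt J (a (i + 1)) * Y ^ i ∈ P.toValuationSubring := by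
      refine neg_mem (sum_mem fun i hi => mul_mem
        (inv_pow_mul_evalIntAt_mem P hJ0 hP ?_) (pow_mem (mem_of_ord_nonneg P hYpos.le) i))
      have hi' : i ≤ p := Nat.lt_succ_iff.1 (Finset.mem_range.1 hi)
      rcases Nat.lt_or_ge i p with hlt | hge
      · exact (hdeg (i + 1) (by omega) (by omega)).trans (Nat.le_succ p)
      · rw [show i + 1 = p + 1 by omega, htop, natDegree_one]
        exact Nat.zero_le _
    set r := -∑ i ∈ Finset.range (p + 1), J⁻¹ ^ (p + 1) * evalIntAt J (a (i + 1)) * Y ^ i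
    rcases eq_or_ne r 0 with hr | hr
    · exact .inl (by rw [hs, hr, mul_zero])
    · refine .inr ?_
      rw [hs, P.ord_mul hY0 hr]
      have := ord_nonneg_of_mem P hmem
      omega

include hpM hA in
/-- `j(pτ) / j(τ) ^ p` separates the cusps on the two components. -/
theorem exists_cusp_function : ∃ f : F, (∀ σ ∈ A.inertiaSubgroupIn ℚ, act p M σ • f = f) ∧
    (∀ P : Place Qb F, (jBarMp p M)⁻¹ ∈ P.toValuationSubring → f ∈ P.toValuationSubring) ∧
    ∀ i, ∃ h : f ∈ V A p M i,
      red A p M hpM hA i ⟨f, h⟩ = if i then (jResM A M)⁻¹ ^ (p * p - 1) else 1 := by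
  obtain ⟨a, hdeg, htop, hdeg0, hrel, -⟩ := exists_inv_relation A p M
  set J := jBarMp p M with hJ
  set Y := jBetaMp p M with hY
  have hJ0 : J ≠ 0 := fun h => by
    have h' := hasGaussRed_jBarMp A p M
    rw [← hJ, h, ZeroMemClass.coe_zero] at h'
    exact jqModC_ne_zero_of_nontrivial _ (h'.unique hasGaussRed_zero)
  refine ⟨Y * J⁻¹ ^ p, fun σ _ => by rw [smul_mul', smul_pow', smul_inv'', act_jBarMp, act_jBetaMp],
    fun P hP => ?_, fun i => ?_⟩
  · let q : F[X] := X ^ (p + 1) + ∑ i ∈ Finset.range (p + 1),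
      C (J⁻¹ ^ (p * (p + 1 - i)) * evalIntAt J (a i)) * X ^ i
    refine mem_place_of_root P (q := q) ?_ (fun n => ?_) ?_
    · refine monic_X_pow_add (lt_of_le_of_lt (degree_sum_le _ _) ?_)
      rw [Finset.sup_lt_iff (WithBot.bot_lt_coe _)]
      intro i hi
      exact lt_of_le_of_lt (degree_C_mul_X_pow_le _ _)
        (WithBot.coe_lt_coe.2 (Finset.mem_range.1 hi))
    · simp only [q, coeff_add, coeff_X_pow, finsetSum_coeff, coeff_C_mul_X_pow]
      refine add_mem (by split_ifs <;> simp) (sum_mem fun i hi => ?_)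
      split_ifs with h
      swap
      · exact zero_mem _
      have hi' : i ≤ p := Nat.lt_succ_iff.1 (Finset.mem_range.1 hi)
      refine inv_pow_mul_evalIntAt_mem P hJ0 hP ?_
      rcases Nat.eq_zero_or_pos i with rfl | hi0
      · refine hdeg0.trans ?_
        rw [Nat.sub_zero]
        exact Nat.le_mul_of_pos_left _ (Fact.out : p.Prime).pos
      · exact (hdeg i hi0 hi').trans (Nat.le_mul_of_pos_right _ (by omega))
    · simp only [q, eval_add, eval_pow, eval_X, eval_finsetSum, eval_mul, eval_C]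
      have h := congrArg (J⁻¹ ^ (p * (p + 1)) * ·) hrel
      rw [Finset.sum_range_succ _ (p + 1), htop, map_one, one_mul] at h
      simp only [mul_zero] at h
      rw [mul_add (J⁻¹ ^ (p * (p + 1))), Finset.mul_sum] at h
      refine Eq.trans ?_ h
      rw [add_comm]
      congr 1
      · refine Finset.sum_congr rfl fun i hi => ?_
        have hi' : i ≤ p + 1 := (Finset.mem_range.1 hi).le
        have e : J⁻¹ ^ (p * (p + 1)) = J⁻¹ ^ (p * (p + 1 - i)) * (J⁻¹ ^ p) ^ i := by
          rw [← pow_mul, ← pow_add, ← Nat.mul_add, Nat.sub_add_cancel hi']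
        rw [e, mul_pow]
        ring
      · rw [mul_pow, ← pow_mul]
        ring
  · obtain ⟨hJm, hJr⟩ := red_jBarMp A p M hpM hA i
    obtain ⟨hYm, hYr⟩ := red_jBetaMp A p M hpM hA i
    refine hasRed_of_hasGaussRed A p M hpM hA ?_
    have hJ' := hasGaussRed_red A p M hpM hA i ⟨J, hJm⟩
    have hY' := hasGaussRed_red A p M hpM hA i ⟨Y, hYm⟩
    rw [hJr] at hJ'
    rw [hYr] at hY'
    have hne : (if i then jResM A M ^ p else jResM A M) ≠ 0 := by
      cases i <;> simp [jResM_ne_zero]
    have h := hY'.mul ((hJ'.inv fun h => hne (Subtype.ext h)).pow p)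
    rw [← IntermediateField.coe_inv, ← IntermediateField.coe_pow, ← IntermediateField.coe_mul,
      ← IntermediateField.coe_inv, ← IntermediateField.coe_pow, ← IntermediateField.coe_mul,
      ← map_inv₀, ← map_pow, ← map_mul] at h
    convert h using 2
    have hj := jResM_ne_zero A M
    cases i
    · simp only [Bool.false_eq_true, if_false]
      rw [inv_pow, mul_inv_cancel₀ (pow_ne_zero _ hj)]
    · simp only [if_true]
      obtain ⟨n, hn⟩ := Nat.exists_eq_add_of_le
        (Nat.one_le_iff_ne_zero.2 (Nat.mul_ne_zero (Fact.out : p.Prime).ne_zero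
          (Fact.out : p.Prime).ne_zero))
      rw [hn, Nat.add_sub_cancel_left, ← inv_pow, ← pow_mul, hn, pow_add, pow_one]
      field_simp

end Fermat.Agent.LevelP.X0
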