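import Fermat.Agent.LevelP.X0.Fields
import Fermat.Agent.LevelP.X0.Charts.Inputs
import Fermat.Agent.LevelP.X0.Charts.Coord
import Fermat.Agent.BadPrime.RegularDescent
import Fermat.Agent.Modular.Genus

/-!
# Integrality over the charts of `X₀(Mp)` and generators of its function field
-/

set_option autoImplicit false
set_option synthInstance.maxHeartbeats 400000
set_option maxHeartbeats 1000000
set_option linter.unusedSectionVars false
set_option linter.style.haveILetI false

noncomputable section

namespace Fermat.Agent.LevelP.X0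

open AlgebraicCurve ModularCurve IsLocalRing Polynomial Fermat.Agent.Modular Fermat.Agent.BadPrime
  Fermat.Agent.Curve
open scoped IntermediateField

local notation "Qb" => AlgebraicClosure ℚ
local notation "Γℚ" => (AlgebraicClosure ℚ ≃ₐ[ℚ] AlgebraicClosure ℚ)

variable (A : ValuationSubring Qb) (p M : ℕ) [Fact p.Prime] [NeZero M]

local notation "F" => modularFunctionFieldBar (M * p)
local notation "Fb" => modularFunctionFieldFullC (ResidueField A) M

local instance : Algebra.IsAlgebraic ℚ Qb := AlgebraicClosure.isAlgebraic ℚ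

/-- The Gauss ring of `Qb(j)` inside the function field of level `Mp`. -/
abbrev gaussLine : ValuationSubring Qb⟮jBarMp p M⟯ :=
  (gauss A p M).comap (algebraMap Qb⟮jBarMp p M⟯ F)

variable {A p M}

theorem alpha_mem_adjoin {c : FL M Qb} (hc : c ∈ Qb⟮jL M Qb⟯) :
    heckeAlphaBar Qb M p c ∈ Qb⟮jBarMp p M⟯ := by
  have e : (Qb⟮jL M Qb⟯).map (heckeAlphaBar Qb M p) = Qb⟮jBarMp p M⟯ := by
    rw [IntermediateField.adjoin_map, Set.image_singleton, jBarMp_eq]
  rw [← e]
  exact ⟨c, hc, rfl⟩

variable (A p M)

/-- The Gauss ring of `Qb(j)` at level `M` inside the one at level `Mp`. -/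
def gaussLineHom : gaussJ (residue A) M →+* gaussLine A p M where
  toFun g := ⟨⟨heckeAlphaBar Qb M p ((g : Qb⟮jL M Qb⟯) : FL M Qb),
      alpha_mem_adjoin (g : Qb⟮jL M Qb⟯).2⟩, by
    obtain ⟨gb, hgb⟩ := g.2
    refine ⟨gb, ?_⟩
    show HasGaussRed _ ((heckeAlphaBar Qb M p _ : F) : LaurentSeries Qb) gb
    rw [coe_heckeAlphaBar]
    exact hgb⟩
  map_one' := Subtype.ext (Subtype.ext (map_one (heckeAlphaBar Qb M p)))
  map_zero' := Subtype.ext (Subtype.ext (map_zero (heckeAlphaBar Qb M p)))
  map_mul' _ _ := Subtype.ext (Subtype.ext (map_mul (heckeAlphaBar Qb M p) _ _))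
  map_add' _ _ := Subtype.ext (Subtype.ext (map_add (heckeAlphaBar Qb M p) _ _))

variable {A p M}

attribute [local instance] alphaAlgebra

/-- An element of both Gauss rings is integral over the one of `Qb(j)`. -/
theorem isIntegral_gaussLine [IsAlgClosed (ResidueField A)] (hpM : ¬ p ∣ M)
    (hA : A.LiesOverPrime p) {x : F} (hV : ∀ i, x ∈ V A p M i) :
    IsIntegral (gaussLine A p M) x := by
  haveI := EC.charP_residueField A (Fact.out : p.Prime) hA
  have hfd := hasFullResidueDegree_qbar A hpM hA
  have hw := isALInvolution_swap p M hpM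
  have hx : x ∈ pairBv (residue A) ((swap p M : F ≃ₐ[Qb] F) : F →ₐ[Qb] F) :=
    (mem_pairBv _ _).2 ⟨hV false, hV true⟩
  letI : Algebra (gaussFL (residue A) M) F :=
    ((heckeAlphaBar Qb M p).toRingHom.comp (gaussFL (residue A) M).subtype).toAlgebra
  haveI : IsScalarTower (gaussFL (residue A) M) (FL M Qb) F :=
    IsScalarTower.of_algebraMap_eq fun _ => rfl
  have h1 := isIntegral_pairBv (residue A) qbarToC.some hpM hw hx
  letI : Algebra (gaussJ (residue A) M) (FL M Qb) :=
    ((algebraMap Qb⟮jL M Qb⟯ (FL M Qb)).comp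
      (algebraMap (gaussJ (residue A) M) Qb⟮jL M Qb⟯)).toAlgebra
  haveI : IsScalarTower (gaussJ (residue A) M) Qb⟮jL M Qb⟯ (FL M Qb) :=
    IsScalarTower.of_algebraMap_eq fun _ => rfl
  have h0 : ∀ g : gaussFL (residue A) M,
      IsIntegral (gaussLine A p M) (heckeAlphaBar Qb M p (g : FL M Qb)) := fun g =>
    (isIntegral_gaussFL residue_surjective hfd g.2).map_of_comp_eq (gaussLineHom A p M)
      (heckeAlphaBar Qb M p).toRingHom (RingHom.ext fun _ => rfl)
  let φ : gaussFL (residue A) M →+* integralClosure (gaussLine A p M) F :=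
    ((heckeAlphaBar Qb M p).toRingHom.comp (gaussFL (residue A) M).subtype).codRestrict
      (integralClosure (gaussLine A p M) F).toSubring h0
  exact isIntegral_trans (A := integralClosure (gaussLine A p M) F) x
    (h1.map_of_comp_eq φ (RingHom.id F) (RingHom.ext fun _ => rfl))

theorem transcendental_coord {K E : Type*} [Field K] [Field E] [Algebra K E] {x : E}
    (c : Bool) (hx : Transcendental K x) : Transcendental K (coord c x) := by
  cases c
  · exact hx
  · exact fun h => hx (by simpa using h.inv)

theorem coord_mem {K : Type*} [Field K] {E : Type*} [Field E] [Algebra K E]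
    {L : IntermediateField K E} {x : E} (c : Bool) (hx : x ∈ L) : coord c x ∈ L := by
  cases c
  · exact hx
  · exact inv_mem hx

theorem adjoin_coord {K E : Type*} [Field K] [Field E] [Algebra K E] (c : Bool) (x : E) :
    K⟮coord c x⟯ = K⟮x⟯ := by
  cases c
  · rfl
  · exact adjoin_inv x

/-- Regular on a chart and integral along both components means integral over the chart. -/
theorem mem_chartRing_X0 [IsAlgClosed (ResidueField A)] (hpM : ¬ p ∣ M) (hA : A.LiesOverPrime p)
    (c : Bool) (x : F) (hV : ∀ i, x ∈ V A p M i)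
    (hreg : ∀ P : Place Qb F, coord c (jBarMp p M) ∈ P.toValuationSubring →
      x ∈ P.toValuationSubring) :
    x ∈ chartRing A (coord c (jBarMp p M)) := by
  haveI := isFunctionField1_mul_prime p M
  set s := coord c (jBarMp p M) with hs
  set K := Qb⟮jBarMp p M⟯
  set sK : K := ⟨s, coord_mem c (IntermediateField.mem_adjoin_simple_self Qb _)⟩
  have htr : Transcendental Qb s :=
    transcendental_coord c (Modular.transcendental_jL (M * p) qbarToC.some)
  have haev : ∀ P : Qb[X], ((aeval sK P : K) : F) = aeval s P := fun P =>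
    (aeval_algHom_apply K.val sK P).symm
  letI : Algebra Qb[X] K := (aeval (R := Qb) sK).toRingHom.toAlgebra
  letI : Algebra Qb[X] F := (aeval (R := Qb) s).toRingHom.toAlgebra
  haveI : IsScalarTower Qb[X] K F := IsScalarTower.of_algebraMap_eq fun P => (haev P).symm
  haveI : FaithfulSMul Qb[X] K := (faithfulSMul_iff_algebraMap_injective _ _).2 fun P P' h =>
    transcendental_iff_injective.1 htr (by rw [← haev, ← haev]; exact congrArg Subtype.val h)
  haveI : IsFractionRing Qb[X] K := IsFractionRing.of_field Qb[X] K fun z => by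
    have hz : (z : F) ∈ Qb⟮s⟯ := by rw [hs, adjoin_coord]; exact z.2
    obtain ⟨r, u, hru⟩ := (IntermediateField.mem_adjoin_simple_iff Qb _).1 hz
    refine ⟨r, u, Subtype.ext ?_⟩
    rw [IntermediateField.coe_div]
    exact hru.trans (congrArg₂ (· / ·) (haev r).symm (haev u).symm)
  have h2 : IsIntegral Qb[X] x := by
    have h := (isIntegral_adjoin_iff ({s} : Set F) x).2 fun P hP => hreg P (hP s rfl)
    let e : Qb[X] ≃ₐ[Qb] Algebra.adjoin Qb ({s} : Set F) :=
      (AlgEquiv.ofInjective (aeval s) (transcendental_iff_injective.1 htr)).trans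
        (Subalgebra.equivOfEq _ _ (Algebra.adjoin_singleton_eq_range_aeval Qb s).symm)
    refine h.map_of_comp_eq e.symm.toRingEquiv.toRingHom (RingHom.id F) (RingHom.ext fun a => ?_)
    show aeval s (e.symm a) = (a : F)
    conv_rhs => rw [← e.apply_symm_apply a]
    rfl
  set S₀ := Subring.closure (algebraMap Qb F '' (A : Set Qb) ∪ {s})
  have hS : S₀ ≤ K.toSubfield.toSubring := by
    rw [Subring.closure_le]
    rintro _ (⟨a, -, rfl⟩ | rfl)
    · exact K.algebraMap_mem a
    · exact sK.2
  letI : Algebra S₀ K :=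
    ((Subring.subtype S₀).codRestrict K.toSubfield.toSubring fun r => hS r.2).toAlgebra
  haveI : IsScalarTower S₀ K F := IsScalarTower.of_algebraMap_eq fun _ => rfl
  refine (mem_integralClosure_iff _ _).2 (isIntegral_of_isIntegral_pair (K := K)
    (R₁ := gaussLine A p M) (R₂ := Qb[X]) (R := S₀) ?_ (isIntegral_gaussLine hpM hA hV) h2)
  rintro z ⟨g, rfl⟩ ⟨P, hP⟩
  obtain ⟨gb, hgb⟩ := g.2
  have hred : HasGaussRed (residue A) (P.eval₂ HahnSeries.C (s : LaurentSeries Qb)) gb := by
    have e : ∀ R : Qb[X], ((aeval s R : F) : LaurentSeries Qb) =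
        R.eval₂ HahnSeries.C (s : LaurentSeries Qb) := fun R => by
      induction R using Polynomial.induction_on' with
      | add R Q hR hQ => rw [map_add, eval₂_add, ← hR, ← hQ]; rfl
      | monomial i a =>
        rw [aeval_monomial, eval₂_monomial, IntermediateField.coe_mul, coe_algebraMap_FL,
          IntermediateField.coe_pow]
    rw [← e, ← haev, show aeval sK P = algebraMap (gaussLine A p M) K g from hP]
    exact hgb
  have hsred : HasGaussRed (residue A) (s : LaurentSeries Qb)
      (coord c (jqModC (ResidueField A))) := by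
    rw [hs]
    cases c
    · exact hasGaussRed_jBarMp A p M
    · exact (hasGaussRed_jBarMp A p M).inv (jqModC_ne_zero_of_nontrivial _)
  have hPA : ∀ i, P.coeff i ∈ A := coeff_mem_of_hasGaussRed_aeval (residue A) hsred
    (transcendental_coord c BadPrime.transcendental_jqModC) P hred
  refine ⟨⟨aeval s P, ?_⟩, Subtype.ext ((haev P).symm.trans (congrArg Subtype.val hP))⟩
  rw [aeval_eq_sum_range]
  refine sum_mem fun i _ => ?_
  rw [Algebra.smul_def]
  exact mul_mem (Subring.subset_closure (.inl ⟨_, hPA i, rfl⟩))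
    (pow_mem (Subring.subset_closure (.inr rfl) : s ∈ S₀) i)

/-- Functions with rational expansions span over `Qb(j)`. -/
theorem exists_spanning_X0 :
    ∃ G : Finset F, (∀ (σ : Γℚ), ∀ e ∈ G, act p M σ • e = e) ∧
      Submodule.span Qb⟮jBarMp p M⟯ (G : Set F) = ⊤ := by
  classical
  set y : F := jdL (M * p) Qb dvd_rfl with hy
  have hyfix : ∀ σ : Γℚ, act p M σ • y = y := fun σ => Subtype.ext (coeffMap_coeffEmb σ _)
  have hint : IsIntegral Qb⟮jBarMp p M⟯ y :=
    (Modular.natDegree_minpoly_jdL (M * p) qbarToC.some).1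
  refine ⟨(Finset.range (minpoly Qb⟮jBarMp p M⟯ y).natDegree).image (fun i => y ^ i),
    fun σ e he => ?_, eq_top_iff.2 fun z _ => ?_⟩
  · obtain ⟨i, -, rfl⟩ := Finset.mem_image.1 he
    rw [smul_pow', hyfix]
  · have hz : z ∈ IntermediateField.adjoin Qb⟮jBarMp p M⟯ ({y} : Set F) :=
      (Modular.adjoin_jdL_eq_top (M * p) qbarToC.some).ge (IntermediateField.mem_top (x := z))
    rw [← IntermediateField.mem_toSubalgebra,
      IntermediateField.adjoin_simple_toSubalgebra_of_isAlgebraic hint.isAlgebraic,
      Algebra.adjoin_singleton_eq_range_aeval] at hz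
    obtain ⟨P, rfl⟩ := hz
    show aeval y P ∈ _
    rw [← aeval_modByMonic_eq_self_of_root (minpoly.aeval _ y),
      aeval_eq_sum_range' (natDegree_modByMonic_lt _ (minpoly.monic hint) (minpoly.ne_one _ y))]
    exact Submodule.sum_mem _ fun i hi => Submodule.smul_mem _ _
      (Submodule.subset_span (Finset.mem_coe.2 (Finset.mem_image_of_mem _ hi)))

variable (A p M)

theorem transcendental_jResM : Transcendental (ResidueField A) (jResM A M) :=
  Reduction.transcendental_jRes M (ResidueField A)

/-- The coordinate of the components is separating. -/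
theorem isSeparable_jResM (hpM : ¬ p ∣ M) (hA : A.LiesOverPrime p) :
    Algebra.IsSeparable (ResidueField A)⟮jResM A M⟯ Fb :=
  Reduction.isSeparable_jRes M hpM A hA

theorem isFunctionField1_fullC_X0 : Curve.IsFunctionField1 (ResidueField A) Fb :=
  Reduction.isFunctionField1_fullC M (ResidueField A)

end Fermat.Agent.LevelP.X0
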