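import Fermat.Agent.LevelP.X0.Unit
import Fermat.Agent.LevelP.X0.Charts.Gens
import Fermat.Agent.LevelP.X0.Charts.Integral

/-!
# The chart inputs of `X₀(Mp)` at a place over `p`
-/

set_option autoImplicit false
set_option synthInstance.maxHeartbeats 400000
set_option linter.style.haveILetI false

noncomputable section

namespace Fermat.Agent.LevelP.X0

open AlgebraicCurve ModularCurve IsLocalRing Fermat.Agent.Modular Fermat.Agent.BadPrime
  Fermat.Agent.Curve

local notation "Qb" => AlgebraicClosure ℚ
local notation "Γℚ" => (AlgebraicClosure ℚ ≃ₐ[ℚ] AlgebraicClosure ℚ)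

variable (A : ValuationSubring Qb) (p M : ℕ) [Fact p.Prime] [NeZero M]
  [IsAlgClosed (ResidueField A)]

local notation "F" => modularFunctionFieldBar (M * p)
local notation "Fb" => modularFunctionFieldFullC (ResidueField A) M

theorem exists_const_X0 (hA : A.LiesOverPrime p) (r : ResidueField A) :
    ∃ a : A, residue A a = r ∧ ∀ σ ∈ A.inertiaSubgroupIn ℚ, σ (a : Qb) = a :=
  (exists_fixed_residue_eq A hA r).imp fun _ h => ⟨h.2, h.1⟩

theorem exists_scale_X0 (hpM : ¬ p ∣ M) (i : Bool) (f : F) (hf : f ≠ 0) :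
    ∃ c : Qb, c ≠ 0 ∧ (V A p M i).valuation (algebraMap Qb F c * f) = 1 := by
  obtain ⟨c, hc, -, h⟩ := exists_scale A p M hpM i (H := ⊥) bot_le hf fun σ hσ => by
    rw [Subgroup.mem_bot.1 hσ, map_one, one_smul]
  exact ⟨c, hc, h⟩

theorem baseAut_act_X0 (σ : Γℚ) (a : Qb) : SemilinearAut.baseAut (act p M σ) a = σ a := rfl

/-- The inputs for the charts of `X₀(Mp)`. -/
def chartInputs (hN : (p = 2 → 3 ∣ M) ∧ (p = 3 → 2 ∣ M)) (hpM : ¬ p ∣ M) (hA : A.LiesOverPrime p) :
    ChartInputs p A F Fb where
  act := act p M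
  baseAut_act := baseAut_act_X0 p M
  exists_fixing := exists_fixing p M
  V := V A p M
  algebraMap_mem_iff := algebraMap_mem_V_iff A p M
  act_mem_iff := fun i _ hσ f => act_mem_iff A p M hpM i hσ f
  red := red A p M hpM hA
  red_algebraMap := red_algebraMap A p M hpM hA
  red_eq_zero_iff := red_eq_zero_iff A p M hpM hA
  red_act := fun i _ hσ f h => red_act A p M hpM hA i hσ f h
  exists_scale := exists_scale_X0 A p M hpM
  exists_const := exists_const_X0 A p hA
  t := jBarMp p M
  t_fixed := act_jBarMp p M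
  tb := jResM A M
  transcendental_tb := transcendental_jResM A M
  isSeparable_tb := isSeparable_jResM A p M hpM hA
  red_t := red_jBarMp A p M hpM hA
  mem_chartRing := fun c x hV hreg => mem_chartRing_X0 hpM hA c x hV hreg
  exists_gens := by
    haveI := isFunctionField1_fullC_X0 A M
    exact exists_gens_X0 A p M hpM hA hN
  exists_cusp := exists_cusp_function A p M hpM hA
  w := unitW p M
  w_fixed := fun σ _ => unitW_fixed p M σ
  w_false := unitW_false A p M
  w_true := unitW_true A p M hpM hA
  ord_w := ord_unitW p M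
  ord_red_w := fun h Q hQ => ord_red_unitW' A p M hpM hA h Q hQ
  exists_zero_red_w := fun h => exists_zero_red_unitW' A p M hpM hA h
  exists_spanning := exists_spanning_X0

end Fermat.Agent.LevelP.X0
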