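import Fermat.Agent.LevelP.X0.Charts.Inputs
import Fermat.Agent.Curve.RatPlaces

/-!
# The affine rings of a component

`compRing c` consists of the functions on the component regular where the coordinate of the chart
is finite; its `k`-points are the places where that coordinate is finite.
-/

set_option autoImplicit false

noncomputable section

namespace Fermat.Agent.LevelP.X0.ChartInputs

open AlgebraicCurve Fermat.Agent.Curve IsLocalRing Fermat.Agent.Reduction.ConstRed
open scoped IntermediateField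

local notation "Qb" => AlgebraicClosure ℚ

variable {p : ℕ} {A : ValuationSubring Qb} {F : Type*} [Field F] [Algebra Qb F]
  {Fb : Type*} [Field Fb] [Algebra (ResidueField A) Fb] (D : ChartInputs p A F Fb)

local notation "k" => ResidueField A

/-- The affine ring of a component on a chart. -/
def compRing (c : Bool) : Subalgebra k Fb where
  carrier := {g | ∀ Q : Place k Fb, D.tbc c ∈ Q.toValuationSubring → g ∈ Q.toValuationSubring}
  mul_mem' hf hg Q hQ := mul_mem (hf Q hQ) (hg Q hQ)
  one_mem' _ _ := one_mem _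
  add_mem' hf hg Q hQ := add_mem (hf Q hQ) (hg Q hQ)
  zero_mem' _ _ := zero_mem _
  algebraMap_mem' a Q _ := Q.algebraMap_mem' a

theorem tbc_mem_compRing (c : Bool) : D.tbc c ∈ D.compRing c := fun _ h => h

theorem adjoin_tbc (c : Bool) : k⟮D.tbc c⟯ = k⟮D.tb⟯ := by
  cases c
  · rfl
  · exact Curve.adjoin_inv D.tb

theorem isSeparable_tbc (c : Bool) : Algebra.IsSeparable k⟮D.tbc c⟯ Fb := by
  have h := D.isSeparable_tb
  rwa [← D.adjoin_tbc c] at h

variable [IsAlgClosed (ResidueField A)] [IsFunctionField1 (ResidueField A) Fb]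
variable {c : Bool}

/-- Every `k`-point of the affine ring is a place. -/
theorem exists_place (g : D.compRing c →ₐ[k] k) :
    ∃ Q : Place k Fb, D.tbc c ∈ Q.toValuationSubring ∧
      ∀ a : D.compRing c, evalAt Q (a : Fb) = g a := by
  let tt : (D.compRing c).toSubring := ⟨D.tbc c, D.tbc_mem_compRing c⟩
  let gr : (D.compRing c).toSubring →+* k := g.toRingHom
  have hne : RingHom.ker gr ≠ ⊤ := RingHom.ker_ne_top _
  obtain ⟨B, hB, hI⟩ := Ideal.image_subset_nonunits_valuationSubring _ hne
  set z : Fb := D.tbc c - algebraMap k Fb (gr tt) with hz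
  have hzB : z ∈ B.nonunits := by
    refine hI ⟨tt - ⟨algebraMap k Fb (gr tt), (D.compRing c).algebraMap_mem _⟩, ?_, rfl⟩
    rw [SetLike.mem_coe, RingHom.mem_ker, map_sub, sub_eq_zero]
    exact (g.commutes (gr tt)).symm
  have hz0 : z ≠ 0 := fun h => D.transcendental_tbc c (by
    rw [sub_eq_zero.1 h]; exact isAlgebraic_algebraMap _)
  have hBne : B ≠ ⊤ := by
    rintro rfl
    have h1 : (⊤ : ValuationSubring Fb).valuation z⁻¹ ≤ 1 :=
      (ValuationSubring.valuation_le_one_iff _ _).2 trivial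
    rw [map_inv₀, inv_le_one₀ (zero_lt_iff.2 ((map_ne_zero _).2 hz0))] at h1
    exact not_le.2 ((ValuationSubring.mem_nonunits_iff _).1 hzB) h1
  refine ⟨placeOfValuationSubring B (fun a => hB ((D.compRing c).algebraMap_mem a)) hBne,
    hB (D.tbc_mem_compRing c), fun a => ?_⟩
  set Q := placeOfValuationSubring B (fun a => hB ((D.compRing c).algebraMap_mem a)) hBne
  have ha : (a : Fb) - algebraMap k Fb (g a) ∈ B.nonunits := by
    refine hI ⟨(⟨a, a.2⟩ - ⟨algebraMap k Fb (g a), (D.compRing c).algebraMap_mem _⟩ :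
      (D.compRing c).toSubring), ?_, rfl⟩
    rw [SetLike.mem_coe, RingHom.mem_ker, map_sub, sub_eq_zero]
    exact (g.commutes (g a)).symm
  have hmem : (a : Fb) ∈ Q.toValuationSubring := hB a.2
  have hmem' : (a : Fb) - algebraMap k Fb (g a) ∈ Q.toValuationSubring := B.nonunits_subset ha
  have h0 : evalAt Q ((a : Fb) - algebraMap k Fb (g a)) = 0 := by
    rw [evalAt_eq_zero_iff Q hmem']
    by_contra h
    push Not at h
    have hinv : ((a : Fb) - algebraMap k Fb (g a))⁻¹ ∈ Q.toValuationSubring :=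
      mem_of_ord_nonneg Q (by rw [Q.ord_inv]; omega)
    rw [← ValuationSubring.valuation_le_one_iff, map_inv₀,
      inv_le_one₀ (zero_lt_iff.2 ((map_ne_zero _).2 h.1))] at hinv
    exact not_le.2 ((ValuationSubring.mem_nonunits_iff _).1 ha) hinv
  rwa [evalAt_sub Q hmem (Q.algebraMap_mem' _), evalAt_algebraMap, sub_eq_zero] at h0

theorem mem_affineModel_iff_compRing {g : Fb} :
    g ∈ affineModel k (D.tbc c) ↔ g ∈ D.compRing c := mem_affineModel_iff _

/-- Places of the chart are separated by the affine ring. -/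
theorem place_ext {Q Q' : Place k Fb} (hQ : D.tbc c ∈ Q.toValuationSubring)
    (hQ' : D.tbc c ∈ Q'.toValuationSubring)
    (h : ∀ a ∈ D.compRing c, evalAt Q a = evalAt Q' a) : Q = Q' := by
  haveI := D.isSeparable_tbc c
  have he : centre (D.transcendental_tbc c) ⟨Q, hQ⟩ = centre (D.transcendental_tbc c) ⟨Q', hQ'⟩ := by
    apply IsDedekindDomain.HeightOneSpectrum.ext
    ext r
    have hr : (r : Fb) ∈ D.compRing c := D.mem_affineModel_iff_compRing.1 r.2
    refine (mem_centreIdeal_iff _).trans (Iff.trans ?_ (mem_centreIdeal_iff _).symm)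
    rw [← evalAt_eq_zero_iff Q (hr Q hQ), ← evalAt_eq_zero_iff Q' (hr Q' hQ'), h _ hr]
  exact congrArg Subtype.val ((centreEquiv (D.transcendental_tbc c)).injective
    (a₁ := ⟨Q, hQ⟩) (a₂ := ⟨Q', hQ'⟩) he)

/-- An element of the affine ring separating two places. -/
theorem exists_separating {Q Q' : Place k Fb} (hQ : D.tbc c ∈ Q.toValuationSubring)
    (hQ' : D.tbc c ∈ Q'.toValuationSubring) (hne : Q ≠ Q') :
    ∃ a ∈ D.compRing c, evalAt Q a = 1 ∧ evalAt Q' a = 0 := by
  obtain ⟨a, ha, hav⟩ : ∃ a ∈ D.compRing c, evalAt Q a ≠ evalAt Q' a := by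
    by_contra h
    push Not at h
    exact hne (D.place_ext hQ hQ' h)
  refine ⟨algebraMap k Fb (evalAt Q a - evalAt Q' a)⁻¹ * (a - algebraMap k Fb (evalAt Q' a)),
    mul_mem ((D.compRing c).algebraMap_mem _) (sub_mem ha ((D.compRing c).algebraMap_mem _)), ?_, ?_⟩
  · rw [evalAt_mul Q (Q.algebraMap_mem' _) (sub_mem (ha Q hQ) (Q.algebraMap_mem' _)),
      evalAt_algebraMap, evalAt_sub Q (ha Q hQ) (Q.algebraMap_mem' _), evalAt_algebraMap,
      inv_mul_cancel₀ (sub_ne_zero.2 hav)]
  · rw [evalAt_mul Q' (Q'.algebraMap_mem' _) (sub_mem (ha Q' hQ') (Q'.algebraMap_mem' _)),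
      evalAt_algebraMap, evalAt_sub Q' (ha Q' hQ') (Q'.algebraMap_mem' _), evalAt_algebraMap,
      sub_self, mul_zero]

/-- A function of the affine ring equal to `1` at a place and vanishing at finitely many others. -/
theorem exists_indicator {Q : Place k Fb} (hQ : D.tbc c ∈ Q.toValuationSubring)
    (S : Finset (Place k Fb)) (hS : Q ∉ S) :
    ∃ a ∈ D.compRing c, evalAt Q a = 1 ∧
      ∀ Q' ∈ S, D.tbc c ∈ Q'.toValuationSubring → evalAt Q' a = 0 := by
  induction S using Finset.cons_induction with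
  | empty => exact ⟨1, one_mem _, evalAt_one Q, by simp⟩
  | cons Q' S hQ'S ih =>
    obtain ⟨a, ha, ha1, ha0⟩ := ih fun h => hS (Finset.mem_cons_of_mem h)
    by_cases hQ' : D.tbc c ∈ Q'.toValuationSubring
    swap
    · refine ⟨a, ha, ha1, fun R hR hR' => ?_⟩
      rcases Finset.mem_cons.1 hR with rfl | hR
      · exact absurd hR' hQ'
      · exact ha0 R hR hR'
    obtain ⟨b, hb, hb1, hb0⟩ := D.exists_separating hQ hQ'
      fun h => hS (h ▸ Finset.mem_cons_self _ _)
    refine ⟨a * b, mul_mem ha hb, ?_, fun R hR hR' => ?_⟩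
    · rw [evalAt_mul Q (ha Q hQ) (hb Q hQ), ha1, hb1, one_mul]
    · rw [evalAt_mul R (ha R hR') (hb R hR')]
      rcases Finset.mem_cons.1 hR with rfl | hR
      · rw [hb0, mul_zero]
      · rw [ha0 R hR hR', zero_mul]

omit [IsAlgClosed k] in
/-- The places which are poles of a function. -/
theorem finite_poles (g : Fb) : {Q : Place k Fb | g ∉ Q.toValuationSubring}.Finite := by
  refine (finite_ord_ne_zero (K := k) g).subset fun Q hQ h0 => hQ ?_
  exact mem_of_ord_nonneg Q (le_of_eq h0.symm)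

/-- A function regular at a place has a denominator in the affine ring not vanishing there. -/
theorem exists_denom_comp {Q : Place k Fb} (hQ : D.tbc c ∈ Q.toValuationSubring) {g : Fb}
    (hg : g ∈ Q.toValuationSubring) (S : Finset (Place k Fb)) (hS : Q ∉ S) :
    ∃ d ∈ D.compRing c, d * g ∈ D.compRing c ∧ evalAt Q d ≠ 0 ∧
      ∀ Q' ∈ S, D.tbc c ∈ Q'.toValuationSubring → evalAt Q' d = 0 ∧ evalAt Q' (d * g) = 0 := by
  classical
  set T := S ∪ (finite_poles g).toFinset with hT
  have hQT : Q ∉ T := fun h => by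
    rcases Finset.mem_union.1 h with h | h
    · exact hS h
    · exact (Set.Finite.mem_toFinset _).1 h hg
  obtain ⟨a, ha, ha1, ha0⟩ := D.exists_indicator hQ T hQT
  set N := (∑ R ∈ T, (R.ord g).natAbs) + 1 with hN
  have ha0' : a ≠ 0 := fun h => one_ne_zero (α := k) (by rw [← ha1, h, evalAt_zero])
  have hord : ∀ R ∈ T, D.tbc c ∈ R.toValuationSubring →
      a ^ N * g = 0 ∨ 1 ≤ R.ord (a ^ N * g) := by
    intro R hR hR'
    rcases eq_or_ne g 0 with rfl | hg0
    · exact .inl (mul_zero _)
    have h1 : 0 < R.ord a := ((evalAt_eq_zero_iff R (ha R hR')).1 (ha0 R hR hR')).resolve_left ha0'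
    have h2 : (R.ord g).natAbs ≤ ∑ R ∈ T, (R.ord g).natAbs :=
      Finset.single_le_sum (f := fun R : Place k Fb => (R.ord g).natAbs) (fun _ _ => Nat.zero_le _) hR
    refine .inr ?_
    rw [R.ord_mul (pow_ne_zero _ ha0') hg0, ord_pow R a N]
    have : (N : ℤ) ≤ (N : ℤ) * R.ord a := le_mul_of_one_le_right (Int.natCast_nonneg N) h1
    omega
  refine ⟨a ^ N, pow_mem ha N, fun R hR' => ?_, ?_, fun R hR hR' => ⟨?_, ?_⟩⟩
  · by_cases hgR : g ∈ R.toValuationSubring
    · exact mul_mem (pow_mem (ha R hR') N) hgR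
    · rcases hord R (Finset.mem_union_right _ ((Set.Finite.mem_toFinset _).2 hgR)) hR' with h | h
      · exact h ▸ zero_mem _
      · exact mem_of_ord_nonneg R (by omega)
  · rw [evalAt_pow Q (ha Q hQ), ha1, one_pow]; exact one_ne_zero
  · rw [evalAt_pow R (ha R hR'), ha0 R (Finset.mem_union_left _ hR) hR', zero_pow (by omega)]
  · rcases hord R (Finset.mem_union_left _ hR) hR' with h | h
    · rw [h, evalAt_zero]
    · exact (evalAt_eq_zero_iff R (mem_of_ord_nonneg R (by omega))).2 (.inr (by omega))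

end Fermat.Agent.LevelP.X0.ChartInputs
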