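import Fermat.Agent.LevelP.X0.Charts.ChartUnit

/-!
# The two-component data of the charts

The closed points, specialisation and chart axioms of `TwoCompData` from the chart inputs.
-/

set_option autoImplicit false
set_option linter.style.haveILetI false
set_option linter.unusedSectionVars false

noncomputable section

namespace Fermat.Agent.LevelP.X0.ChartInputs

open AlgebraicCurve Fermat.Agent.Curve IsLocalRing

local notation "Qb" => AlgebraicClosure ℚ
local notation "Γℚ" => (AlgebraicClosure ℚ ≃ₐ[ℚ] AlgebraicClosure ℚ)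

variable {p : ℕ} {A : ValuationSubring Qb} {F : Type} [Field F] [Algebra Qb F]
  {Fb : Type} [Field Fb] [Algebra (ResidueField A) Fb] {D : ChartInputs p A F Fb}
  [IsAlgClosed (ResidueField A)] [IsFunctionField1 (ResidueField A) Fb] [IsFunctionField1 Qb F]
  [Fact p.Prime] (hA : A.LiesOverPrime p)

local notation "k" => ResidueField A

theorem w_mem_V_false : D.w ∈ D.V false := ((D.V false).valuation_le_one_iff _).1 D.w_false.le

include hA in
theorem ord_red_w_of_ptNode {y : D.Pts} (h : PtNode y) :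
    D.tb ∈ (ptLoc y false).toValuationSubring ∧
      0 < (ptLoc y false).ord (D.red false ⟨D.w, w_mem_V_false⟩) :=
  ⟨(isNodePlace_of_ptNode hA h).1, (isNodePlace_of_ptNode hA h).2 _ (hasRes_red _)⟩

include hA in
/-- A point of the first component which is not a node has residue of `w` of order zero at
finite `tb`. -/
theorem ord_red_w_of_not_ptNode {y : D.Pts} (h0 : PtOn y false) (hn : ¬ PtNode y)
    (ht : D.tb ∈ (ptLoc y false).toValuationSubring) :
    (ptLoc y false).ord (D.red false ⟨D.w, w_mem_V_false⟩) = 0 := by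
  obtain ⟨hnn, -⟩ := D.ord_red_w w_mem_V_false _ ht
  refine le_antisymm (le_of_not_gt fun hpos => hn ?_) hnn
  have hQ : D.IsNodePlace (ptLoc y false) :=
    ⟨ht, fun a ha => by rw [ha.unique (hasRes_red w_mem_V_false)]; exact hpos⟩
  have := ptNode_of_isNodePlace hA hQ
  rwa [pt_ptLoc h0] at this

variable (D) in
/-- The data of the two-component reduction. -/
def toTwoCompData
    (exists_lift : ∀ a : Bool → Fb, ∃ f : F, (∀ σ ∈ A.inertiaSubgroupIn ℚ, D.act σ • f = f) ∧
      ∀ i, ∃ h : f ∈ D.V i, D.red i ⟨f, h⟩ = a i)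
    (exists_scale : ∀ i (H : Subgroup Γℚ), H ≤ A.inertiaSubgroupIn ℚ → ∀ f : F, f ≠ 0 →
      (∀ σ ∈ H, D.act σ • f = f) → ∃ c : Qb, c ≠ 0 ∧ (∀ σ ∈ H, σ c = c) ∧
        (D.V i).valuation (algebraMap Qb F c * f) = 1)
    (descend_principal : ∀ H : Subgroup Γℚ, H ≤ A.inertiaSubgroupIn ℚ → ∀ Dv : Divisor Qb F,
      (∀ σ ∈ H, D.act σ • Dv = Dv) → Dv.IsPrincipal →
        ∃ f : F, f ≠ 0 ∧ (∀ σ ∈ H, D.act σ • f = f) ∧ ∀ P, Dv P = P.ord f)
    (descend_class : ∀ H : Subgroup Γℚ, H ≤ A.inertiaSubgroupIn ℚ → ∀ Dv : Divisor Qb F,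
      Divisor.degree Dv = 0 → (∀ σ ∈ H, Divisor.IsPrincipal (D.act σ • Dv - Dv)) →
        ∃ D' : Divisor Qb F, (∀ σ ∈ H, D.act σ • D' = D') ∧ Divisor.IsPrincipal (D' - Dv))
    (swap : F ≃ₐ[Qb] F) (swap_act : ∀ (σ : Γℚ) (f : F), swap (D.act σ • f) = D.act σ • swap f)
    (swap_mem_iff : ∀ f : F, swap f ∈ D.V false ↔ f ∈ D.V true)
    (red_swap : ∀ (f : D.V true) (h : swap (f : F) ∈ D.V false),
      D.red false ⟨swap (f : F), h⟩ = D.red true f) : TwoCompData p A F Fb where
  act := D.act
  baseAut_act := D.baseAut_act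
  exists_fixing := D.exists_fixing
  V := D.V
  algebraMap_mem_iff := D.algebraMap_mem_iff
  act_mem_iff := D.act_mem_iff
  red := D.red
  red_algebraMap := D.red_algebraMap
  red_eq_zero_iff := D.red_eq_zero_iff
  red_act := D.red_act
  exists_lift := exists_lift
  exists_scale := exists_scale
  Pt := D.Pts
  On := PtOn
  loc := ptLoc
  exists_on := exists_ptOn
  existsUnique_pt := existsUnique_pt
  sp := D.ptSp
  sp_act := fun _ hσ P => ptSp_act hA hσ P
  red_regular := fun y f hP hV i hi h => red_regular_pt hA y f hP hV i hi h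
  red_eval := fun y f hP hV P hPy i hi h => red_eval_pt hA y f hP hV P hPy i hi h
  red_node := fun y f hP hV h0 h1 k0 k1 => red_node_pt hA y f hP hV h0 h1 k0 k1
  exists_regular_lift := fun y a ha hcomp => exists_regular_lift_pt hA y a ha hcomp
  finite_node := finite_ptNode hA
  nonempty_node := nonempty_ptNode hA
  w := D.w
  w_fixed := D.w_fixed
  w_false := D.w_false
  w_true := D.w_true
  w_ord := fun y h0 h1 P hP => by
    have hc := ptInChart_false_of_ptNode hA (y := y) ⟨h0, h1⟩
    exact D.ord_w P (tc_mem_of_ptInChart hA (c := false) (P := P) (by rw [hP]; exact hc))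
  r := fun y => ((ptLoc y false).ord (D.red false ⟨D.w, w_mem_V_false⟩)).toNat
  red_w_ord := fun y h0 h1 _ =>
    (Int.toNat_of_nonneg (ord_red_w_of_ptNode hA ⟨h0, h1⟩).2.le).symm
  r_pos := fun y h0 h1 => by
    have := (ord_red_w_of_ptNode hA (y := y) ⟨h0, h1⟩).2
    omega
  not_dvd_r := fun hp5 y h0 h1 h => by
    obtain ⟨ht, hpos⟩ := ord_red_w_of_ptNode hA (y := y) ⟨h0, h1⟩
    refine (D.ord_red_w _ _ ht).2 hp5 hpos ?_
    have := Int.natCast_dvd_natCast.2 h
    rwa [Nat.cast_mul, Int.toNat_of_nonneg hpos.le] at this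
  t := D.t
  t_fixed := D.t_fixed
  t_unit := fun i => (hasRes_t (D := D) (i := i)).valuation_eq_one (by
    cases i
    · exact D.tbc_ne_zero false
    · exact pow_ne_zero _ (D.tbc_ne_zero false))
  InChart := PtInChart
  exists_chart := exists_ptInChart
  chart_mem := fun c P h => tc_mem_of_ptInChart hA h
  exists_denom := fun c y hy H hH h _ hh S hS n => by
    obtain ⟨s, hs, hsfix, hsV, hs0, hsord⟩ := exists_denom_pt hA hy hH h hh S hS n
    exact ⟨s, hsfix, fun P hP => regOn_of_mem_ring hs.1 P hP, fun P hP hPc => hsord P hP hPc,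
      fun i => ⟨mem_V_of_mem_ring hs.1 i, hsV i⟩,
      fun i hi hm => (hasRes_red hm).unique (hs0 i hi),
      fun i hi hm => hs.2 i hi _ (hasRes_red hm)⟩
  exists_chart_lift := fun c a hreg hnode => by
    obtain ⟨f, hfix, hf, hres⟩ := exists_fixed_lift hA a
      (fun i Q hQ => by
        have := hreg (D.pt i Q) i ⟨i, Q, rfl, hQ⟩ ⟨Q, rfl⟩
        rwa [ptLoc_pt] at this)
      (fun y hy hyn => hnode y hy hyn.1 hyn.2)
    exact ⟨f, hfix, fun P hP => regOn_of_mem_ring hf P hP, hres⟩
  chart_unit := chart_unit_pt hA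
  chart_finite := fun c H hH _ _ _ hval Dv => chart_finite_bounded hA c H hH hval Dv
  descend_principal := descend_principal
  descend_class := descend_class
  swap := swap
  swap_act := swap_act
  swap_mem_iff := swap_mem_iff
  red_swap := red_swap

end Fermat.Agent.LevelP.X0.ChartInputs
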