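import Fermat.Agent.LevelP.X0.Charts.Finite
import Mathlib.RingTheory.Jacobson.Ring

/-!
# The unit ideal and bounded modules of a chart

Compatible residues without a common zero on a chart generate the unit ideal; over a discretely
valued field of constants the generators of a bounded module can be taken inside it.
-/

set_option autoImplicit false
set_option linter.style.haveILetI false
set_option linter.unusedSectionVars false

noncomputable section

namespace Fermat.Agent.LevelP.X0.ChartInputs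

open AlgebraicCurve Fermat.Agent.Curve IsLocalRing

local notation "Qb" => AlgebraicClosure ℚ
local notation "Γℚ" => (AlgebraicClosure ℚ ≃ₐ[ℚ] AlgebraicClosure ℚ)

variable {p : ℕ} {A : ValuationSubring Qb} {F : Type} [Field F] [Algebra Qb F]
  {Fb : Type} [Field Fb] [Algebra (ResidueField A) Fb] {D : ChartInputs p A F Fb}
  [IsAlgClosed (ResidueField A)] [IsFunctionField1 (ResidueField A) Fb] [IsFunctionField1 Qb F]
  [Fact p.Prime] (hA : A.LiesOverPrime p)

local notation "k" => ResidueField A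

/-- A maximal ideal of the affine ring of a component has a place. -/
theorem exists_place_of_isMaximal {c : Bool} (P : Ideal (D.compRing c)) [P.IsMaximal] :
    ∃ Q : Place k Fb, D.tbc c ∈ Q.toValuationSubring ∧
      ∀ a : D.compRing c, a ∈ P → evalAt Q (a : Fb) = 0 := by
  obtain ⟨gens, hfin, hgen, -, -⟩ := D.exists_gens_lifts c
  haveI : Algebra.FiniteType k (D.compRing c) :=
    ⟨⟨hfin.toFinset, by rw [hfin.coe_toFinset]; exact hgen⟩⟩
  letI : Field (D.compRing c ⧸ P) := Ideal.Quotient.field P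
  haveI : Algebra.FiniteType k (D.compRing c ⧸ P) :=
    Algebra.FiniteType.of_surjective (Ideal.Quotient.mkₐ k P) (Ideal.Quotient.mkₐ_surjective k P)
  haveI : Module.Finite k (D.compRing c ⧸ P) := finite_of_finite_type_of_isJacobsonRing k _
  let e := AlgEquiv.ofBijective (Algebra.ofId k (D.compRing c ⧸ P))
    IsAlgClosed.algebraMap_bijective_of_isIntegral
  obtain ⟨Q, hQc, hQ⟩ := D.exists_place (e.symm.toAlgHom.comp (Ideal.Quotient.mkₐ k P))
  refine ⟨Q, hQc, fun a ha => ?_⟩
  rw [hQ]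
  show e.symm (Ideal.Quotient.mkₐ k P a) = 0
  rw [show Ideal.Quotient.mkₐ k P a = 0 from Ideal.Quotient.eq_zero_iff_mem.2 ha, map_zero]

include hA in
/-- Compatible residues of a chart without a common zero generate the unit ideal. -/
theorem chart_unit_pt (c : Bool) (S : Set (Bool → Fb))
    (hreg : ∀ a ∈ S, ∀ (y : D.Pts) i, PtInChart c y → PtOn y i →
      a i ∈ (ptLoc y i).toValuationSubring)
    (hnode : ∀ a ∈ S, ∀ y : D.Pts, PtInChart c y → PtOn y false → PtOn y true →
      evalAt (ptLoc y false) (a false) = evalAt (ptLoc y true) (a true))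
    (hne : ∀ y : D.Pts, PtInChart c y → ∃ a ∈ S, ∀ i, PtOn y i →
      evalAt (ptLoc y i) (a i) ≠ 0) :
    ∃ (n : ℕ) (a b : Fin n → Bool → Fb), (∀ j, a j ∈ S) ∧
      (∀ j (y : D.Pts) i, PtInChart c y → PtOn y i →
        b j i ∈ (ptLoc y i).toValuationSubring) ∧
      (∀ j (y : D.Pts), PtInChart c y → PtOn y false → PtOn y true →
        evalAt (ptLoc y false) (b j false) = evalAt (ptLoc y true) (b j true)) ∧
      ∀ i, ∑ j, b j i * a j i = 1 := by
  have hcomp : ∀ a ∈ S, ∀ i, a i ∈ D.compRing c := fun a ha i Q hQ => by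
    have := hreg a ha (D.pt i Q) i ⟨i, Q, rfl, hQ⟩ ⟨Q, rfl⟩
    rwa [ptLoc_pt] at this
  have hlift : ∀ a (ha : a ∈ S),
      ((⟨a false, hcomp a ha false⟩, ⟨a true, hcomp a ha true⟩) :
        D.compRing c × D.compRing c) ∈ D.lifts c := fun a ha => by
    obtain ⟨f, hfix, hf, hres⟩ := exists_fixed_lift hA a (hcomp a ha)
      fun y hy hyn => hnode a ha y hy hyn.1 hyn.2
    exact ⟨f, hfix, hf, hres false, hres true⟩
  let T : Set (D.lifts c) := {x | (fun i => if i then (x.1.2 : Fb) else (x.1.1 : Fb)) ∈ S}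
  let π : Bool → D.lifts c →ₐ[k] D.compRing c := fun i => if i then
    (AlgHom.snd k _ _).comp (D.lifts c).val else (AlgHom.fst k _ _).comp (D.lifts c).val
  have hsurj : ∀ i, Function.Surjective (π i) := fun i u => by
    cases i
    · obtain ⟨v, hv⟩ := D.exists_lift_fst c u
      exact ⟨⟨_, hv⟩, rfl⟩
    · obtain ⟨v, hv⟩ := D.exists_lift_snd c u
      exact ⟨⟨_, hv⟩, rfl⟩
  have htop : Ideal.span T = ⊤ := by
    by_contra hne'
    obtain ⟨m, hm, hle⟩ := Ideal.exists_le_maximal _ hne'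
    obtain ⟨i, hi⟩ : ∃ i, RingHom.ker (π i) ≤ m := by
      have hmul : RingHom.ker (π false) * RingHom.ker (π true) ≤ m := by
        refine Ideal.mul_le.2 fun x hx y hy => ?_
        have : x * y = 0 := by
          refine Subtype.ext (Prod.ext ?_ ?_)
          · show π false x * _ = 0
            rw [RingHom.mem_ker.1 hx, zero_mul]
          · show _ * π true y = 0
            rw [RingHom.mem_ker.1 hy, mul_zero]
        rw [this]
        exact zero_mem _
      exact (hm.isPrime.mul_le.1 hmul).elim (fun h => ⟨_, h⟩) fun h => ⟨_, h⟩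
    have hmax : (m.map (π i)).IsMaximal := by
      rcases Ideal.map_eq_top_or_isMaximal_of_surjective (π i) (hsurj i) hm with h | h
      · refine absurd ?_ hm.ne_top
        rw [← sup_of_le_left hi, RingHom.ker, ← Ideal.comap_map_of_surjective (π i) (hsurj i) m, h,
          Ideal.comap_top]
      · exact h
    obtain ⟨Q, hQc, hQ⟩ := exists_place_of_isMaximal (m.map (π i))
    obtain ⟨a, ha, hane⟩ := hne (D.pt i Q) ⟨i, Q, rfl, hQc⟩
    have ha' : (⟨_, hlift a ha⟩ : D.lifts c) ∈ T := by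
      show (fun j => if j then a true else a false) ∈ S
      rwa [show (fun j => if j then a true else a false) = a by funext j; cases j <;> rfl]
    have h0 := hQ _ (Ideal.mem_map_of_mem (π i) (hle (Ideal.subset_span ha')))
    have h1 := hane i ⟨Q, rfl⟩
    rw [ptLoc_pt] at h1
    cases i <;> exact h1 h0
  obtain ⟨n, f, g, hfg⟩ := Submodule.mem_span_set'.1
    (show (1 : D.lifts c) ∈ Submodule.span (D.lifts c) T by
      change (1 : D.lifts c) ∈ Ideal.span T
      rw [htop]
      exact Submodule.mem_top)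
  refine ⟨n, fun j i => if i then ((g j : D.lifts c).1.2 : Fb) else ((g j : D.lifts c).1.1 : Fb),
    fun j i => if i then ((f j).1.2 : Fb) else ((f j).1.1 : Fb), fun j => (g j).2,
    fun j y i hy hi => ?_, fun j y hy h0 h1 => ?_, fun i => ?_⟩
  · cases i
    · exact (f j).1.1.2 _ (tbc_mem_ptLoc hy hi)
    · exact (f j).1.2.2 _ (tbc_mem_ptLoc hy hi)
  · obtain ⟨x, -, hx, hx0, hx1⟩ := (f j).2
    exact evalAt_eq_of_pt_eq ((pt_ptLoc h0).trans (pt_ptLoc h1).symm) (tbc_mem_ptLoc hy h0) hx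
      hx0 hx1
  · have h := congrArg (fun x => ((π i x : D.compRing c) : Fb)) hfg
    simp only [smul_eq_mul, map_sum, map_mul, map_one, OneMemClass.coe_one,
      AddSubmonoidClass.coe_finsetSum, MulMemClass.coe_mul] at h
    cases i <;> exact h

omit [IsAlgClosed (ResidueField A)] [IsFunctionField1 (ResidueField A) Fb] [Fact p.Prime]
  [IsFunctionField1 Qb F] in
/-- A discretely valued field of constants has a noetherian ring of integers. -/
theorem isNoetherianRing_fixed (H : Subgroup Γℚ) {π₀ : Qb}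
    (hval : ∀ x : Qb, x ≠ 0 → (∀ σ ∈ H, σ x = x) → ∃ n : ℤ, A.valuation x = A.valuation π₀ ^ n)
    (O : Subring Qb) (hO : ∀ x, x ∈ O ↔ x ∈ A ∧ ∀ σ ∈ H, σ x = x) : IsNoetherianRing O := by
  -- replace the generator of the values by one which is at most one
  obtain ⟨v, hv, hv'⟩ : ∃ v, v ≤ 1 ∧ ∀ x : Qb, x ≠ 0 → (∀ σ ∈ H, σ x = x) →
      ∃ n : ℤ, A.valuation x = v ^ n := by
    rcases le_total (A.valuation π₀) 1 with h | h
    · exact ⟨_, h, hval⟩
    · refine ⟨(A.valuation π₀)⁻¹, inv_le_one_of_one_le₀ h, fun x hx hfix => ?_⟩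
      obtain ⟨n, hn⟩ := hval x hx hfix
      exact ⟨-n, by rw [hn, inv_zpow', neg_neg]⟩
  have hN : ∀ x : O, x ≠ 0 → ∃ n : ℕ, A.valuation (x : Qb) = v ^ n := fun x hx => by
    obtain ⟨n, hn⟩ := hv' x (by simpa using hx) ((hO _).1 x.2).2
    have hle : A.valuation (x : Qb) ≤ 1 := (A.valuation_le_one_iff _).2 ((hO _).1 x.2).1
    rcases Int.eq_nat_or_neg n with ⟨m, rfl | rfl⟩
    · exact ⟨m, by rw [hn, zpow_natCast]⟩
    · refine ⟨0, ?_⟩
      rw [pow_zero]
      refine le_antisymm hle ?_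
      rw [hn, zpow_neg, zpow_natCast]
      have hpos : 0 < v ^ m := by
        rw [zero_lt_iff]
        intro h0
        rw [zpow_neg, zpow_natCast, h0, inv_zero] at hn
        exact (map_ne_zero A.valuation).2 (by simpa using hx) hn
      exact one_le_inv₀ hpos |>.2 (pow_le_one₀ zero_le hv)
  classical
  refine (isNoetherianRing_iff_ideal_fg O).2 fun I => ?_
  rcases eq_or_ne I ⊥ with rfl | hI
  · exact Submodule.fg_bot
  obtain ⟨x₁, hx₁, hx₁0⟩ := Submodule.exists_mem_ne_zero_of_ne_bot hI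
  have hex : ∃ n : ℕ, ∃ x ∈ I, x ≠ 0 ∧ A.valuation (x : Qb) = v ^ n :=
    (hN x₁ hx₁0).imp fun n hn => ⟨x₁, hx₁, hx₁0, hn⟩
  obtain ⟨x, hx, hx0, hxv⟩ := Nat.find_spec hex
  refine ⟨{x}, le_antisymm (Submodule.span_le.2 (by simpa using hx)) fun y hy => ?_⟩
  rcases eq_or_ne y 0 with rfl | hy0
  · exact zero_mem _
  obtain ⟨m, hm⟩ := hN y hy0
  have hmn : Nat.find hex ≤ m := Nat.find_min' hex ⟨y, hy, hy0, hm⟩
  have hx0' : (x : Qb) ≠ 0 := by simpa using hx0
  have hq : (y : Qb) / x ∈ O := (hO _).2 ⟨(A.valuation_le_one_iff _).1 (by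
    rw [map_div₀, div_le_one₀ (zero_lt_iff.2 ((map_ne_zero _).2 hx0')), hm, hxv]
    exact pow_le_pow_right_of_le_one' hv hmn),
    fun σ hσ => by rw [map_div₀, ((hO _).1 y.2).2 σ hσ, ((hO _).1 x.2).2 σ hσ]⟩
  rw [Finset.coe_singleton]
  exact Ideal.mem_span_singleton'.2 ⟨⟨_, hq⟩, Subtype.ext (div_mul_cancel₀ _ hx0')⟩

include hA in
/-- Functions with bounded poles in a chart, integral along both components, form a finitely
generated module. -/
theorem chart_finite_bounded (c : Bool) (H : Subgroup Γℚ) (hH : H ≤ A.inertiaSubgroupIn ℚ)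
    {π₀ : Qb}
    (hval : ∀ x : Qb, x ≠ 0 → (∀ σ ∈ H, σ x = x) → ∃ n : ℤ, A.valuation x = A.valuation π₀ ^ n)
    (Dv : Divisor Qb F) : ∃ G : Finset F,
    (∀ a ∈ G, (∀ σ ∈ H, D.act σ • a = a) ∧ (∀ i, a ∈ D.V i) ∧
      ∀ P : Place Qb F, D.tc c ∈ P.toValuationSubring → a = 0 ∨ -Dv P ≤ P.ord a) ∧
    ∀ f : F, (∀ σ ∈ H, D.act σ • f = f) → (∀ i, f ∈ D.V i) →
      (∀ P : Place Qb F, D.tc c ∈ P.toValuationSubring → f = 0 ∨ -Dv P ≤ P.ord f) →
      f ∈ Submodule.span
        (Subring.closure ({y : F | ∃ a ∈ A, (∀ σ ∈ H, σ a = a) ∧ y = algebraMap Qb F a} ∪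
          {D.tc c})) (G : Set F) := by
  classical
  obtain ⟨G₀, hG₀⟩ := chart_finite_pt (D := D) hA c H hH Dv
  set B := Subring.closure ({y : F | ∃ a ∈ A, (∀ σ ∈ H, σ a = a) ∧ y = algebraMap Qb F a} ∪
    {D.tc c}) with hB
  let O : Subring Qb :=
    { carrier := {x | x ∈ A ∧ ∀ σ ∈ H, σ x = x}
      mul_mem' := fun hx hy => ⟨mul_mem hx.1 hy.1, fun σ hσ => by
        rw [map_mul, hx.2 σ hσ, hy.2 σ hσ]⟩
      one_mem' := ⟨one_mem A, fun σ _ => map_one σ⟩
      add_mem' := fun hx hy => ⟨add_mem hx.1 hy.1, fun σ hσ => by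
        rw [map_add, hx.2 σ hσ, hy.2 σ hσ]⟩
      zero_mem' := ⟨zero_mem A, fun σ _ => map_zero σ⟩
      neg_mem' := fun hx => ⟨neg_mem hx.1, fun σ hσ => by rw [map_neg, hx.2 σ hσ]⟩ }
  haveI : IsNoetherianRing O := isNoetherianRing_fixed H hval O fun _ => Iff.rfl
  let ev : Polynomial O →+* F := Polynomial.eval₂RingHom ((algebraMap Qb F).comp O.subtype) (D.tc c)
  have hrange : B = ev.range := by
    refine le_antisymm (Subring.closure_le.2 ?_) ?_
    · rintro _ (⟨a, ha, hfix, rfl⟩ | rfl)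
      · exact ⟨Polynomial.C ⟨a, ha, hfix⟩, by simp [ev]⟩
      · exact ⟨Polynomial.X, by simp [ev]⟩
    · rintro _ ⟨f, rfl⟩
      induction f using Polynomial.induction_on' with
      | add f g hf hg => rw [map_add]; exact add_mem hf hg
      | monomial i a =>
        simp only [ev, Polynomial.coe_eval₂RingHom, Polynomial.eval₂_monomial]
        exact mul_mem (Subring.subset_closure (.inl ⟨a, a.2.1, a.2.2, rfl⟩))
          (pow_mem (Subring.subset_closure (Or.inr rfl : D.tc c ∈ _ ∪ {D.tc c})) i)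
  haveI : IsNoetherianRing B := by rw [hrange]; infer_instance
  have hBgood : ∀ x ∈ B, (∀ σ ∈ H, D.act σ • x = x) ∧ x ∈ D.ring c := fun x hx => by
    induction hx using Subring.closure_induction with
    | mem x hx =>
      rcases hx with ⟨a, ha, hfix, rfl⟩ | rfl
      · exact ⟨fun σ hσ => by rw [act_algebraMap, hfix σ hσ], algebraMap_mem_ring ha⟩
      · exact ⟨fun σ _ => D.tc_fixed c σ, tc_mem_ring⟩
    | zero => exact ⟨fun σ _ => smul_zero _, zero_mem _⟩
    | one => exact ⟨fun σ _ => smul_one _, one_mem _⟩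
    | add x y _ _ h h' =>
      exact ⟨fun σ hσ => by rw [smul_add, h.1 σ hσ, h'.1 σ hσ], add_mem h.2 h'.2⟩
    | neg x _ h => exact ⟨fun σ hσ => by rw [smul_neg, h.1 σ hσ], neg_mem h.2⟩
    | mul x y _ _ h h' =>
      exact ⟨fun σ hσ => by rw [smul_mul', h.1 σ hσ, h'.1 σ hσ], mul_mem h.2 h'.2⟩
  let N : Submodule B F :=
    { carrier := {f | (∀ σ ∈ H, D.act σ • f = f) ∧ (∀ i, f ∈ D.V i) ∧
        ∀ P : Place Qb F, D.tc c ∈ P.toValuationSubring → f = 0 ∨ -Dv P ≤ P.ord f}
      zero_mem' := ⟨fun σ _ => smul_zero _, fun i => zero_mem _, fun _ _ => .inl rfl⟩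
      add_mem' := fun {x y} hx hy => ⟨fun σ hσ => by rw [smul_add, hx.1 σ hσ, hy.1 σ hσ],
        fun i => add_mem (hx.2.1 i) (hy.2.1 i), fun P hP => by
          rcases hx.2.2 P hP with rfl | hx'
          · rw [zero_add]; exact hy.2.2 P hP
          rcases hy.2.2 P hP with rfl | hy'
          · rw [add_zero]; exact .inr hx'
          rcases eq_or_ne (x + y) 0 with h | h
          · exact .inl h
          · exact .inr (le_trans (le_min hx' hy') (min_ord_le_ord_add P h))⟩
      smul_mem' := fun b x hx => by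
        obtain ⟨hbfix, hbring⟩ := hBgood b.1 b.2
        refine ⟨fun σ hσ => ?_, fun i => mul_mem (mem_V_of_mem_ring hbring i) (hx.2.1 i),
          fun P hP => ?_⟩
        · show D.act σ • ((b : F) * x) = (b : F) * x
          rw [smul_mul', hbfix σ hσ, hx.1 σ hσ]
        · show (b : F) * x = 0 ∨ _
          rcases eq_or_ne (b : F) 0 with hb | hb
          · exact .inl (by rw [hb, zero_mul])
          rcases eq_or_ne x 0 with rfl | hx0
          · exact .inl (mul_zero _)
          refine .inr ?_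
          show _ ≤ P.ord ((b : F) * x)
          rw [P.ord_mul hb hx0]
          have := ord_nonneg_of_mem P (regOn_of_mem_ring hbring P hP)
          have := (hx.2.2 P hP).resolve_left hx0
          omega }
  haveI := isNoetherian_span_of_finite B G₀.finite_toSet
  obtain ⟨G, hG⟩ := Submodule.FG.of_le_of_isNoetherian
    (S := N) (T := Submodule.span B (G₀ : Set F)) fun f hf => hG₀ f hf.1 hf.2.1 hf.2.2
  refine ⟨G, fun a ha => ?_, fun f h1 h2 h3 => ?_⟩
  · exact (hG ▸ Submodule.subset_span ha : a ∈ N)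
  · rw [hG]
    exact ⟨h1, h2, h3⟩

end Fermat.Agent.LevelP.X0.ChartInputs
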