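import Fermat.Agent.LevelP.X0.Charts.Points

/-!
# Nodes, denominators and regular functions at the points of the special fibre
-/

set_option autoImplicit false
set_option linter.style.haveILetI false
set_option linter.unusedSectionVars false

noncomputable section

namespace Fermat.Agent.LevelP.X0.ChartInputs

open AlgebraicCurve Fermat.Agent.Curve IsLocalRing Fermat.Agent.Reduction.ConstRed
open scoped IntermediateField

local notation "Qb" => AlgebraicClosure ℚ
local notation "Γℚ" => (AlgebraicClosure ℚ ≃ₐ[ℚ] AlgebraicClosure ℚ)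

variable {p : ℕ} {A : ValuationSubring Qb} {F : Type} [Field F] [Algebra Qb F]
  {Fb : Type} [Field Fb] [Algebra (ResidueField A) Fb] {D : ChartInputs p A F Fb}
  [IsAlgClosed (ResidueField A)] [IsFunctionField1 (ResidueField A) Fb] [IsFunctionField1 Qb F]
  [Fact p.Prime] (hA : A.LiesOverPrime p)

local notation "k" => ResidueField A

/-- A point of both components. -/
def PtNode (y : D.Pts) : Prop := PtOn y false ∧ PtOn y true

include hA in
theorem isNodePlace_of_ptNode {y : D.Pts} (h : PtNode y) : D.IsNodePlace (ptLoc y false) := by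
  by_contra hn
  obtain ⟨c, hc⟩ := exists_tbc_mem (D := D) (ptLoc y false)
  obtain ⟨u, ⟨f, -, hf, h0, h1⟩, hu⟩ := exists_mk_zero_mem hA hc hn
  refine hu ((evalAt_eq_of_pt_eq ((pt_ptLoc h.1).trans (pt_ptLoc h.2).symm) hc hf h0 h1).trans ?_)
  exact evalAt_zero _

include hA in
theorem ptNode_of_isNodePlace {Q : Place k Fb} (h : D.IsNodePlace Q) : PtNode (D.pt false Q) := by
  have hc : D.tbc false ∈ Q.toValuationSubring := h.1
  obtain ⟨Q', hQ'c, hQ'⟩ := exists_partner hA h hc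
  refine ⟨⟨Q, rfl⟩, Q', (pt_eq_of_sameOn (c := false) ⟨hc, hQ'c, fun f hf u v hu hv => ?_⟩).symm⟩
  exact hQ' ⟨u, hu.mem_compRing hf⟩ ⟨v, hv.mem_compRing hf⟩ (mk_mem_lifts_of_mem_ring hA hf hu hv)

include hA in
theorem finite_ptNode : {y : D.Pts | PtNode y}.Finite := by
  obtain ⟨W, hW, hW0⟩ := exists_hasRes_w (D := D)
  refine Set.Finite.of_finite_image (f := fun y : D.Pts => ptLoc y false) ?_ ?_
  · refine (finite_ord_ne_zero (K := k) W).subset ?_
    rintro _ ⟨y, hy, rfl⟩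
    exact ((isNodePlace_of_ptNode hA hy).2 W hW).ne'
  · intro y hy z hz (h : ptLoc y false = ptLoc z false)
    rw [← pt_ptLoc hy.1, ← pt_ptLoc hz.1, h]

include hA in
theorem nonempty_ptNode : {y : D.Pts | PtNode y}.Nonempty := by
  obtain ⟨W, ⟨hw, hW⟩, -⟩ := exists_hasRes_w (D := D)
  obtain ⟨Q, hQ, hord⟩ := D.exists_zero_red_w hw
  exact ⟨D.pt false Q, ptNode_of_isNodePlace hA ⟨hQ, fun a ha => by
    rw [ha.unique (hasRes_red hw)]; exact hord⟩⟩

include hA in
theorem ptInChart_false_of_ptNode {y : D.Pts} (h : PtNode y) : PtInChart false y :=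
  ⟨false, ptLoc y false, pt_ptLoc h.1, (isNodePlace_of_ptNode hA h).1⟩

include hA in
/-- Compatible residues regular on a chart lift to functions of the chart fixed by inertia. -/
theorem exists_fixed_lift {c : Bool} (a : Bool → Fb) (ha : ∀ i, a i ∈ D.compRing c)
    (hcomp : ∀ y : D.Pts, PtInChart c y → PtNode y →
      evalAt (ptLoc y false) (a false) = evalAt (ptLoc y true) (a true)) :
    ∃ f, D.Fixed (A.inertiaSubgroupIn ℚ) f ∧ f ∈ D.ring c ∧ ∀ i, D.HasRes i f (a i) := by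
  obtain ⟨f, hfix, hf, h0, h1⟩ : (⟨a false, ha false⟩, ⟨a true, ha true⟩) ∈ D.lifts c := by
    refine (mk_mem_lifts_iff hA _ _).2 fun Q Q' _ hQc hQ'c hp => ?_
    have he : D.pt false Q = D.pt true Q' := pt_eq_of_sameOn (c := c) ⟨hQc, hQ'c,
      fun f hf u v hu hv => hp ⟨u, hu.mem_compRing hf⟩ ⟨v, hv.mem_compRing hf⟩
        (mk_mem_lifts_of_mem_ring hA hf hu hv)⟩
    have := hcomp (D.pt false Q) ⟨false, Q, rfl, hQc⟩ ⟨⟨Q, rfl⟩, Q', he.symm⟩
    rwa [ptLoc_pt, he, ptLoc_pt] at this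
  exact ⟨f, hfix, hf, fun i => by cases i <;> assumption⟩

include hA in
/-- A function of the chart with residue one at a point, zero at finitely many others, and
killed along the components missing the point. -/
theorem exists_indicator_pt {c : Bool} {y : D.Pts} (hy : PtInChart c y) (T : Finset D.Pts)
    (hT : y ∉ T) :
    ∃ (f : F) (a : Bool → Fb), D.Fixed (A.inertiaSubgroupIn ℚ) f ∧ f ∈ D.ring c ∧
      (∀ i, D.HasRes i f (a i)) ∧ (∀ i, PtOn y i → evalAt (ptLoc y i) (a i) = 1) ∧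
      (∀ i, ¬ PtOn y i → a i = 0) ∧
      ∀ z ∈ T, PtInChart c z → ∀ i, PtOn z i → evalAt (ptLoc z i) (a i) = 0 := by
  classical
  set U := T ∪ (finite_ptNode (D := D) hA).toFinset.erase y with hU
  have hyU : y ∉ U := by simp [hU, hT]
  have hex : ∀ i, ∃ b ∈ D.compRing c, (PtOn y i → evalAt (ptLoc y i) b = 1) ∧
      (¬ PtOn y i → b = 0) ∧
      ∀ z ∈ U, PtInChart c z → PtOn z i → evalAt (ptLoc z i) b = 0 := by
    intro i
    by_cases hi : PtOn y i
    swap
    · exact ⟨0, zero_mem _, fun h => absurd h hi, fun _ => rfl, fun _ _ _ _ => evalAt_zero _⟩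
    obtain ⟨b, hb, hb1, hb0⟩ := D.exists_indicator (tbc_mem_ptLoc hy hi)
      ((U.filter fun z => PtOn z i).image fun z => ptLoc z i) (by
        simp only [Finset.mem_image, Finset.mem_filter, not_exists, not_and, and_imp]
        intro z hz hzi he
        exact hyU (by rw [← pt_ptLoc hi, ← he, pt_ptLoc hzi]; exact hz))
    exact ⟨b, hb, fun _ => hb1, fun h => absurd hi h, fun z hz hzc hzi => hb0 _
      (Finset.mem_image_of_mem _ (Finset.mem_filter.2 ⟨hz, hzi⟩)) (tbc_mem_ptLoc hzc hzi)⟩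
  choose a ha ha1 hazero ha0 using hex
  obtain ⟨f, hfix, hf, hres⟩ := exists_fixed_lift hA a ha fun z hzc hz => by
    rcases eq_or_ne z y with rfl | hne
    · rw [ha1 false hz.1, ha1 true hz.2]
    · have hzU : z ∈ U := Finset.mem_union_right _
        (Finset.mem_erase.2 ⟨hne, (Set.Finite.mem_toFinset _).2 hz⟩)
      rw [ha0 false z hzU hzc hz.1, ha0 true z hzU hzc hz.2]
  exact ⟨f, a, hfix, hf, hres, ha1, hazero, fun z hz hzc i hzi =>
    ha0 i z (Finset.mem_union_left _ hz) hzc hzi⟩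

/-- Functions of a chart not vanishing at a point. -/
def unitAt {c : Bool} {y : D.Pts} (hy : PtInChart c y) : Submonoid F where
  carrier := {g | g ∈ D.ring c ∧ ∀ i, PtOn y i → ∀ u, D.HasRes i g u → evalAt (ptLoc y i) u ≠ 0}
  one_mem' := ⟨one_mem _, fun i hi u hu => by rw [hu.unique hasRes_one, evalAt_one]; exact one_ne_zero⟩
  mul_mem' := fun {f g} hf hg => ⟨mul_mem hf.1 hg.1, fun i hi u hu => by
    have h0 := hasRes_red (mem_V_of_mem_ring hf.1 i)
    have h1 := hasRes_red (mem_V_of_mem_ring hg.1 i)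
    rw [hu.unique (h0.mul h1), evalAt_mul _ (h0.mem_compRing hf.1 _ (tbc_mem_ptLoc hy hi))
      (h1.mem_compRing hg.1 _ (tbc_mem_ptLoc hy hi))]
    exact mul_ne_zero (hf.2 i hi _ h0) (hg.2 i hi _ h1)⟩

theorem act_mem_unitAt {c : Bool} {y : D.Pts} {hy : PtInChart c y} {σ : Γℚ}
    (hσ : σ ∈ A.inertiaSubgroupIn ℚ) {g : F} (hg : g ∈ unitAt hy) :
    D.act σ • g ∈ unitAt hy := ⟨act_mem_ring hσ hg.1, fun i hi u hu => by
  have h0 := hasRes_red (mem_V_of_mem_ring hg.1 i)
  rw [hu.unique (h0.act hσ)]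
  exact hg.2 i hi _ h0⟩

theorem exists_ptOn (y : D.Pts) : ∃ i, PtOn y i :=
  (exists_pt_eq y).imp fun i ⟨Q, hQ⟩ => ⟨Q, hQ⟩

theorem ne_zero_of_mem_unitAt {c : Bool} {y : D.Pts} {hy : PtInChart c y} {g : F}
    (hg : g ∈ unitAt hy) : g ≠ 0 := fun h => by
  obtain ⟨i, hi⟩ := exists_ptOn y
  exact hg.2 i hi 0 (h ▸ hasRes_zero) (evalAt_zero _)

include hA in
/-- A function of the chart vanishing at a place not specialising to `y`, nonzero at `y`. -/
theorem exists_kill {c : Bool} {y : D.Pts} (hy : PtInChart c y) {P : Place Qb F}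
    (hPc : D.tc c ∈ P.toValuationSubring) (hne : D.ptSp P ≠ y) :
    ∃ g ∈ unitAt hy, evalAt P g = 0 := by
  by_cases hz : PtInChart c (D.ptSp P)
  · obtain ⟨f, a, -, hf, hres, ha1, -, ha0⟩ := exists_indicator_pt hA hy {D.ptSp P}
      (by simpa using hne.symm)
    obtain ⟨i, hi⟩ := exists_ptOn (D.ptSp P)
    obtain ⟨hA', he⟩ := evalAt_ptSp hA hz hi hf (hres i)
    rw [ha0 _ (Finset.mem_singleton_self _) hz i hi] at he
    refine ⟨f - algebraMap Qb F (evalAt P f),
      ⟨sub_mem hf (algebraMap_mem_ring hA'), fun j hj u hu => ?_⟩, ?_⟩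
    · have hc' := (hres j).sub (hasRes_algebraMap (D := D) (i := j) ⟨evalAt P f, hA'⟩)
      rw [he, map_zero, sub_zero] at hc'
      rw [hu.unique hc', ha1 j hj]
      exact one_ne_zero
    · rw [evalAt_sub P (regOn_of_mem_ring hf P hPc) (P.algebraMap_mem' _), evalAt_algebraMap,
        sub_self]
  · set τ := evalAt P (D.tc c) with hτ
    have hτA : τ ∉ A := by
      intro hτA
      obtain ⟨d, i, Q, hs⟩ := exists_spec (D := D) hA P
      refine hz ⟨i, Q, (ptSp_eq_of_spec hA hs).symm, ?_⟩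
      by_cases hd : d = c
      · exact hd ▸ hs.2.1
      obtain rfl : d = !c := by cases d <;> cases c <;> simp_all
      obtain ⟨ha, he⟩ := hs.2.2 _ (D.tc_mem_ring (c := !c)) _ (D.hasRes_tc (!c) i)
      have hm := evalAt_mul P hPc hs.1
      rw [tc_not, mul_inv_cancel₀ (by cases c <;> simp [tc, D.t_ne_zero]), evalAt_one] at hm
      have e : residue A ⟨τ, hτA⟩ * residue A ⟨evalAt P (D.tc (!c)), ha⟩ = 1 := by
        rw [← map_mul, ← map_one (residue A)]
        refine congrArg (residue A) (Subtype.ext ?_)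
        show τ * evalAt P (D.tc (!c)) = 1
        rw [tc_not]; exact hm.symm
      have hne : evalAt Q (D.tbc (!c)) ≠ 0 := fun h0 => by
        rw [he, (evalAt_coordPow i hs.2.1).2, h0, zero_pow
          (by have := (Fact.out : p.Prime).ne_zero; cases i <;> simp [this]), mul_zero] at e
        exact zero_ne_one e
      have := tbc_not_mem hs.2.1 hne
      rwa [Bool.not_not] at this
    have hinv : τ⁻¹ ∈ A := (A.mem_or_inv_mem τ).resolve_left hτA
    have hres0 : residue A ⟨τ⁻¹, hinv⟩ = 0 := by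
      refine (IsLocalRing.residue_eq_zero_iff _).2 fun hu => hτA ?_
      obtain ⟨b, hb⟩ := hu.exists_right_inv
      have : τ⁻¹ * (b : Qb) = 1 := congrArg Subtype.val hb
      rw [show τ = (b : Qb) by rw [eq_inv_of_mul_eq_one_right this, inv_inv]]
      exact b.2
    refine ⟨1 - algebraMap Qb F τ⁻¹ * D.tc c,
      ⟨sub_mem (one_mem _) (mul_mem (algebraMap_mem_ring hinv) D.tc_mem_ring), fun j hj u hu => ?_⟩,
      ?_⟩
    · have h := (hasRes_one (D := D) (i := j)).sub
        ((hasRes_algebraMap (D := D) (i := j) ⟨τ⁻¹, hinv⟩).mul (D.hasRes_tc c j))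
      rw [hres0, map_zero, zero_mul, sub_zero] at h
      rw [hu.unique h, evalAt_one]
      exact one_ne_zero
    · have hτ0 : τ ≠ 0 := fun h0 => hτA (h0 ▸ zero_mem A)
      rw [evalAt_sub P (one_mem _) (mul_mem (P.algebraMap_mem' _) hPc), evalAt_one,
        evalAt_mul P (P.algebraMap_mem' _) hPc, evalAt_algebraMap, ← hτ, inv_mul_cancel₀ hτ0,
        sub_self]

include hA in
/-- A fixed function nonzero at `y` with high order at places not specialising to `y`. -/
theorem exists_high_order {c : Bool} {y : D.Pts} (hy : PtInChart c y) {H : Subgroup Γℚ}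
    (hH : H ≤ A.inertiaSubgroupIn ℚ) (S : Finset (Place Qb F))
    (hS : ∀ P ∈ S, D.ptSp P ≠ y) (n : ℕ) :
    ∃ g ∈ unitAt hy, D.Fixed H g ∧
      ∀ P ∈ S, D.tc c ∈ P.toValuationSubring → (n : ℤ) ≤ P.ord g := by
  induction S using Finset.cons_induction with
  | empty => exact ⟨1, one_mem _, fun _ _ => smul_one _, by simp⟩
  | cons P S hPS ih =>
    obtain ⟨g, hg, hgfix, hgord⟩ := ih fun R hR => hS R (Finset.mem_cons_of_mem hR)
    by_cases hP : D.tc c ∈ P.toValuationSubring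
    swap
    · refine ⟨g, hg, hgfix, fun R hR hRc => ?_⟩
      rcases Finset.mem_cons.1 hR with rfl | hR
      · exact absurd hRc hP
      · exact hgord R hR hRc
    obtain ⟨e, he, he0⟩ := exists_kill hA hy hP (hS P (Finset.mem_cons_self _ _))
    obtain ⟨r, hr, hre⟩ := D.exists_normOrbit_eq_mul H e (unitAt hy)
      fun σ hσ => act_mem_unitAt (hH hσ) he
    have hN : D.normOrbit H e ∈ unitAt hy :=
      D.normOrbit_mem H e (unitAt hy) fun σ hσ => act_mem_unitAt (hH hσ) he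
    refine ⟨g * D.normOrbit H e ^ n, mul_mem hg (pow_mem hN n), fun σ hσ => by
      rw [smul_mul', smul_pow', hgfix σ hσ, D.normOrbit_fixed H e σ hσ], fun R hR hRc => ?_⟩
    rw [R.ord_mul (ne_zero_of_mem_unitAt hg) (pow_ne_zero _ (ne_zero_of_mem_unitAt hN)), ord_pow]
    have hgR := ord_nonneg_of_mem R (regOn_of_mem_ring hg.1 R hRc)
    have hNR := ord_nonneg_of_mem R (regOn_of_mem_ring hN.1 R hRc)
    rcases Finset.mem_cons.1 hR with rfl | hR
    · have hpos : 1 ≤ R.ord (D.normOrbit H e) := by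
        rw [hre, R.ord_mul (ne_zero_of_mem_unitAt he) (ne_zero_of_mem_unitAt hr)]
        have h1 := ((evalAt_eq_zero_iff R (regOn_of_mem_ring he.1 R hRc)).1 he0).resolve_left
          (ne_zero_of_mem_unitAt he)
        have h2 := ord_nonneg_of_mem R (regOn_of_mem_ring hr.1 R hRc)
        omega
      have : (n : ℤ) ≤ (n : ℤ) * R.ord (D.normOrbit H e) :=
        le_mul_of_one_le_right (Int.natCast_nonneg n) hpos
      omega
    · have := hgord R hR hRc
      have : 0 ≤ (n : ℤ) * R.ord (D.normOrbit H e) := mul_nonneg (Int.natCast_nonneg n) hNR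
      omega

include hA in
/-- Denominators. -/
theorem exists_denom_pt {c : Bool} {y : D.Pts} (hy : PtInChart c y) {H : Subgroup Γℚ}
    (hH : H ≤ A.inertiaSubgroupIn ℚ) (h : F) (hh : ∀ i, PtOn y i → h ∈ D.V i)
    (S : Finset (Place Qb F)) (hS : ∀ P ∈ S, D.ptSp P ≠ y) (n : ℕ) :
    ∃ s ∈ unitAt hy, D.Fixed H s ∧ (∀ i, s * h ∈ D.V i) ∧
      (∀ i, ¬ PtOn y i → D.HasRes i s 0) ∧
      ∀ P ∈ S, D.tc c ∈ P.toValuationSubring → (n : ℤ) ≤ P.ord s := by
  obtain ⟨g, hg, hgfix, hgord⟩ := exists_high_order hA hy hH S hS n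
  obtain ⟨e, a, hefix, he, heres, hea1, hea0, -⟩ :=
    exists_indicator_pt hA hy ∅ (Finset.notMem_empty _)
  have heU : e ∈ unitAt hy := ⟨he, fun i hi u hu => by
    rw [hu.unique (heres i), hea1 i hi]; exact one_ne_zero⟩
  have hm : ∀ i, ¬ PtOn y i → ∃ m : ℕ, ∀ m', m ≤ m' → e ^ m' * h ∈ D.V i := by
    intro i hi
    rcases eq_or_ne h 0 with rfl | h0
    · exact ⟨0, fun m' _ => by rw [mul_zero]; exact zero_mem _⟩
    obtain ⟨m, hm⟩ := D.exists_pow_valuation_le hA
      (f := e) (i := i) ((heres i).eq_zero_iff.1 (hea0 i hi)) (inv_ne_zero h0)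
    refine ⟨m, fun m' hm' => ?_⟩
    rw [← ValuationSubring.valuation_le_one_iff, map_mul]
    calc (D.V i).valuation (e ^ m') * (D.V i).valuation h
        ≤ (D.V i).valuation h⁻¹ * (D.V i).valuation h := mul_le_mul_left (hm m' hm') _
      _ = 1 := by rw [map_inv₀, inv_mul_cancel₀ ((map_ne_zero _).2 h0)]
  have hm' : ∀ i, ∃ m : ℕ, ∀ m', m ≤ m' → e ^ m' * h ∈ D.V i := fun i => by
    by_cases hi : PtOn y i
    · exact ⟨0, fun m' _ => mul_mem (pow_mem (mem_V_of_mem_ring he i) _) (hh i hi)⟩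
    · exact hm i hi
  choose m hm using hm'
  refine ⟨g * e ^ (m false + m true + 1), mul_mem hg (pow_mem heU _), fun σ hσ => ?_, fun i => ?_,
    fun i hi => ?_, fun P hP hPc => ?_⟩
  · rw [smul_mul', smul_pow', hgfix σ hσ, hefix σ (hH hσ)]
  · rw [mul_assoc]
    refine mul_mem (mem_V_of_mem_ring hg.1 i) (hm i _ ?_)
    cases i <;> omega
  · have h := (hasRes_red (mem_V_of_mem_ring hg.1 i)).mul ((heres i).pow (m false + m true + 1))
    rwa [hea0 i hi, zero_pow (Nat.succ_ne_zero _), mul_zero] at h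
  · rw [P.ord_mul (ne_zero_of_mem_unitAt hg) (pow_ne_zero _ (ne_zero_of_mem_unitAt heU))]
    have := ord_nonneg_of_mem P (pow_mem (regOn_of_mem_ring he P hPc) (m false + m true + 1))
    have := hgord P hP hPc
    omega

include hA in
/-- A regular function is a fraction of functions of the chart. -/
theorem exists_frac {c : Bool} {y : D.Pts} (hy : PtInChart c y) {f : F}
    (hP : ∀ P, D.ptSp P = y → f ∈ P.toValuationSubring) (hV : ∀ i, PtOn y i → f ∈ D.V i) :
    ∃ s ∈ unitAt hy, s * f ∈ D.ring c := by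
  classical
  set S := (finite_ord_ne_zero (K := Qb) f).toFinset.filter fun P => f ∉ P.toValuationSubring
  obtain ⟨s, hs, -, hsV, -, hsord⟩ := exists_denom_pt hA hy (H := ⊥) bot_le f hV S
    (fun P hP' h => (Finset.mem_filter.1 hP').2 (hP P h))
    (∑ P ∈ S, (P.ord f).natAbs)
  refine ⟨s, hs, mem_ring_iff.2 ⟨hsV, fun P hPc => ?_⟩⟩
  by_cases hf : f ∈ P.toValuationSubring
  · exact mul_mem (regOn_of_mem_ring hs.1 P hPc) hf
  have hf0 : f ≠ 0 := fun h => hf (h ▸ zero_mem _)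
  have hne : P.ord f ≠ 0 := fun h => hf (mem_of_ord_nonneg P h.ge)
  have hmem : P ∈ S := Finset.mem_filter.2 ⟨(Set.Finite.mem_toFinset _).2 hne, hf⟩
  have h1 := hsord P hmem hPc
  have h2 : (P.ord f).natAbs ≤ ∑ P ∈ S, (P.ord f).natAbs :=
    Finset.single_le_sum (f := fun P : Place Qb F => (P.ord f).natAbs) (fun _ _ => Nat.zero_le _) hmem
  refine mem_of_ord_nonneg P ?_
  rw [P.ord_mul (ne_zero_of_mem_unitAt hs) hf0]
  omega

include hA in
theorem red_regular_pt (y : D.Pts) (f : F) (hP : ∀ P, D.ptSp P = y → f ∈ P.toValuationSubring)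
    (hV : ∀ i, PtOn y i → f ∈ D.V i) (i : Bool) (hi : PtOn y i) (h : f ∈ D.V i) :
    D.red i ⟨f, h⟩ ∈ (ptLoc y i).toValuationSubring := by
  obtain ⟨c, hy⟩ := exists_ptInChart y
  obtain ⟨s, hs, hsf⟩ := exists_frac hA hy hP hV
  have hQ := tbc_mem_ptLoc hy hi
  have hsres := hasRes_red (mem_V_of_mem_ring hs.1 i)
  have hu := (hsres.mul (hasRes_red h)).mem_compRing hsf _ hQ
  have hs' := hsres.mem_compRing hs.1 _ hQ
  set us := D.red i ⟨s, mem_V_of_mem_ring hs.1 i⟩
  obtain ⟨h0, hord⟩ := (evalAt_ne_zero_iff _ hs').1 (hs.2 i hi us hsres)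
  rcases eq_or_ne (D.red i ⟨f, h⟩) 0 with hz | hz
  · rw [hz]; exact zero_mem _
  refine mem_of_ord_nonneg _ ?_
  have := ord_nonneg_of_mem (ptLoc y i) hu
  rw [(ptLoc y i).ord_mul h0 hz, hord] at this
  omega

include hA in
theorem red_eval_pt (y : D.Pts) (f : F) (hP : ∀ P, D.ptSp P = y → f ∈ P.toValuationSubring)
    (hV : ∀ i, PtOn y i → f ∈ D.V i) (P : Place Qb F) (hPy : D.ptSp P = y) (i : Bool)
    (hi : PtOn y i) (h : f ∈ D.V i) :
    ∃ ha : evalAt P f ∈ A, residue A ⟨_, ha⟩ = evalAt (ptLoc y i) (D.red i ⟨f, h⟩) := by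
  obtain ⟨c, hy⟩ := exists_ptInChart y
  obtain ⟨s, hs, hsf⟩ := exists_frac hA hy hP hV
  subst hPy
  have hQ := tbc_mem_ptLoc hy hi
  have hPc := tc_mem_of_ptInChart hA hy
  have hsres := hasRes_red (mem_V_of_mem_ring hs.1 i)
  obtain ⟨hsA, hse⟩ := evalAt_ptSp hA hy hi hs.1 hsres
  obtain ⟨hfA, hfe⟩ := evalAt_ptSp hA hy hi hsf (hsres.mul (hasRes_red h))
  have hne := hs.2 i hi _ hsres
  rw [evalAt_mul _ (hsres.mem_compRing hs.1 _ hQ) (red_regular_pt hA _ f hP hV i hi h)] at hfe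
  have hu : IsUnit (⟨evalAt P s, hsA⟩ : A) := by
    by_contra hn
    exact hne (hse.symm.trans ((IsLocalRing.residue_eq_zero_iff _).2 hn))
  obtain ⟨b, hb⟩ := hu.exists_left_inv
  have hm := evalAt_mul P (regOn_of_mem_ring hs.1 P hPc) (hP P rfl)
  have hfmem : evalAt P f ∈ A := by
    have hmem : (b : Qb) * evalAt P (s * f) ∈ A := mul_mem b.2 hfA
    rwa [hm, ← mul_assoc, show (b : Qb) * evalAt P s = 1 from congrArg Subtype.val hb, one_mul]
      at hmem
  refine ⟨hfmem, mul_left_cancel₀ hne ?_⟩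
  rw [← hfe, ← hse, ← map_mul]
  exact congrArg (residue A) (Subtype.ext hm.symm)

include hA in
theorem red_node_pt (y : D.Pts) (f : F) (hP : ∀ P, D.ptSp P = y → f ∈ P.toValuationSubring)
    (hV : ∀ i, PtOn y i → f ∈ D.V i) (h0 : PtOn y false) (h1 : PtOn y true)
    (k0 : f ∈ D.V false) (k1 : f ∈ D.V true) :
    evalAt (ptLoc y false) (D.red false ⟨f, k0⟩) = evalAt (ptLoc y true) (D.red true ⟨f, k1⟩) := by
  obtain ⟨c, hy⟩ := exists_ptInChart y
  obtain ⟨s, hs, hsf⟩ := exists_frac hA hy hP hV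
  have he := (pt_ptLoc h0).trans (pt_ptLoc h1).symm
  have s0 := hasRes_red (mem_V_of_mem_ring hs.1 false)
  have s1 := hasRes_red (mem_V_of_mem_ring hs.1 true)
  have hQ0 := tbc_mem_ptLoc hy h0
  have hQ1 := tbc_mem_ptLoc hy h1
  have e1 := evalAt_eq_of_pt_eq he hQ0 hs.1 s0 s1
  have e2 := evalAt_eq_of_pt_eq he hQ0 hsf (s0.mul (hasRes_red k0)) (s1.mul (hasRes_red k1))
  rw [evalAt_mul _ (s0.mem_compRing hs.1 _ hQ0) (red_regular_pt hA y f hP hV false h0 k0),
    evalAt_mul _ (s1.mem_compRing hs.1 _ hQ1) (red_regular_pt hA y f hP hV true h1 k1), ← e1] at e2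
  exact mul_left_cancel₀ (hs.2 false h0 _ s0) e2

include hA in
theorem exists_regular_lift_pt (y : D.Pts) (a : Bool → Fb)
    (ha : ∀ i, PtOn y i → a i ∈ (ptLoc y i).toValuationSubring)
    (hcomp : PtOn y false → PtOn y true →
      evalAt (ptLoc y false) (a false) = evalAt (ptLoc y true) (a true)) :
    ∃ f : F, D.Fixed (A.inertiaSubgroupIn ℚ) f ∧
      (∀ P, D.ptSp P = y → f ∈ P.toValuationSubring) ∧ ∀ i, PtOn y i → D.HasRes i f (a i) := by
  classical
  obtain ⟨c, hy⟩ := exists_ptInChart y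
  set U := (finite_ptNode (D := D) hA).toFinset.erase y with hU
  have hyU : y ∉ U := Finset.notMem_erase _ _
  have hex : ∀ i, ∃ d ∈ D.compRing c, ∃ b ∈ D.compRing c,
      (PtOn y i → evalAt (ptLoc y i) d = 1 ∧ b = d * a i) ∧
      ∀ z ∈ U, PtInChart c z → PtOn z i →
        evalAt (ptLoc z i) d = 0 ∧ evalAt (ptLoc z i) b = 0 := by
    intro i
    by_cases hi : PtOn y i
    swap
    · exact ⟨0, zero_mem _, 0, zero_mem _, fun h => absurd h hi,
        fun _ _ _ _ => ⟨evalAt_zero _, evalAt_zero _⟩⟩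
    have hQ := tbc_mem_ptLoc hy hi
    obtain ⟨d, hd, hda, hd0, hdz⟩ := D.exists_denom_comp hQ (ha i hi)
      ((U.filter fun z => PtOn z i).image fun z => ptLoc z i) (by
        simp only [Finset.mem_image, Finset.mem_filter, not_exists, not_and, and_imp]
        intro z hz hzi he
        exact hyU (by rw [← pt_ptLoc hi, ← he, pt_ptLoc hzi]; exact hz))
    set r := (evalAt (ptLoc y i) d)⁻¹
    refine ⟨algebraMap k Fb r * d, mul_mem ((D.compRing c).algebraMap_mem r) hd,
      algebraMap k Fb r * (d * a i), mul_mem ((D.compRing c).algebraMap_mem r) hda,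
      fun _ => ⟨?_, (mul_assoc _ _ _).symm⟩, fun z hz hzc hzi => ?_⟩
    · rw [evalAt_mul _ (Place.algebraMap_mem' _ r) (hd _ hQ), evalAt_algebraMap,
        inv_mul_cancel₀ hd0]
    · have hzQ := tbc_mem_ptLoc hzc hzi
      obtain ⟨e1, e2⟩ := hdz _ (Finset.mem_image_of_mem _ (Finset.mem_filter.2 ⟨hz, hzi⟩)) hzQ
      rw [evalAt_mul _ (Place.algebraMap_mem' _ r) (hd _ hzQ),
        evalAt_mul _ (Place.algebraMap_mem' _ r) (hda _ hzQ), e1, e2, mul_zero]
      exact ⟨rfl, rfl⟩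
  choose d hd b hb hdy hdz using hex
  have hcompat : ∀ z : D.Pts, PtInChart c z → PtNode z →
      evalAt (ptLoc z false) (d false) = evalAt (ptLoc z true) (d true) ∧
      evalAt (ptLoc z false) (b false) = evalAt (ptLoc z true) (b true) := by
    intro z hzc hz
    rcases eq_or_ne z y with rfl | hne
    · refine ⟨by rw [(hdy false hz.1).1, (hdy true hz.2).1], ?_⟩
      rw [(hdy false hz.1).2, (hdy true hz.2).2,
        evalAt_mul _ (hd false _ (tbc_mem_ptLoc hy hz.1)) (ha false hz.1),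
        evalAt_mul _ (hd true _ (tbc_mem_ptLoc hy hz.2)) (ha true hz.2), (hdy false hz.1).1,
        (hdy true hz.2).1, hcomp hz.1 hz.2]
    · have hzU : z ∈ U := Finset.mem_erase.2 ⟨hne, (Set.Finite.mem_toFinset _).2 hz⟩
      obtain ⟨e1, e2⟩ := hdz false z hzU hzc hz.1
      obtain ⟨e3, e4⟩ := hdz true z hzU hzc hz.2
      exact ⟨e1.trans e3.symm, e2.trans e4.symm⟩
  obtain ⟨s, hsfix, hs, hsres⟩ := exists_fixed_lift hA d hd fun z hzc hz => (hcompat z hzc hz).1
  obtain ⟨g, hgfix, hg, hgres⟩ := exists_fixed_lift hA b hb fun z hzc hz => (hcompat z hzc hz).2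
  refine ⟨g * s⁻¹, fun σ hσ => by rw [smul_mul', smul_inv'', hgfix σ hσ, hsfix σ hσ], ?_, ?_⟩
  · intro P hP
    subst hP
    obtain ⟨i, hi⟩ := exists_ptOn (D.ptSp P)
    obtain ⟨hsA, hse⟩ := evalAt_ptSp hA hy hi hs (hsres i)
    rw [(hdy i hi).1] at hse
    have hPc := tc_mem_of_ptInChart hA hy
    have h0 : evalAt P s ≠ 0 := fun h0 => by
      simp only [h0] at hse
      exact zero_ne_one ((map_zero (residue A)).symm.trans hse)
    refine mul_mem (regOn_of_mem_ring hg P hPc) (mem_of_ord_nonneg P ?_)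
    rw [P.ord_inv, ((evalAt_ne_zero_iff P (regOn_of_mem_ring hs P hPc)).1 h0).2, neg_zero]
  · intro i hi
    have hne : d i ≠ 0 := fun h0 => by
      have := (hdy i hi).1
      rw [h0, evalAt_zero] at this
      exact zero_ne_one this
    have h := (hgres i).mul ((hsres i).inv hne)
    rwa [(hdy i hi).2, mul_comm (d i), mul_assoc, mul_inv_cancel₀ hne, mul_one] at h

end Fermat.Agent.LevelP.X0.ChartInputs
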