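import Fermat.Agent.LevelP.X0.Charts.Denom
import Mathlib.RingTheory.Trace.Basic
import Mathlib.LinearAlgebra.Matrix.Adjugate

/-!
# Finiteness of the charts over a field of constants

The functions with bounded poles in a chart and integral along both components lie in a finitely
generated module over `O[t]`: clear the poles, then use a discriminant of a basis of rational
functions.
-/

set_option autoImplicit false
set_option linter.style.haveILetI false
set_option linter.unusedSectionVars false

noncomputable section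

namespace Fermat.Agent.LevelP.X0.ChartInputs

open AlgebraicCurve Fermat.Agent.Curve IsLocalRing Fermat.Agent.Reduction.ConstRed Polynomial
open scoped IntermediateField

local notation "Qb" => AlgebraicClosure ℚ
local notation "Γℚ" => (AlgebraicClosure ℚ ≃ₐ[ℚ] AlgebraicClosure ℚ)

variable {p : ℕ} {A : ValuationSubring Qb} {F : Type} [Field F] [Algebra Qb F]
  {Fb : Type} [Field Fb] [Algebra (ResidueField A) Fb] {D : ChartInputs p A F Fb}
  [IsAlgClosed (ResidueField A)] [IsFunctionField1 (ResidueField A) Fb] [IsFunctionField1 Qb F]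
  [Fact p.Prime] (hA : A.LiesOverPrime p)

local notation "k" => ResidueField A

variable (D) in
/-- The polynomial ring `A[t]` of a chart inside the function field. -/
def base (c : Bool) : Subring F :=
  Subring.closure (algebraMap Qb F '' (A : Set Qb) ∪ {D.tc c})

omit [IsAlgClosed (ResidueField A)] [IsFunctionField1 (ResidueField A) Fb] [IsFunctionField1 Qb F]
  [Fact p.Prime] in
theorem base_le_ring {c : Bool} {x : F} (hx : x ∈ D.base c) : x ∈ D.ring c :=
  (mem_integralClosure_iff _ _).2 (isIntegral_algebraMap (x := (⟨x, hx⟩ : D.base c)))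

omit [IsAlgClosed (ResidueField A)] [IsFunctionField1 (ResidueField A) Fb] [IsFunctionField1 Qb F]
  [Fact p.Prime] in
theorem tc_mem_base (c : Bool) : D.tc c ∈ D.base c := Subring.subset_closure (.inr rfl)

omit [IsAlgClosed (ResidueField A)] [IsFunctionField1 (ResidueField A) Fb] [IsFunctionField1 Qb F]
  [Fact p.Prime] in
theorem algebraMap_mem_base {c : Bool} {a : Qb} (ha : a ∈ A) : algebraMap Qb F a ∈ D.base c :=
  Subring.subset_closure (.inl ⟨a, ha, rfl⟩)

omit [IsAlgClosed (ResidueField A)] [IsFunctionField1 (ResidueField A) Fb] [IsFunctionField1 Qb F]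
  [Fact p.Prime] in
theorem act_mem_base {σ : Γℚ} (hσ : σ ∈ A.inertiaSubgroupIn ℚ) {c : Bool} {x : F}
    (hx : x ∈ D.base c) : D.act σ • x ∈ D.base c := by
  induction hx using Subring.closure_induction with
  | mem x hx =>
    rcases hx with ⟨a, ha, rfl⟩ | rfl
    · rw [act_algebraMap]
      exact algebraMap_mem_base (EC.residue_apply_eq_of_mem_inertia A hσ ha).1
    · rw [tc_fixed]; exact tc_mem_base c
  | zero => rw [smul_zero]; exact zero_mem _
  | one => rw [smul_one]; exact one_mem _
  | add x y _ _ h h' => rw [smul_add]; exact add_mem h h'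
  | neg x _ h => rw [smul_neg]; exact neg_mem h
  | mul x y _ _ h h' => rw [smul_mul']; exact mul_mem h h'

omit [IsAlgClosed (ResidueField A)] [IsFunctionField1 (ResidueField A) Fb] [IsFunctionField1 Qb F]
  [Fact p.Prime] in
theorem transcendental_tc (c : Bool) : Transcendental Qb (D.tc c) := fun halg => by
  obtain ⟨a, ha⟩ := minpoly.mem_range_of_degree_eq_one Qb (D.tc c)
    (IsAlgClosed.degree_eq_one_of_irreducible Qb (minpoly.irreducible halg.isIntegral))
  have hA' : a ∈ A := (D.algebraMap_mem_iff false a).1 (ha ▸ D.tc_mem_V c false)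
  have h : D.HasRes false (algebraMap Qb F a) (algebraMap k Fb (residue A ⟨a, hA'⟩)) :=
    hasRes_algebraMap ⟨a, hA'⟩
  rw [ha] at h
  have he := (D.hasRes_tc c false).unique h
  simp only [Bool.false_eq_true, if_false] at he
  exact D.transcendental_tbc c (he ▸ isAlgebraic_algebraMap _)

/-- A linear form vanishing at a given value of the coordinate. -/
theorem exists_linear (c : Bool) {P : Place Qb F} (hP : D.tc c ∈ P.toValuationSubring) :
    ∃ l ∈ D.base c, l ≠ 0 ∧ evalAt P l = 0 := by
  set a := evalAt P (D.tc c)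
  rcases A.mem_or_inv_mem a with ha | ha
  · refine ⟨D.tc c - algebraMap Qb F a, sub_mem (tc_mem_base c) (algebraMap_mem_base ha),
      fun h => transcendental_tc c (sub_eq_zero.1 h ▸ isAlgebraic_algebraMap _), ?_⟩
    rw [evalAt_sub P hP (P.algebraMap_mem' _), evalAt_algebraMap, sub_self]
  rcases eq_or_ne a 0 with h0 | h0
  · exact ⟨D.tc c, tc_mem_base c, fun h => transcendental_tc c (h ▸ isAlgebraic_zero), h0⟩
  refine ⟨algebraMap Qb F a⁻¹ * D.tc c - 1,
    sub_mem (mul_mem (algebraMap_mem_base ha) (tc_mem_base c)) (one_mem _), fun h => ?_, ?_⟩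
  · refine transcendental_tc (D := D) c ?_
    have : D.tc c = algebraMap Qb F a := by
      have h1 : algebraMap Qb F a⁻¹ * D.tc c = 1 := sub_eq_zero.1 h
      rw [map_inv₀, inv_mul_eq_one₀ ((_root_.map_ne_zero _).2 h0)] at h1
      exact h1.symm
    exact this ▸ isAlgebraic_algebraMap _
  · rw [evalAt_sub P (mul_mem (P.algebraMap_mem' _) hP) (one_mem _),
      evalAt_mul P (P.algebraMap_mem' _) hP, evalAt_algebraMap, evalAt_one, inv_mul_cancel₀ h0,
      sub_self]

/-- Clearing finitely many poles on a chart by a fixed polynomial. -/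
theorem exists_clear_poles (c : Bool) {H : Subgroup Γℚ} (hH : H ≤ A.inertiaSubgroupIn ℚ)
    (S : Finset (Place Qb F)) (n : ℕ) :
    ∃ d ∈ D.base c, d ≠ 0 ∧ D.Fixed H d ∧
      ∀ P ∈ S, D.tc c ∈ P.toValuationSubring → (n : ℤ) ≤ P.ord d := by
  induction S using Finset.cons_induction with
  | empty => exact ⟨1, one_mem _, one_ne_zero, fun _ _ => smul_one _, by simp⟩
  | cons P S hPS ih =>
    obtain ⟨d, hd, hd0, hdfix, hord⟩ := ih
    by_cases hP : D.tc c ∈ P.toValuationSubring
    swap
    · refine ⟨d, hd, hd0, hdfix, fun R hR hRc => ?_⟩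
      rcases Finset.mem_cons.1 hR with rfl | hR
      · exact absurd hRc hP
      · exact hord R hR hRc
    obtain ⟨l, hl, hl0, hlP⟩ := exists_linear c hP
    let T : Submonoid F := (D.base c).toSubmonoid ⊓ nonZeroDivisors F
    have hT : ∀ σ ∈ H, D.act σ • l ∈ T := fun σ hσ => ⟨act_mem_base (hH hσ) hl,
      mem_nonZeroDivisors_of_ne_zero ((smul_ne_zero_iff_ne _).2 hl0)⟩
    obtain ⟨r, hr, hre⟩ := D.exists_normOrbit_eq_mul H l T hT
    have hN := D.normOrbit_mem H l T hT
    have hN0 : D.normOrbit H l ≠ 0 := nonZeroDivisors.ne_zero hN.2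
    refine ⟨d * D.normOrbit H l ^ n, mul_mem hd (pow_mem hN.1 n),
      mul_ne_zero hd0 (pow_ne_zero _ hN0), fun σ hσ => by
        rw [smul_mul', smul_pow', hdfix σ hσ, D.normOrbit_fixed H l σ hσ], fun R hR hRc => ?_⟩
    rw [R.ord_mul hd0 (pow_ne_zero _ hN0), ord_pow]
    have h1 := ord_nonneg_of_mem R (regOn_of_mem_ring (base_le_ring hd) R hRc)
    rcases Finset.mem_cons.1 hR with rfl | hR
    · have hpos : 1 ≤ R.ord (D.normOrbit H l) := by
        rw [hre, R.ord_mul hl0 (nonZeroDivisors.ne_zero hr.2)]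
        have := ((evalAt_eq_zero_iff R (regOn_of_mem_ring (base_le_ring hl) R hRc)).1 hlP).resolve_left hl0
        have := ord_nonneg_of_mem R (regOn_of_mem_ring (base_le_ring hr.1) R hRc)
        omega
      have : (n : ℤ) ≤ (n : ℤ) * R.ord (D.normOrbit H l) :=
        le_mul_of_one_le_right (Int.natCast_nonneg n) hpos
      omega
    · have := hord R hR hRc
      have : 0 ≤ (n : ℤ) * R.ord (D.normOrbit H l) := mul_nonneg (Int.natCast_nonneg n)
        (ord_nonneg_of_mem R (regOn_of_mem_ring (base_le_ring hN.1) R hRc))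
      omega

/-- Clearing all poles on a chart and along both components. -/
theorem exists_clear (c : Bool) {H : Subgroup Γℚ} (hH : H ≤ A.inertiaSubgroupIn ℚ) (x : F) :
    ∃ d ∈ D.base c, d ≠ 0 ∧ D.Fixed H d ∧ d * x ∈ D.ring c := by
  classical
  rcases eq_or_ne x 0 with rfl | hx
  · exact ⟨1, one_mem _, one_ne_zero, fun _ _ => smul_one _, by rw [mul_zero]; exact zero_mem _⟩
  set S := (finite_ord_ne_zero (K := Qb) x).toFinset
  obtain ⟨d, hd, hd0, hdfix, hord⟩ :=
    exists_clear_poles (D := D) c hH S (∑ P ∈ S, (P.ord x).natAbs)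
  have hreg : D.RegOn c (d * x) := fun P hP => by
    refine mem_of_ord_nonneg P ?_
    rw [P.ord_mul hd0 hx]
    have h1 := ord_nonneg_of_mem P (regOn_of_mem_ring (base_le_ring hd) P hP)
    by_cases hPS : P.ord x = 0
    · omega
    · have hmem : P ∈ S := (Set.Finite.mem_toFinset _).2 hPS
      have h2 := hord P hmem hP
      have h3 : (P.ord x).natAbs ≤ ∑ P ∈ S, (P.ord x).natAbs :=
        Finset.single_le_sum (f := fun P : Place Qb F => (P.ord x).natAbs)
          (fun _ _ => Nat.zero_le _) hmem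
      omega
  have hex : ∀ i, ∃ a : Qb, a ∈ A ∧ a ≠ 0 ∧ algebraMap Qb F a * x ∈ D.V i := fun i => by
    obtain ⟨a, ha, hav⟩ := D.exists_scale i x hx
    have hax := ((D.V i).valuation_le_one_iff _).1 hav.le
    rcases A.mem_or_inv_mem a with h | h
    · exact ⟨a, h, ha, hax⟩
    · refine ⟨1, one_mem _, one_ne_zero, ?_⟩
      have := mul_mem ((D.algebraMap_mem_iff i _).2 h) hax
      rwa [← mul_assoc, ← map_mul, inv_mul_cancel₀ ha] at this
  choose a ha ha0 hax using hex
  let T : Submonoid F := (D.base c).toSubmonoid ⊓ nonZeroDivisors F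
  have hmemT : ∀ σ ∈ H, D.act σ • algebraMap Qb F (a false * a true) ∈ T := fun σ hσ =>
    ⟨act_mem_base (hH hσ) (algebraMap_mem_base (mul_mem (ha false) (ha true))),
      mem_nonZeroDivisors_of_ne_zero ((smul_ne_zero_iff_ne _).2
        ((_root_.map_ne_zero _).2 (mul_ne_zero (ha0 false) (ha0 true))))⟩
  obtain ⟨r, hr, hre⟩ := D.exists_normOrbit_eq_mul H _ T hmemT
  have hN := D.normOrbit_mem H _ T hmemT
  refine ⟨d * D.normOrbit H (algebraMap Qb F (a false * a true)), mul_mem hd hN.1,
    mul_ne_zero hd0 (nonZeroDivisors.ne_zero hN.2), fun σ hσ => by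
      rw [smul_mul', hdfix σ hσ, D.normOrbit_fixed H _ σ hσ], mem_ring_iff.2 ⟨fun i => ?_, ?_⟩⟩
  · rw [hre, mul_assoc]
    refine mul_mem (mem_V_of_mem_ring (base_le_ring hd) i) ?_
    rw [mul_comm _ r, mul_assoc]
    refine mul_mem (mem_V_of_mem_ring (base_le_ring hr.1) i) ?_
    cases i
    · rw [map_mul, mul_comm (algebraMap Qb F (a false)), mul_assoc]
      exact mul_mem ((D.algebraMap_mem_iff _ _).2 (ha true)) (hax false)
    · rw [map_mul, mul_assoc]
      exact mul_mem ((D.algebraMap_mem_iff _ _).2 (ha false)) (hax true)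
  · intro P hP
    rw [mul_right_comm]
    exact mul_mem (hreg P hP) (regOn_of_mem_ring (base_le_ring hN.1) P hP)

/-- A rational function of the coordinate which lies in the chart is a polynomial over `A`. -/
theorem exists_poly_of_mem_ring {c : Bool} {x : F} (hx : x ∈ Qb⟮D.t⟯) (hxR : x ∈ D.ring c) :
    ∃ f : Qb[X], (∀ i, f.coeff i ∈ A) ∧ aeval (D.tc c) f = x := by
  have hx' : x ∈ Qb⟮D.tc c⟯ := by
    cases c
    · exact hx
    · show x ∈ Qb⟮D.t⁻¹⟯
      rwa [Curve.adjoin_inv]
  obtain ⟨r, s, hrs, rfl⟩ : ∃ r s : Qb[X], IsCoprime r s ∧ x = aeval (D.tc c) r / aeval (D.tc c) s := by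
    obtain ⟨r, s, rfl⟩ := (IntermediateField.mem_adjoin_simple_iff Qb _).1 hx'
    rcases eq_or_ne s 0 with rfl | hs
    · exact ⟨0, 1, isCoprime_one_right, by simp⟩
    obtain ⟨r', s', u, hu, rfl, rfl⟩ := UniqueFactorizationMonoid.exists_reduced_factors' r s hs
    refine ⟨r', s', (isRelPrime_iff_isCoprime).1 hu, ?_⟩
    rw [map_mul, map_mul, mul_div_mul_left]
    exact fun h => transcendental_tc c ⟨u, (right_ne_zero_of_mul hs) |> fun _ => left_ne_zero_of_mul hs, h⟩
  have hdeg : s.degree ≤ 0 := by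
    by_contra hd
    obtain ⟨z, hz⟩ := IsAlgClosed.exists_root s (by intro h; rw [h] at hd; exact hd le_rfl)
    have htr : Transcendental Qb (D.tc c - algebraMap Qb F z) := fun h =>
      transcendental_tc c (by simpa using h.add (isAlgebraic_algebraMap (R := Qb) (A := F) z))
    obtain ⟨P, hP⟩ := exists_place_ord_pos htr
    have hmem : D.tc c - algebraMap Qb F z ∈ P.toValuationSubring := mem_of_ord_nonneg P hP.le
    have htc : D.tc c ∈ P.toValuationSubring := by
      simpa using add_mem hmem (P.algebraMap_mem' z)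
    have hev : evalAt P (D.tc c) = z := by
      have := (evalAt_eq_zero_iff P hmem).2 (.inr hP)
      rwa [evalAt_sub P htc (P.algebraMap_mem' _), evalAt_algebraMap, sub_eq_zero] at this
    have hpoly : ∀ g : Qb[X], aeval (D.tc c) g ∈ P.toValuationSubring ∧
        evalAt P (aeval (D.tc c) g) = g.eval z := by
      intro g
      induction g using Polynomial.induction_on' with
      | add g g' h h' =>
        rw [map_add, eval_add, evalAt_add P h.1 h'.1, h.2, h'.2]
        exact ⟨add_mem h.1 h'.1, rfl⟩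
      | monomial n b =>
        rw [aeval_monomial, eval_monomial, evalAt_mul P (P.algebraMap_mem' _) (pow_mem htc n),
          evalAt_algebraMap, evalAt_pow P htc, hev]
        exact ⟨mul_mem (P.algebraMap_mem' _) (pow_mem htc n), rfl⟩
    have hs0 : evalAt P (aeval (D.tc c) s) = 0 := (hpoly s).2.trans hz
    have hsne : aeval (D.tc c) s ≠ 0 := fun h =>
      transcendental_tc c ⟨s, fun hs => hd (by rw [hs]; simp), h⟩
    have hxP := regOn_of_mem_ring hxR P htc
    have hm := evalAt_mul P hxP (hpoly s).1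
    rw [div_mul_cancel₀ _ hsne, hs0, mul_zero, (hpoly r).2] at hm
    obtain ⟨u, v, huv⟩ := hrs
    have := congrArg (eval z) huv
    simp [hm, IsRoot.def.1 hz] at this
  obtain ⟨b, rfl⟩ : ∃ b, s = C b := ⟨_, eq_C_of_degree_le_zero hdeg⟩
  refine ⟨C b⁻¹ * r, ?_, by
    rw [map_mul, aeval_C, aeval_C, map_inv₀, inv_mul_eq_div]⟩
  have hg : aeval (D.tc c) (C b⁻¹ * r) ∈ D.ring c := by
    rwa [map_mul, aeval_C, map_inv₀, inv_mul_eq_div, ← aeval_C (R := Qb) (D.tc c) b]
  generalize C b⁻¹ * r = g at hg ⊢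
  clear hxR hx hx' hdeg hrs
  by_contra hcon
  push Not at hcon
  obtain ⟨i₀, hi₀⟩ := hcon
  obtain ⟨m, -, hmax⟩ := Finset.exists_max_image g.support (fun i => A.valuation (g.coeff i))
    ⟨i₀, mem_support_iff.2 fun h => hi₀ (h ▸ zero_mem A)⟩
  have hgt : 1 < A.valuation (g.coeff m) :=
    lt_of_lt_of_le (not_le.1 fun h => hi₀ ((A.valuation_le_one_iff _).1 h))
      (hmax i₀ (mem_support_iff.2 fun h => hi₀ (h ▸ zero_mem A)))
  have hm0 : g.coeff m ≠ 0 := fun h => by simp [h] at hgt
  have hq : ∀ i, g.coeff i / g.coeff m ∈ A := fun i => by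
    rcases eq_or_ne (g.coeff i) 0 with h | h
    · rw [h, zero_div]; exact zero_mem A
    · rw [← A.valuation_le_one_iff, map_div₀]
      exact (div_le_one₀ (zero_lt_iff.2 ((_root_.map_ne_zero _).2 hm0))).2 (hmax i (mem_support_iff.2 h))
  let gA : A[X] := ∑ i ∈ g.support, monomial i ⟨g.coeff i / g.coeff m, hq i⟩
  have hres : D.HasRes false (aeval (D.tc c) (gA.map A.subtype))
      (aeval (D.tbc c) (gA.map (residue A))) := by
    clear_value gA
    induction gA using Polynomial.induction_on' with
    | add f f' h h' =>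
      rw [Polynomial.map_add, Polynomial.map_add, map_add, map_add]
      exact h.add h'
    | monomial n b =>
      rw [map_monomial, map_monomial, aeval_monomial, aeval_monomial]
      exact (hasRes_algebraMap b).mul ((D.hasRes_tc c false).pow n)
  have hgA : gA.map A.subtype = C (g.coeff m)⁻¹ * g := by
    rw [show C (g.coeff m)⁻¹ * g = ∑ i ∈ g.support, C (g.coeff m)⁻¹ * monomial i (g.coeff i) by
      rw [← Finset.mul_sum, ← g.as_sum_support]]
    simp only [gA, Polynomial.map_sum, map_monomial, C_mul_monomial, div_eq_inv_mul,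
      ValuationSubring.subtype_apply]
  rw [hgA, map_mul, aeval_C] at hres
  have hlt : (D.V false).valuation (algebraMap Qb F (g.coeff m)⁻¹ * aeval (D.tc c) g) < 1 := by
    rw [map_mul]
    refine lt_of_le_of_lt (mul_le_of_le_one_right zero_le
      (((D.V false).valuation_le_one_iff _).2 (mem_V_of_mem_ring hg false))) ?_
    rw [map_inv₀, map_inv₀]
    refine inv_lt_one_of_one_lt₀ (lt_of_not_ge fun h => ?_)
    rw [ValuationSubring.valuation_le_one_iff, D.algebraMap_mem_iff,
      ← A.valuation_le_one_iff] at h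
    exact not_lt.2 h hgt
  have hzero := hres.eq_zero_iff.2 hlt
  have hcoeff : (gA.map (residue A)).coeff m = 1 := by
    rw [coeff_map]
    simp only [gA, finsetSum_coeff, coeff_monomial, Finset.sum_ite_eq', mem_support_iff, ne_eq,
      hm0, not_false_eq_true, if_true]
    rw [show (⟨g.coeff m / g.coeff m, hq m⟩ : A) = 1 from Subtype.ext (div_self hm0), map_one]
  exact D.transcendental_tbc c ⟨_, fun h => by rw [h, coeff_zero] at hcoeff; exact zero_ne_one hcoeff,
    hzero⟩

/-- A fixed element of `A[t]` has fixed coefficients. -/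
theorem mem_closure_fixed {c : Bool} {H : Subgroup Γℚ} {x : F} (hx : x ∈ Qb⟮D.t⟯)
    (hxR : x ∈ D.ring c) (hfix : D.Fixed H x) :
    x ∈ Subring.closure ({y : F | ∃ a ∈ A, (∀ σ ∈ H, σ a = a) ∧ y = algebraMap Qb F a} ∪
      {D.tc c}) := by
  obtain ⟨f, hf, rfl⟩ := exists_poly_of_mem_ring hx hxR
  have hfixed : ∀ σ ∈ H, f.map ((σ : Qb ≃ₐ[ℚ] Qb) : Qb →+* Qb) = f := by
    intro σ hσ
    by_contra hne
    refine transcendental_tc (D := D) c ⟨_, sub_ne_zero.2 hne, ?_⟩
    rw [map_sub, sub_eq_zero]
    refine Eq.trans ?_ (hfix σ hσ)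
    clear hf hne hxR hx hfix
    induction f using Polynomial.induction_on' with
    | add g g' h h' => rw [Polynomial.map_add, map_add, map_add, smul_add, h, h']
    | monomial n b =>
      rw [map_monomial, aeval_monomial, aeval_monomial, smul_mul', smul_pow', tc_fixed,
        act_algebraMap]
      rfl
  rw [aeval_eq_sum_range]
  refine sum_mem fun i _ => ?_
  rw [Algebra.smul_def]
  refine mul_mem (Subring.subset_closure (.inl ⟨_, hf i, fun σ hσ => ?_, rfl⟩))
    (pow_mem (Subring.subset_closure (.inr rfl)) i)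
  have := congrArg (fun g : Qb[X] => g.coeff i) (hfixed σ hσ)
  simpa using this

/-- The trace of an element of the chart lies in `A[t]`. -/
theorem trace_mem_ring {c : Bool} {x : F} (hx : x ∈ D.ring c) :
    (Algebra.trace Qb⟮D.t⟯ F x : F) ∈ D.ring c := by
  haveI : FiniteDimensional Qb⟮D.t⟯ F := finiteDimensional_adjoin (transcendental_tc (D := D) false)
  have hle : D.base c ≤ Qb⟮D.t⟯.toSubfield.toSubring := by
    rw [base, Subring.closure_le]
    rintro _ (⟨a, -, rfl⟩ | rfl)
    · exact IntermediateField.algebraMap_mem _ a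
    · cases c
      · exact IntermediateField.mem_adjoin_simple_self Qb D.t
      · exact Qb⟮D.t⟯.inv_mem (IntermediateField.mem_adjoin_simple_self Qb D.t)
  let φ : D.base c →+* Qb⟮D.t⟯ := Subring.inclusion hle
  letI : Algebra (D.base c) Qb⟮D.t⟯ := φ.toAlgebra
  haveI : IsScalarTower (D.base c) Qb⟮D.t⟯ F := IsScalarTower.of_algebraMap_eq fun _ => rfl
  have hint : IsIntegral (D.base c) x := (mem_integralClosure_iff _ _).1 hx
  exact (mem_integralClosure_iff _ _).2
    ((Algebra.isIntegral_trace (L := Qb⟮D.t⟯) hint).algebraMap (B := F))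

include hA in
theorem chart_finite_pt (c : Bool) (H : Subgroup Γℚ) (hH : H ≤ A.inertiaSubgroupIn ℚ)
    (Dv : Divisor Qb F) : ∃ G : Finset F, ∀ f : F, D.Fixed H f → (∀ i, f ∈ D.V i) →
      (∀ P : Place Qb F, D.tc c ∈ P.toValuationSubring → f = 0 ∨ -Dv P ≤ P.ord f) →
      f ∈ Submodule.span
        (Subring.closure ({y : F | ∃ a ∈ A, (∀ σ ∈ H, σ a = a) ∧ y = algebraMap Qb F a} ∪
          {D.tc c})) (G : Set F) := by
  classical
  haveI : FiniteDimensional Qb⟮D.t⟯ F := finiteDimensional_adjoin (transcendental_tc (D := D) false)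
  haveI : CharZero F := charZero_of_injective_algebraMap (algebraMap Qb F).injective
  haveI : CharZero Qb⟮D.t⟯ := charZero_of_injective_algebraMap (algebraMap Qb Qb⟮D.t⟯).injective
  haveI : Algebra.IsSeparable Qb⟮D.t⟯ F := inferInstance
  obtain ⟨G₀, hG₀fix, hG₀⟩ := D.exists_spanning
  obtain ⟨b, hbG, hbspan, hbli⟩ := exists_linearIndependent Qb⟮D.t⟯ (G₀ : Set F)
  haveI : Finite b := (G₀.finite_toSet.subset hbG).to_subtype
  haveI := Fintype.ofFinite b
  choose sc hsc hsc0 hscfix hscmem using fun e : b => exists_clear (D := D) c hH (e : F)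
  set e' : b → F := fun e => sc e * (e : F) with he'
  have hKmem : ∀ {x}, x ∈ D.base c → x ∈ Qb⟮D.t⟯ := fun {x} hx => by
    induction hx using Subring.closure_induction with
    | mem y hy =>
      rcases hy with ⟨a, -, rfl⟩ | rfl
      · exact IntermediateField.algebraMap_mem _ a
      · cases c
        · exact IntermediateField.mem_adjoin_simple_self Qb D.t
        · exact inv_mem (IntermediateField.mem_adjoin_simple_self Qb D.t)
    | zero => exact zero_mem _
    | one => exact one_mem _
    | add x y _ _ h h' => exact add_mem h h'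
    | neg x _ h => exact neg_mem h
    | mul x y _ _ h h' => exact mul_mem h h'
  let bas : Module.Basis b Qb⟮D.t⟯ F := Module.Basis.mk hbli
    (by rw [Subtype.range_coe_subtype, Set.ofPred_mem_eq, hbspan, hG₀])
  let bas' : Module.Basis b Qb⟮D.t⟯ F := bas.unitsSMul fun e =>
    Units.mk0 ⟨sc e, hKmem (hsc e)⟩ fun h => hsc0 e (congrArg Subtype.val h)
  have hbas' : ∀ e, bas' e = e' e := fun e => by
    simp only [bas', Module.Basis.unitsSMul_apply, Units.smul_mk0, bas, Module.Basis.coe_mk]
    rfl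
  have he'ring : ∀ e, e' e ∈ D.ring c := hscmem
  have he'fix : ∀ σ ∈ H, ∀ e, D.act σ • e' e = e' e := fun σ hσ e => by
    show D.act σ • (sc e * (e : F)) = _
    rw [smul_mul', hscfix e σ hσ, hG₀fix σ (e : F) (hbG e.2)]
  let M : Matrix b b Qb⟮D.t⟯ := fun i j => Algebra.trace Qb⟮D.t⟯ F (e' i * e' j)
  have hMmem : ∀ i j, ((M i j : Qb⟮D.t⟯) : F) ∈ D.ring c := fun i j =>
    trace_mem_ring (mul_mem (he'ring i) (he'ring j))
  have hMdet : M.det ≠ 0 := by
    have hn : (Algebra.traceForm Qb⟮D.t⟯ F).Nondegenerate := traceForm_nondegenerate _ _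
    have h := (LinearMap.BilinForm.nondegenerate_iff_det_ne_zero bas').1 hn
    convert h using 2
    ext i j
    simp [M, LinearMap.BilinForm.toMatrix_apply, Algebra.traceForm_apply, hbas']
  -- the rings `A[t]` inside the constants
  let R : Subring Qb⟮D.t⟯ := (D.ring c).comap (algebraMap Qb⟮D.t⟯ F)
  have hdetR : M.det ∈ R := by
    rw [Matrix.det_apply]
    refine sum_mem fun σ _ => ?_
    rw [Units.smul_def]
    exact zsmul_mem (prod_mem fun i _ => show M (σ i) i ∈ R from hMmem _ _) _
  have hadjR : ∀ i j, M.adjugate i j ∈ R := fun i j => by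
    rw [Matrix.adjugate_apply, Matrix.det_apply]
    refine sum_mem fun σ _ => ?_
    rw [Units.smul_def]
    refine zsmul_mem (prod_mem fun l _ => ?_) _
    rw [Matrix.updateRow_apply]
    split_ifs with h
    · rw [Pi.single_apply]
      split_ifs
      · exact one_mem _
      · exact zero_mem _
    · exact hMmem _ _
  let T : Submonoid F := (D.ring c).toSubmonoid ⊓ Qb⟮D.t⟯.toSubfield.toSubring.toSubmonoid ⊓
    nonZeroDivisors F
  have hdetT : ∀ σ ∈ H, D.act σ • (M.det : F) ∈ T := fun σ hσ => by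
    obtain ⟨f, hf, hfe⟩ := exists_poly_of_mem_ring M.det.2 hdetR
    have hb : (M.det : F) ∈ D.base c := by
      rw [← hfe, aeval_eq_sum_range]
      exact sum_mem fun i _ => by
        rw [Algebra.smul_def]
        exact mul_mem (algebraMap_mem_base (hf i)) (pow_mem (tc_mem_base c) i)
    have := act_mem_base (hH hσ) hb
    exact ⟨⟨base_le_ring this, hKmem this⟩, mem_nonZeroDivisors_of_ne_zero
      ((smul_ne_zero_iff_ne _).2 fun h => hMdet (Subtype.ext h))⟩
  obtain ⟨r, hr, hre⟩ := D.exists_normOrbit_eq_mul H (M.det : F) T hdetT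
  set δ := D.normOrbit H (M.det : F) with hδdef
  have hδT : δ ∈ T := D.normOrbit_mem H _ T hdetT
  have hδ0 : δ ≠ 0 := nonZeroDivisors.ne_zero hδT.2
  obtain ⟨d, hd, hd0, hdfix, hdord⟩ :=
    exists_clear_poles (D := D) c hH Dv.support (∑ P ∈ Dv.support, (Dv P).natAbs)
  refine ⟨Finset.univ.image fun e => (d * δ)⁻¹ * e' e, fun f hffix hfV hfD => ?_⟩
  have hdf : d * f ∈ D.ring c := by
    refine mem_ring_iff.2 ⟨fun i => mul_mem (mem_V_of_mem_ring (base_le_ring hd) i) (hfV i),
      fun P hP => ?_⟩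
    rcases hfD P hP with rfl | hle
    · rw [mul_zero]; exact zero_mem _
    rcases eq_or_ne f 0 with rfl | hf0
    · rw [mul_zero]; exact zero_mem _
    refine mem_of_ord_nonneg P ?_
    rw [P.ord_mul hd0 hf0]
    have h1 := ord_nonneg_of_mem P (regOn_of_mem_ring (base_le_ring hd) P hP)
    by_cases hPs : Dv P = 0
    · omega
    · have h2 := hdord P (Finsupp.mem_support_iff.2 hPs) hP
      have h3 : (Dv P).natAbs ≤ ∑ P ∈ Dv.support, (Dv P).natAbs :=
        Finset.single_le_sum (f := fun P => (Dv P).natAbs) (fun _ _ => Nat.zero_le _)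
          (Finsupp.mem_support_iff.2 hPs)
      omega
  set g : b → Qb⟮D.t⟯ := fun e => bas'.repr (d * f) e with hgdef
  have hsum : d * f = ∑ e, (g e : F) * e' e := by
    conv_lhs => rw [← bas'.sum_repr (d * f)]
    refine Finset.sum_congr rfl fun e _ => ?_
    rw [hbas', Algebra.smul_def]
    rfl
  have hgfix : ∀ e, D.Fixed H (g e : F) := by
    intro e σ hσ
    have hK : ∀ x : Qb⟮D.t⟯, D.act σ • (x : F) ∈ Qb⟮D.t⟯ := fun x => by
      obtain ⟨x, hx⟩ := x
      induction hx using IntermediateField.adjoin_induction with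
      | mem y hy =>
        obtain rfl := Set.mem_singleton_iff.1 hy
        show D.act σ • D.t ∈ _
        rw [D.t_fixed]
        exact IntermediateField.mem_adjoin_simple_self Qb D.t
      | algebraMap a => rw [act_algebraMap]; exact IntermediateField.algebraMap_mem _ _
      | add x y _ _ h h' => rw [smul_add]; exact add_mem h h'
      | inv x _ h => rw [smul_inv'']; exact inv_mem h
      | mul x y _ _ h h' => rw [smul_mul']; exact mul_mem h h'
    have h2 : d * f = ∑ e, (⟨_, hK (g e)⟩ : Qb⟮D.t⟯) • bas' e := by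
      calc d * f = D.act σ • (d * f) := by rw [smul_mul', hdfix σ hσ, hffix σ hσ]
        _ = _ := by
          rw [hsum, Finset.smul_sum]
          refine Finset.sum_congr rfl fun e _ => ?_
          rw [smul_mul', he'fix σ hσ, hbas', Algebra.smul_def]
          rfl
    have h3 := congrArg (fun x => bas'.repr x e) h2
    simp only [Module.Basis.repr_sum_self] at h3
    exact (congrArg Subtype.val h3).symm
  let v : b → Qb⟮D.t⟯ := fun i => Algebra.trace Qb⟮D.t⟯ F (e' i * (d * f))
  have hMv : M.mulVec g = v := by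
    funext i
    show ∑ j, M i j * g j = _
    simp only [v, hsum, Finset.mul_sum, map_sum]
    refine Finset.sum_congr rfl fun j _ => ?_
    rw [show e' i * ((g j : F) * e' j) = g j • (e' i * e' j) by
      rw [Algebra.smul_def]; show _ = (g j : F) * _; ring, map_smul, smul_eq_mul, mul_comm]
  have hdg : ∀ e, M.det * g e ∈ R := fun e => by
    have h := congrArg (fun w => M.adjugate.mulVec w e) hMv
    simp only [Matrix.mulVec_mulVec, Matrix.adjugate_mul, Matrix.smul_mulVec, Matrix.one_mulVec,
      Pi.smul_apply, smul_eq_mul] at h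
    rw [h]
    exact sum_mem fun j _ => mul_mem (hadjR e j) (trace_mem_ring (mul_mem (he'ring j) hdf))
  have hcoef : ∀ e, δ * (g e : F) ∈
      Subring.closure ({y : F | ∃ a ∈ A, (∀ σ ∈ H, σ a = a) ∧ y = algebraMap Qb F a} ∪
        {D.tc c}) := fun e => by
    refine mem_closure_fixed (mul_mem (hδT.1.2 : δ ∈ Qb⟮D.t⟯) (g e).2) ?_ fun σ hσ => by
      rw [smul_mul', hδdef, D.normOrbit_fixed H _ σ hσ, hgfix e σ hσ]
    rw [hre, mul_right_comm]
    exact mul_mem (hdg e) hr.1.1
  have hf : f = ∑ e, (δ * (g e : F)) * ((d * δ)⁻¹ * e' e) := by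
    have : f = (d * δ)⁻¹ * (δ * (d * f)) := by field_simp
    rw [this, hsum, Finset.mul_sum, Finset.mul_sum]
    refine Finset.sum_congr rfl fun e _ => ?_
    ring
  rw [hf]
  refine Submodule.sum_mem _ fun e _ => ?_
  exact Submodule.smul_mem _ (⟨_, hcoef e⟩ : Subring.closure _)
    (Submodule.subset_span (Finset.mem_coe.2 (Finset.mem_image_of_mem _ (Finset.mem_univ e))))

end Fermat.Agent.LevelP.X0.ChartInputs
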