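import Fermat.Agent.LevelP.X0.Charts.Affine
import Fermat.Agent.BadPrime.PairImage

/-!
# The special fibre of a chart

The pairs of residues of the functions of a chart are the pairs of functions of the affine rings
that agree at the zeros of the residue of `w` and their partners, and every such pair has a lift
fixed by inertia.
-/

set_option autoImplicit false

noncomputable section

namespace Fermat.Agent.LevelP.X0.ChartInputs

open AlgebraicCurve Fermat.Agent.Curve IsLocalRing Fermat.Agent.Reduction.ConstRed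
open scoped IntermediateField

local notation "Qb" => AlgebraicClosure ℚ
local notation "Γℚ" => (AlgebraicClosure ℚ ≃ₐ[ℚ] AlgebraicClosure ℚ)

variable {p : ℕ} {A : ValuationSubring Qb} {F : Type*} [Field F] [Algebra Qb F]
  {Fb : Type*} [Field Fb] [Algebra (ResidueField A) Fb] (D : ChartInputs p A F Fb)

local notation "k" => ResidueField A

variable {D} in
/-- The residue of a function of a chart is in the affine ring. -/
theorem HasRes.mem_compRing {c i : Bool} {f : F} {a : Fb} (h : D.HasRes i f a)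
    (hf : f ∈ D.ring c) : a ∈ D.compRing c := by
  intro Q hQ
  let S : Subring F :=
    { carrier := {x | ∃ b ∈ Q.toValuationSubring, D.HasRes i x b}
      mul_mem' := fun ⟨b, hb, h⟩ ⟨b', hb', h'⟩ => ⟨_, mul_mem hb hb', h.mul h'⟩
      one_mem' := ⟨1, one_mem _, hasRes_one⟩
      add_mem' := fun ⟨b, hb, h⟩ ⟨b', hb', h'⟩ => ⟨_, add_mem hb hb', h.add h'⟩
      zero_mem' := ⟨0, zero_mem _, hasRes_zero⟩
      neg_mem' := fun ⟨b, hb, h⟩ => ⟨_, neg_mem hb, h.neg⟩ }
  have hS : Subring.closure (algebraMap Qb F '' (A : Set Qb) ∪ {D.tc c}) ≤ S := by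
    rw [Subring.closure_le]
    rintro _ (⟨x, hx, rfl⟩ | rfl)
    · exact ⟨_, Q.algebraMap_mem' _, hasRes_algebraMap ⟨x, hx⟩⟩
    · refine ⟨_, ?_, D.hasRes_tc c i⟩
      cases i <;> simp only [if_true, Bool.false_eq_true, if_false]
      · exact hQ
      · exact pow_mem hQ p
  obtain ⟨P, hP, hPf⟩ := (mem_integralClosure_iff _ _).1 hf
  let ρ : Subring.closure (algebraMap Qb F '' (A : Set Qb) ∪ {D.tc c}) →+* D.V i :=
    Subring.inclusion fun x hx => (hS hx).choose_spec.2.1
  let ψ : Subring.closure (algebraMap Qb F '' (A : Set Qb) ∪ {D.tc c}) →+* Q.toValuationSubring :=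
    ((D.red i).comp ρ).codRestrict Q.toValuationSubring.toSubring fun x => by
      obtain ⟨b, hb, hx, rfl⟩ := hS x.2
      exact hb
  have hroot : P.eval₂ ((D.red i).comp ρ) a = 0 := by
    have h0 : P.eval₂ ρ (⟨f, h.1⟩ : D.V i) = 0 := by
      apply (D.V i).subtype_injective
      rw [Polynomial.hom_eval₂, map_zero]
      exact hPf
    have := congrArg (D.red i) h0
    rwa [Polynomial.hom_eval₂, map_zero, h.2] at this
  have hint : IsIntegral Q.toValuationSubring a := ⟨P.map ψ, hP.map _, by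
    rw [Polynomial.eval₂_map]; exact hroot⟩
  obtain ⟨y, hy⟩ := IsIntegrallyClosed.isIntegral_iff.1 hint
  exact hy ▸ y.2

/-- The pairs of residues of functions of a chart fixed by inertia. -/
def lifts (c : Bool) : Subalgebra k (D.compRing c × D.compRing c) where
  carrier := {uv | ∃ f : F, D.Fixed (A.inertiaSubgroupIn ℚ) f ∧ f ∈ D.ring c ∧
    D.HasRes false f uv.1 ∧ D.HasRes true f uv.2}
  mul_mem' := fun ⟨f, hf, hf', h0, h1⟩ ⟨g, hg, hg', k0, k1⟩ =>
    ⟨f * g, fun σ hσ => by rw [smul_mul', hf σ hσ, hg σ hσ], mul_mem hf' hg', h0.mul k0, h1.mul k1⟩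
  one_mem' := ⟨1, fun _ _ => smul_one _, one_mem _, hasRes_one, hasRes_one⟩
  add_mem' := fun ⟨f, hf, hf', h0, h1⟩ ⟨g, hg, hg', k0, k1⟩ =>
    ⟨f + g, fun σ hσ => by rw [smul_add, hf σ hσ, hg σ hσ], add_mem hf' hg', h0.add k0, h1.add k1⟩
  zero_mem' := ⟨0, fun _ _ => smul_zero _, zero_mem _, hasRes_zero, hasRes_zero⟩
  algebraMap_mem' r := by
    obtain ⟨a, rfl, ha⟩ := D.exists_const r
    exact ⟨algebraMap Qb F a, fun σ hσ => by rw [act_algebraMap, ha σ hσ],
      algebraMap_mem_ring a.2, hasRes_algebraMap a, hasRes_algebraMap a⟩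

/-- A zero of the residue of `w` at finite `tb`. -/
def IsNodePlace (Q : Place k Fb) : Prop :=
  D.tb ∈ Q.toValuationSubring ∧ ∀ a, D.HasRes false D.w a → 0 < Q.ord a

variable {D}

theorem exists_hasRes_w : ∃ a, D.HasRes false D.w a ∧ a ≠ 0 := by
  have h : D.w ∈ D.V false := ((D.V false).valuation_le_one_iff _).1 D.w_false.le
  refine ⟨_, hasRes_red h, fun h0 => ?_⟩
  have := (hasRes_red h).eq_zero_iff.1 h0
  exact lt_irrefl _ (this.trans_eq D.w_false.symm)

variable [IsFunctionField1 Qb F]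

/-- Clearing the poles of a function of one chart on the other one. -/
theorem exists_pow_mul_mem_ring {c : Bool} {f : F} (hf : f ∈ D.ring c) :
    ∃ N : ℕ, ∀ n, N ≤ n → D.tc (!c) ^ n * f ∈ D.ring (!c) := by
  classical
  set S := (finite_ord_ne_zero (K := Qb) f).toFinset
  refine ⟨∑ P ∈ S, (P.ord f).natAbs, fun n hn => mem_ring_iff.2 ⟨fun i => ?_, fun P hP => ?_⟩⟩
  · exact mul_mem (pow_mem (D.tc_mem_V _ i) n) (mem_V_of_mem_ring hf i)
  · by_cases hc : D.tc c ∈ P.toValuationSubring
    · exact mul_mem (pow_mem hP n) (regOn_of_mem_ring hf P hc)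
    rcases eq_or_ne f 0 with rfl | hf0
    · simp
    have hinv : D.tc c = (D.tc (!c))⁻¹ := by cases c <;> simp [tc]
    have h0 : D.tc (!c) ≠ 0 := fun h => hc (by rw [hinv, h, inv_zero]; exact zero_mem _)
    have h1 : 0 < P.ord (D.tc (!c)) := by
      by_contra hle
      exact hc (hinv ▸ mem_of_ord_nonneg P (by rw [P.ord_inv]; omega))
    have h2 : (P.ord f).natAbs ≤ n := by
      rcases eq_or_ne (P.ord f) 0 with h | h
      · simp [h]
      · exact le_trans (Finset.single_le_sum (f := fun P : Place Qb F => (P.ord f).natAbs)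
          (fun _ _ => Nat.zero_le _) ((Set.Finite.mem_toFinset _).2 h)) hn
    refine mem_of_ord_nonneg P ?_
    rw [P.ord_mul (pow_ne_zero _ h0) hf0, ord_pow]
    have : (n : ℤ) ≤ (n : ℤ) * P.ord (D.tc (!c)) :=
      le_mul_of_one_le_right (Int.natCast_nonneg n) h1
    omega

variable [Fact p.Prime] (hA : A.LiesOverPrime p)

include hA in
theorem valuation_natCast_lt_one (i : Bool) :
    (D.V i).valuation (algebraMap Qb F (p : Qb)) < 1 := by
  have hp0 : (residue A (p : A)) = 0 := by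
    rw [map_natCast]
    haveI := EC.charP_residueField A (Fact.out : p.Prime) hA
    exact CharP.cast_eq_zero _ p
  have h := hasRes_algebraMap (D := D) (i := i) (p : A)
  rw [hp0, map_zero] at h
  simpa using h.eq_zero_iff.1 rfl

theorem natCast_ne_zero' : algebraMap Qb F (p : Qb) ≠ 0 :=
  (map_ne_zero _).2 (Nat.cast_ne_zero.2 (Fact.out : p.Prime).ne_zero)

include hA in
theorem hasRes_w_true : D.HasRes true D.w 0 := by
  have h : (D.V true).valuation D.w < 1 := by
    have := D.w_true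
    rw [map_div₀, map_pow, map_pow, div_eq_one_iff_eq
      (pow_ne_zero _ ((map_ne_zero _).2 natCast_ne_zero'))] at this
    rw [this]
    exact pow_lt_one₀ zero_le (valuation_natCast_lt_one hA true) (by norm_num)
  have hmem : D.w ∈ D.V true := ((D.V true).valuation_le_one_iff _).1 h.le
  obtain ⟨b, hb⟩ : ∃ b, D.HasRes true D.w b := ⟨_, hasRes_red hmem⟩
  rwa [hb.eq_zero_iff.2 h] at hb

include hA in
theorem w_mem_ring : D.w ∈ D.ring false := by
  refine mem_ring_iff.2 ⟨fun i => ?_, fun P hP => mem_of_ord_nonneg P (D.ord_w P hP).ge⟩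
  cases i
  · exact exists_hasRes_w.choose_spec.1.1
  · exact (hasRes_w_true hA).1

variable [IsAlgClosed (ResidueField A)] [IsFunctionField1 (ResidueField A) Fb]

include hA in
/-- A function vanishing along the second component vanishes at the zeros of the residue of `w`
on the first. -/
theorem evalAt_eq_zero_of_node {c : Bool} {f : F} {e : Fb} (hf : f ∈ D.ring c)
    (he : D.HasRes false f e) (h1 : D.HasRes true f 0) {Q : Place k Fb} (hQ : D.IsNodePlace Q)
    (hQc : D.tbc c ∈ Q.toValuationSubring) : evalAt Q e = 0 := by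
  suffices main : ∀ (g : F) (a : Fb), g ∈ D.ring false → D.HasRes false g a →
      D.HasRes true g 0 → evalAt Q a = 0 by
    cases c
    · exact main f e hf he h1
    obtain ⟨N, hN⟩ := exists_pow_mul_mem_ring hf
    have h := main _ (D.tb ^ N * e) (hN N le_rfl)
      (by simpa [tbc] using ((D.hasRes_tc false false).pow N).mul he)
      (by simpa [tbc] using ((D.hasRes_tc false true).pow N).mul h1)
    rw [evalAt_mul Q (pow_mem hQ.1 N) (he.mem_compRing hf Q hQc), evalAt_pow Q hQ.1,
      mul_eq_zero] at h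
    refine h.resolve_left (pow_ne_zero _ fun h0 => ?_)
    have hinv : D.tb⁻¹ ∈ Q.toValuationSubring := hQc
    have hmul := evalAt_mul Q hQ.1 hinv
    rw [mul_inv_cancel₀ (show D.tb ≠ 0 from D.tbc_ne_zero false), evalAt_one, h0, zero_mul] at hmul
    exact one_ne_zero hmul
  intro g a hg ha h1
  obtain ⟨W, hW, hW0⟩ := exists_hasRes_w (D := D)
  have hw0 : D.w ≠ 0 := fun h0 => hW0 (hW.unique (h0 ▸ hasRes_zero))
  obtain ⟨n, hn⟩ := D.exists_pow_valuation_le hA (h1.eq_zero_iff.1 rfl) hw0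
  set m := n + 1 with hm
  have hd : g ^ m / D.w ∈ D.ring false := by
    refine mem_ring_iff.2 ⟨fun i => ?_, fun P hP => ?_⟩
    · rw [← ValuationSubring.valuation_le_one_iff, map_div₀]
      cases i
      · rw [D.w_false, div_one, ValuationSubring.valuation_le_one_iff]
        exact pow_mem ha.1 m
      · rw [div_le_one₀ (zero_lt_iff.2 ((map_ne_zero _).2 hw0))]
        exact hn m (Nat.le_succ n)
    · rw [div_eq_mul_inv]
      exact mul_mem (pow_mem (regOn_of_mem_ring hg P hP) m)
        (mem_of_ord_nonneg P (by rw [P.ord_inv, D.ord_w P hP]; omega))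
  obtain ⟨b, hb⟩ : ∃ b, D.HasRes false (g ^ m / D.w) b :=
    ⟨_, hasRes_red (mem_V_of_mem_ring hd false)⟩
  have hprod : a ^ m = W * b := by
    have := hW.mul hb
    rw [mul_div_cancel₀ _ hw0] at this
    exact (ha.pow m).unique this
  have hWQ : W ∈ Q.toValuationSubring := hW.mem_compRing (w_mem_ring hA) Q hQ.1
  have h := congrArg (evalAt Q) hprod
  rw [evalAt_pow Q (ha.mem_compRing hg Q hQ.1), evalAt_mul Q hWQ (hb.mem_compRing hd Q hQ.1),
    (evalAt_eq_zero_iff Q hWQ).2 (.inr (hQ.2 W hW)), zero_mul] at h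
  exact (pow_eq_zero_iff (Nat.succ_ne_zero n)).1 h

include hA in
/-- A place of the chart which is not a node has a pair `(u, 0)` not vanishing there. -/
theorem exists_mk_zero_mem {c : Bool} {Q : Place k Fb} (hQc : D.tbc c ∈ Q.toValuationSubring)
    (hQ : ¬ D.IsNodePlace Q) :
    ∃ u : D.compRing c, (u, 0) ∈ D.lifts c ∧ evalAt Q (u : Fb) ≠ 0 := by
  obtain ⟨W, hW, hW0⟩ := exists_hasRes_w (D := D)
  by_cases htb : D.tb ∈ Q.toValuationSubring
  · have hWQ : W ∈ Q.toValuationSubring := hW.mem_compRing (w_mem_ring hA) Q htb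
    have hord : evalAt Q W ≠ 0 := fun h0 => hQ ⟨htb, fun a ha => by
      rw [ha.unique hW]; exact ((evalAt_eq_zero_iff Q hWQ).1 h0).resolve_left hW0⟩
    cases c
    · refine ⟨⟨W, hW.mem_compRing (w_mem_ring hA)⟩, ⟨D.w, D.w_fixed, w_mem_ring hA, hW, ?_⟩, hord⟩
      exact hasRes_w_true hA
    obtain ⟨N, hN⟩ := exists_pow_mul_mem_ring (w_mem_ring (D := D) hA)
    have hres := ((D.hasRes_tc true false).pow N).mul hW
    have hres' := ((D.hasRes_tc true true).pow N).mul (hasRes_w_true (D := D) hA)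
    have hmem : D.tc true ^ N * D.w ∈ D.ring true := by simpa using hN N le_rfl
    simp only [Bool.false_eq_true, if_false] at hres
    rw [mul_zero] at hres'
    refine ⟨⟨D.tbc true ^ N * W, hres.mem_compRing hmem⟩, ⟨_, ?_, hmem, hres, hres'⟩, ?_⟩
    · intro σ hσ; rw [smul_mul', smul_pow', tc_fixed, D.w_fixed σ hσ]
    · show evalAt Q (D.tbc true ^ N * W) ≠ 0
      rw [evalAt_mul Q (pow_mem hQc N) hWQ, evalAt_pow Q hQc]
      refine mul_ne_zero (pow_ne_zero _ fun h0 => ?_) hord
      have hmul := evalAt_mul Q htb hQc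
      rw [show D.tb * D.tbc true = 1 from mul_inv_cancel₀ (D.tbc_ne_zero false), evalAt_one, h0,
        mul_zero] at hmul
      exact one_ne_zero hmul
  · obtain rfl : c = true := by
      cases c
      · exact absurd hQc htb
      · rfl
    obtain ⟨G, hG, hGreg, -, hGlift⟩ := D.exists_gens true
    obtain ⟨z, hzfix, hzreg, hz⟩ := D.exists_cusp
    obtain ⟨b, hbfix, hbreg, hb⟩ := hGlift _ hG true
    have hb0 : D.HasRes false b (D.tbc true ^ p) := by
      have := hb false; simpa [HasRes, tbc] using this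
    have hb1 : D.HasRes true b (D.tbc true) := by
      have := hb true; simpa [HasRes, tbc] using this
    have hz0 : D.HasRes false z 1 := by have := hz false; simpa [HasRes] using this
    have hz1 : D.HasRes true z (D.tbc true ^ (p * p - 1)) := by
      have := hz true; simpa [HasRes, tbc] using this
    have hbm : b ∈ D.ring true := mem_ring_iff.2 ⟨fun i => (hb i).1, hbreg⟩
    have hzm : z ∈ D.ring true := mem_ring_iff.2 ⟨fun i => (hz i).1, hzreg⟩
    have hres := hz0.sub (hb0.pow (p * p - 1))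
    have hres' := hz1.sub (hb1.pow (p * p - 1))
    rw [sub_self] at hres'
    refine ⟨⟨1 - (D.tbc true ^ p) ^ (p * p - 1), hres.mem_compRing (sub_mem hzm (pow_mem hbm _))⟩,
      ⟨_, ?_, sub_mem hzm (pow_mem hbm _), hres, hres'⟩, ?_⟩
    · intro σ hσ; rw [smul_sub, smul_pow', hzfix σ hσ, hbfix σ hσ]
    · show evalAt Q (1 - (D.tbc true ^ p) ^ (p * p - 1)) ≠ 0
      have h0 : evalAt Q (D.tbc true) = 0 := by
        rw [evalAt_eq_zero_iff Q hQc]
        refine .inr ?_
        by_contra hle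
        refine htb ?_
        have : D.tb = (D.tbc true)⁻¹ := (inv_inv D.tb).symm
        rw [this]
        exact mem_of_ord_nonneg Q (by rw [Q.ord_inv]; omega)
      rw [← pow_mul, evalAt_sub Q (one_mem _) (pow_mem hQc _), evalAt_one, evalAt_pow Q hQc, h0,
        zero_pow (Nat.mul_ne_zero (Fact.out : p.Prime).ne_zero ?_), sub_zero]
      · exact one_ne_zero
      · have := (Fact.out : p.Prime).two_le
        have : 2 * 2 ≤ p * p := Nat.mul_le_mul this this
        omega

/-- Generators of the affine ring with their two Frobenius twists among the lifts. -/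
theorem exists_gens_lifts (c : Bool) : ∃ gens : Set (D.compRing c), gens.Finite ∧
    Algebra.adjoin k gens = ⊤ ∧ (∀ a ∈ gens, (a, a ^ p) ∈ D.lifts c) ∧
      ∀ a ∈ gens, (a ^ p, a) ∈ D.lifts c := by
  obtain ⟨G, -, hGreg, hGgen, hGlift⟩ := D.exists_gens c
  refine ⟨{a | (a : Fb) ∈ G}, G.finite_toSet.preimage Subtype.val_injective.injOn, ?_, ?_, ?_⟩
  · refine Subalgebra.map_injective (f := (D.compRing c).val) Subtype.val_injective ?_
    rw [Algebra.map_top, Subalgebra.range_val, AlgHom.map_adjoin]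
    refine le_antisymm (Algebra.adjoin_le ?_) fun g hg => Algebra.adjoin_mono ?_ (hGgen g hg)
    · rintro _ ⟨a, -, rfl⟩; exact a.2
    · exact fun a ha => ⟨⟨a, fun Q hQ => hGreg a ha Q hQ⟩, ha, rfl⟩
  all_goals intro a ha
  · obtain ⟨f, hfix, hreg, hf⟩ := hGlift _ ha false
    refine ⟨f, hfix, mem_ring_iff.2 ⟨fun i => (hf i).1, hreg⟩, ?_, ?_⟩
    · simpa [HasRes] using hf false
    · simpa [HasRes] using hf true
  · obtain ⟨f, hfix, hreg, hf⟩ := hGlift _ ha true
    refine ⟨f, hfix, mem_ring_iff.2 ⟨fun i => (hf i).1, hreg⟩, ?_, ?_⟩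
    · simpa [HasRes] using hf false
    · simpa [HasRes] using hf true

theorem exists_lift_fst (c : Bool) (u : D.compRing c) : ∃ v, (u, v) ∈ D.lifts c := by
  obtain ⟨gens, -, hgen, h1, -⟩ := D.exists_gens_lifts c
  exact BadPrime.exists_right_mem (D.lifts c) hgen h1 u

theorem exists_lift_snd (c : Bool) (v : D.compRing c) : ∃ u, (u, v) ∈ D.lifts c := by
  obtain ⟨gens, -, hgen, -, h2⟩ := D.exists_gens_lifts c
  exact BadPrime.exists_left_mem (D.lifts c) hgen h2 v

include hA in
theorem mk_zero_mem_lifts_iff {c : Bool} (u : D.compRing c) :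
    (u, 0) ∈ D.lifts c ↔
      ∀ Q, D.IsNodePlace Q → D.tbc c ∈ Q.toValuationSubring → evalAt Q (u : Fb) = 0 := by
  refine ⟨fun ⟨f, _, hf, h0, h1⟩ Q hQ hQc => evalAt_eq_zero_of_node hA hf h0 h1 hQ hQc, fun hu => ?_⟩
  obtain ⟨gens, hfin, hgen, hg1, hg2⟩ := D.exists_gens_lifts c
  haveI : CharP k p := EC.charP_residueField A (Fact.out : p.Prime) hA
  refine BadPrime.mem_of_forall_maximal (p := p) two_ne_zero hfin hgen
    (I := BadPrime.firstIdeal (D.lifts c) (BadPrime.exists_right_mem _ hgen hg1))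
    (fun a ha => BadPrime.sub_pow_sq_mem _ (hg1 a ha) (hg2 a ha)) fun P hP hIP => ?_
  -- the maximal ideal is a place
  haveI := hP
  letI : Field (D.compRing c ⧸ P) := Ideal.Quotient.field P
  have halg : ∀ a ∈ gens, Ideal.Quotient.mkₐ k P a ∈ (⊥ : Subalgebra k (D.compRing c ⧸ P)) := by
    intro a ha
    have h0 : Ideal.Quotient.mkₐ k P (a - a ^ p ^ 2) = 0 :=
      Ideal.Quotient.eq_zero_iff_mem.2 (hIP (BadPrime.sub_pow_sq_mem _ (hg1 a ha) (hg2 a ha)))
    set x := Ideal.Quotient.mkₐ k P a with hx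
    have hroot : Polynomial.aeval x (Polynomial.X ^ p ^ 2 - Polynomial.X : Polynomial k) = 0 := by
      rw [map_sub, map_pow, ← hx] at h0
      rw [map_sub, map_pow, Polynomial.aeval_X, ← neg_sub, h0, neg_zero]
    have hint : IsIntegral k x := ⟨_, Polynomial.monic_X_pow_sub (by
      rw [Polynomial.degree_X]
      exact_mod_cast Nat.one_lt_pow two_ne_zero (Fact.out : p.Prime).one_lt), hroot⟩
    exact Algebra.mem_bot.2 (minpoly.mem_range_of_degree_eq_one k x
      (IsAlgClosed.degree_eq_one_of_irreducible k (minpoly.irreducible hint)))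
  have hsurj : Function.Surjective (algebraMap k (D.compRing c ⧸ P)) := fun x => by
    obtain ⟨y, rfl⟩ := Ideal.Quotient.mkₐ_surjective k P x
    have : Ideal.Quotient.mkₐ k P y ∈ (Algebra.adjoin k gens).map (Ideal.Quotient.mkₐ k P) :=
      ⟨y, hgen.ge Algebra.mem_top, rfl⟩
    rw [AlgHom.map_adjoin] at this
    exact Algebra.mem_bot.1 (Algebra.adjoin_le (by rintro _ ⟨a, ha, rfl⟩; exact halg a ha) this)
  let e := AlgEquiv.ofBijective (Algebra.ofId k (D.compRing c ⧸ P))
    ⟨(algebraMap k (D.compRing c ⧸ P)).injective, hsurj⟩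
  let g : D.compRing c →ₐ[k] k := e.symm.toAlgHom.comp (Ideal.Quotient.mkₐ k P)
  have hg : ∀ a, g a = 0 ↔ a ∈ P := fun a => by
    rw [← Ideal.Quotient.eq_zero_iff_mem]
    exact map_eq_zero_iff e.symm e.symm.injective
  obtain ⟨Q, hQc, hQ⟩ := D.exists_place g
  have hnode : D.IsNodePlace Q := by
    by_contra hn
    obtain ⟨w, hw, hw0⟩ := exists_mk_zero_mem hA hQc hn
    exact hw0 (by rw [hQ, hg]; exact hIP hw)
  rw [← hg, ← hQ]
  exact hu Q hnode hQc

include hA in
/-- The partner of a node on the second component. -/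
theorem exists_partner {c : Bool} {Q : Place k Fb} (hQ : D.IsNodePlace Q)
    (hQc : D.tbc c ∈ Q.toValuationSubring) :
    ∃ Q' : Place k Fb, D.tbc c ∈ Q'.toValuationSubring ∧
      ∀ u v : D.compRing c, (u, v) ∈ D.lifts c → evalAt Q (u : Fb) = evalAt Q' (v : Fb) := by
  choose s hs using D.exists_lift_snd c
  have huniq : ∀ u v : D.compRing c, (u, v) ∈ D.lifts c →
      evalAt Q (u : Fb) = evalAt Q (s v : Fb) := by
    intro u v h
    have h0 : (u - s v, (0 : D.compRing c)) ∈ D.lifts c := by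
      simpa using sub_mem h (hs v)
    have := (mk_zero_mem_lifts_iff hA _).1 h0 Q hQ hQc
    rwa [AddSubgroupClass.coe_sub, evalAt_sub Q (u.2 Q hQc) ((s v).2 Q hQc), sub_eq_zero] at this
  let g : D.compRing c →ₐ[k] k :=
    { toFun := fun v => evalAt Q (s v : Fb)
      map_one' := (huniq 1 1 (one_mem _)).symm.trans (evalAt_one Q)
      map_mul' := fun a b => by
        exact (huniq (s a * s b) (a * b) (mul_mem (hs a) (hs b))).symm.trans
          (evalAt_mul Q ((s a).2 Q hQc) ((s b).2 Q hQc))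
      map_zero' := (huniq 0 0 (zero_mem _)).symm.trans (evalAt_zero Q)
      map_add' := fun a b => by
        exact (huniq (s a + s b) (a + b) (add_mem (hs a) (hs b))).symm.trans
          (evalAt_add Q ((s a).2 Q hQc) ((s b).2 Q hQc))
      commutes' := fun r => (huniq _ _ ((D.lifts c).algebraMap_mem r)).symm.trans
        (evalAt_algebraMap Q r) }
  obtain ⟨Q', hQ'c, hQ'⟩ := D.exists_place g
  exact ⟨Q', hQ'c, fun u v h => (huniq u v h).trans (hQ' v).symm⟩

include hA in
/-- The image of a chart. -/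
theorem mk_mem_lifts_iff {c : Bool} (u v : D.compRing c) :
    (u, v) ∈ D.lifts c ↔ ∀ Q Q' : Place k Fb, D.IsNodePlace Q →
      D.tbc c ∈ Q.toValuationSubring → D.tbc c ∈ Q'.toValuationSubring →
      (∀ u' v' : D.compRing c, (u', v') ∈ D.lifts c → evalAt Q (u' : Fb) = evalAt Q' (v' : Fb)) →
      evalAt Q (u : Fb) = evalAt Q' (v : Fb) := by
  refine ⟨fun h Q Q' _ _ _ hp => hp u v h, fun h => ?_⟩
  obtain ⟨u', hu'⟩ := D.exists_lift_snd c v
  have h0 : (u - u', (0 : D.compRing c)) ∈ D.lifts c := by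
    refine (mk_zero_mem_lifts_iff hA _).2 fun Q hQ hQc => ?_
    obtain ⟨Q', hQ'c, hQ'⟩ := exists_partner hA hQ hQc
    rw [AddSubgroupClass.coe_sub, evalAt_sub Q (u.2 Q hQc) (u'.2 Q hQc), sub_eq_zero,
      h Q Q' hQ hQc hQ'c hQ', hQ' u' v hu']
  simpa using add_mem h0 hu'

include hA in
/-- Every function of a chart has the residues of one fixed by inertia. -/
theorem mk_mem_lifts_of_mem_ring {c : Bool} {f : F} (hf : f ∈ D.ring c) {u v : D.compRing c}
    (hu : D.HasRes false f u) (hv : D.HasRes true f v) : (u, v) ∈ D.lifts c := by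
  obtain ⟨u', hu'⟩ := D.exists_lift_snd c v
  obtain ⟨g, -, hg, hg0, hg1⟩ := id hu'
  have h0 : (u - u', (0 : D.compRing c)) ∈ D.lifts c := by
    refine (mk_zero_mem_lifts_iff hA _).2 fun Q hQ hQc => ?_
    refine evalAt_eq_zero_of_node hA (sub_mem hf hg) (hu.sub hg0) ?_ hQ hQc
    have := hv.sub hg1
    rwa [sub_self] at this
  simpa using add_mem h0 hu'

include hA in
/-- Evaluation on a chart factors through one of the components. -/
theorem exists_comp_of_hom {c : Bool} (χ : D.ring c →+* k)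
    (hχ : ∀ a : A, χ ⟨algebraMap Qb F a, algebraMap_mem_ring a.2⟩ = residue A a) :
    ∃ (i : Bool) (Q : Place k Fb), D.tbc c ∈ Q.toValuationSubring ∧
      ∀ (f : F) (hf : f ∈ D.ring c) (a : Fb), D.HasRes i f a → χ ⟨f, hf⟩ = evalAt Q a := by
  have hboth : ∀ (f : F) (hf : f ∈ D.ring c), D.HasRes false f 0 → D.HasRes true f 0 →
      χ ⟨f, hf⟩ = 0 := by
    intro f hf h0 h1
    obtain ⟨n0, hn0⟩ := D.exists_pow_valuation_le hA (h0.eq_zero_iff.1 rfl) (natCast_ne_zero' (F := F) (p := p))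
    obtain ⟨n1, hn1⟩ := D.exists_pow_valuation_le hA (h1.eq_zero_iff.1 rfl) (natCast_ne_zero' (F := F) (p := p))
    set m := n0 + n1 + 1 with hm
    have hg : f ^ m / algebraMap Qb F (p : Qb) ∈ D.ring c := by
      refine mem_ring_iff.2 ⟨fun i => ?_, fun P hP => ?_⟩
      · rw [← ValuationSubring.valuation_le_one_iff, map_div₀,
          div_le_one₀ (zero_lt_iff.2 ((map_ne_zero _).2 natCast_ne_zero'))]
        cases i
        · exact hn0 m (by omega)
        · exact hn1 m (by omega)
      · rw [div_eq_mul_inv, ← map_inv₀]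
        exact mul_mem (pow_mem (regOn_of_mem_ring hf P hP) m) (P.algebraMap_mem' _)
    have he : (⟨f, hf⟩ : D.ring c) ^ m =
        ⟨algebraMap Qb F ((p : A) : Qb), algebraMap_mem_ring (p : A).2⟩ * ⟨_, hg⟩ := by
      apply Subtype.ext
      simp only [SubmonoidClass.coe_pow, MulMemClass.coe_mul]
      rw [show ((p : A) : Qb) = (p : Qb) by simp, mul_div_cancel₀ _ natCast_ne_zero']
    have h := congrArg χ he
    haveI := EC.charP_residueField A (Fact.out : p.Prime) hA
    rw [map_pow, map_mul, hχ, map_natCast, CharP.cast_eq_zero, zero_mul] at h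
    exact (pow_eq_zero_iff (Nat.succ_ne_zero _)).1 h
  have hfac : ∀ i : Bool, (∀ (f : F) (hf : f ∈ D.ring c), D.HasRes i f 0 → χ ⟨f, hf⟩ = 0) →
      ∃ Q : Place k Fb, D.tbc c ∈ Q.toValuationSubring ∧
        ∀ (f : F) (hf : f ∈ D.ring c) (a : Fb), D.HasRes i f a → χ ⟨f, hf⟩ = evalAt Q a := by
    intro i hi
    have hex : ∀ a : D.compRing c, ∃ f, f ∈ D.ring c ∧ D.HasRes i f a := by
      intro a
      cases i
      · obtain ⟨v, f, -, hf, h0, -⟩ := D.exists_lift_fst c a
        exact ⟨f, hf, h0⟩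
      · obtain ⟨v, f, -, hf, -, h1⟩ := D.exists_lift_snd c a
        exact ⟨f, hf, h1⟩
    choose l hl hl' using hex
    have huniq : ∀ (f : F) (hf : f ∈ D.ring c) (a : D.compRing c), D.HasRes i f a →
        χ ⟨f, hf⟩ = χ ⟨l a, hl a⟩ := by
      intro f hf a ha
      have h := hi (f - l a) (sub_mem hf (hl a)) (by simpa using ha.sub (hl' a))
      rw [← sub_eq_zero, ← map_sub]
      exact h
    let g : D.compRing c →ₐ[k] k :=
      { toFun := fun a => χ ⟨l a, hl a⟩
        map_one' := (huniq 1 (one_mem _) 1 hasRes_one).symm.trans (map_one χ)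
        map_mul' := fun a b =>
          (huniq _ (mul_mem (hl a) (hl b)) (a * b) ((hl' a).mul (hl' b))).symm.trans (map_mul χ ⟨_, hl a⟩ ⟨_, hl b⟩)
        map_zero' := (huniq 0 (zero_mem _) 0 hasRes_zero).symm.trans (map_zero χ)
        map_add' := fun a b =>
          (huniq _ (add_mem (hl a) (hl b)) (a + b) ((hl' a).add (hl' b))).symm.trans (map_add χ ⟨_, hl a⟩ ⟨_, hl b⟩)
        commutes' := fun r => by
          obtain ⟨a, rfl⟩ := IsLocalRing.residue_surjective r
          exact (huniq _ (algebraMap_mem_ring a.2) _ (hasRes_algebraMap a)).symm.trans (hχ a) }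
    obtain ⟨Q, hQc, hQ⟩ := D.exists_place g
    refine ⟨Q, hQc, fun f hf a ha => ?_⟩
    exact (huniq f hf ⟨a, ha.mem_compRing hf⟩ ha).trans (hQ ⟨a, ha.mem_compRing hf⟩).symm
  by_cases h : ∀ (f : F) (hf : f ∈ D.ring c), D.HasRes false f 0 → χ ⟨f, hf⟩ = 0
  · exact ⟨false, hfac false h⟩
  push Not at h
  obtain ⟨f₀, hf₀, h₀, hne⟩ := h
  refine ⟨true, hfac true fun f hf h1 => ?_⟩
  obtain ⟨a, ha⟩ : ∃ a, D.HasRes false f a := ⟨_, hasRes_red (mem_V_of_mem_ring hf false)⟩
  obtain ⟨b, hb⟩ : ∃ b, D.HasRes true f₀ b := ⟨_, hasRes_red (mem_V_of_mem_ring hf₀ true)⟩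
  have := hboth (f₀ * f) (mul_mem hf₀ hf) (by simpa using h₀.mul ha) (by simpa using hb.mul h1)
  rw [show (⟨f₀ * f, mul_mem hf₀ hf⟩ : D.ring c) = ⟨f₀, hf₀⟩ * ⟨f, hf⟩ from rfl, map_mul,
    mul_eq_zero] at this
  exact this.resolve_left hne

end Fermat.Agent.LevelP.X0.ChartInputs
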