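import Fermat.Agent.LevelP.X0.Charts.Image

/-!
# Closed points of the special fibre and specialisation

A closed point is a place of one component, two of them being the same point when the functions of
a common chart take the same value at both; specialisation is evaluation modulo the place of `A`.
-/

set_option autoImplicit false
set_option linter.style.haveILetI false
set_option linter.unusedSectionVars false

noncomputable section

namespace Fermat.Agent.LevelP.X0.ChartInputs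

open AlgebraicCurve Fermat.Agent.Curve IsLocalRing Fermat.Agent.Reduction.ConstRed
open scoped IntermediateField

local notation "Qb" => AlgebraicClosure ℚ
local notation "Γℚ" => (AlgebraicClosure ℚ ≃ₐ[ℚ] AlgebraicClosure ℚ)

variable {p : ℕ} {A : ValuationSubring Qb} {F : Type} [Field F] [Algebra Qb F]
  {Fb : Type} [Field Fb] [Algebra (ResidueField A) Fb] (D : ChartInputs p A F Fb)
  [IsAlgClosed (ResidueField A)] [IsFunctionField1 (ResidueField A) Fb] [IsFunctionField1 Qb F]
  [Fact p.Prime] (hA : A.LiesOverPrime p)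

local notation "k" => ResidueField A

/-- The functions of the chart `c` take equal values at two places of the components. -/
def SameOn (c : Bool) (a b : Bool × Place k Fb) : Prop :=
  D.tbc c ∈ a.2.toValuationSubring ∧ D.tbc c ∈ b.2.toValuationSubring ∧
    ∀ f ∈ D.ring c, ∀ u v : Fb, D.HasRes a.1 f u → D.HasRes b.1 f v →
      evalAt a.2 u = evalAt b.2 v

variable {D}

theorem exists_tbc_mem (Q : Place k Fb) : ∃ c, D.tbc c ∈ Q.toValuationSubring :=
  (Q.toValuationSubring.mem_or_inv_mem D.tb).elim (fun h => ⟨false, h⟩) fun h => ⟨true, h⟩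

theorem sameOn_self {c : Bool} {a : Bool × Place k Fb} (h : D.tbc c ∈ a.2.toValuationSubring) :
    D.SameOn c a a :=
  ⟨h, h, fun _ _ _ _ hu hv => by rw [hu.unique hv]⟩

theorem SameOn.symm {c : Bool} {a b : Bool × Place k Fb} (h : D.SameOn c a b) : D.SameOn c b a :=
  ⟨h.2.1, h.1, fun f hf u v hu hv => (h.2.2 f hf v u hv hu).symm⟩

theorem SameOn.trans {c : Bool} {a b b' : Bool × Place k Fb} (h : D.SameOn c a b)
    (h' : D.SameOn c b b') : D.SameOn c a b' :=
  ⟨h.1, h'.2.1, fun f hf u v hu hv =>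
    (h.2.2 f hf u _ hu (hasRes_red (mem_V_of_mem_ring hf b.1))).trans
      (h'.2.2 f hf _ v (hasRes_red (mem_V_of_mem_ring hf b.1)) hv)⟩

theorem tbc_not (c : Bool) : D.tbc (!c) = (D.tbc c)⁻¹ := by
  cases c <;> simp [tbc]

theorem tc_not (c : Bool) : D.tc (!c) = (D.tc c)⁻¹ := by
  cases c <;> simp [tc]

theorem evalAt_tbc_ne_zero {c : Bool} {Q : Place k Fb} (h : D.tbc c ∈ Q.toValuationSubring)
    (h' : D.tbc (!c) ∈ Q.toValuationSubring) : evalAt Q (D.tbc c) ≠ 0 := fun h0 => by
  have hm := evalAt_mul Q h h'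
  rw [tbc_not, mul_inv_cancel₀ (D.tbc_ne_zero c), evalAt_one, h0, zero_mul] at hm
  exact one_ne_zero hm

theorem tbc_not_mem {c : Bool} {Q : Place k Fb} (h : D.tbc c ∈ Q.toValuationSubring)
    (h' : evalAt Q (D.tbc c) ≠ 0) : D.tbc (!c) ∈ Q.toValuationSubring := by
  obtain ⟨-, h0⟩ := (evalAt_ne_zero_iff Q h).1 h'
  rw [tbc_not]
  exact mem_of_ord_nonneg Q (by rw [Q.ord_inv, h0, neg_zero])

/-- The coordinate power `tbc c ^ (p ^ i)` of a component. -/
theorem evalAt_coordPow {c : Bool} (i : Bool) {Q : Place k Fb}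
    (h : D.tbc c ∈ Q.toValuationSubring) :
    (if i then D.tbc c ^ p else D.tbc c) ∈ Q.toValuationSubring ∧
      evalAt Q (if i then D.tbc c ^ p else D.tbc c) =
        evalAt Q (D.tbc c) ^ (if i then p else 1) := by
  cases i
  · simp [h]
  · exact ⟨pow_mem h p, evalAt_pow Q h p⟩

theorem SameOn.mem_not {c : Bool} {a b : Bool × Place k Fb} (h : D.SameOn c a b)
    (ha : D.tbc (!c) ∈ a.2.toValuationSubring) : D.tbc (!c) ∈ b.2.toValuationSubring := by
  refine tbc_not_mem h.2.1 fun h0 => ?_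
  have := h.2.2 _ (D.tc_mem_ring (c := c)) _ _ (D.hasRes_tc c a.1) (D.hasRes_tc c b.1)
  rw [(evalAt_coordPow a.1 h.1).2, (evalAt_coordPow b.1 h.2.1).2, h0,
    zero_pow (by have := (Fact.out : p.Prime).ne_zero; cases b.1 <;> simp [this])] at this
  exact pow_ne_zero _ (evalAt_tbc_ne_zero h.1 ha) this

theorem SameOn.not {c : Bool} {a b : Bool × Place k Fb} (h : D.SameOn c a b)
    (ha : D.tbc (!c) ∈ a.2.toValuationSubring) : D.SameOn (!c) a b := by
  refine ⟨ha, h.mem_not ha, fun f hf u v hu hv => ?_⟩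
  obtain ⟨N, hN⟩ := exists_pow_mul_mem_ring hf
  have hN' := hN N le_rfl
  rw [Bool.not_not] at hN'
  have e := h.2.2 _ hN' _ _ (((D.hasRes_tc c a.1).pow N).mul hu)
    (((D.hasRes_tc c b.1).pow N).mul hv)
  have hp := h.2.2 _ (D.tc_mem_ring (c := c)) _ _ (D.hasRes_tc c a.1) (D.hasRes_tc c b.1)
  obtain ⟨hma, hea⟩ := evalAt_coordPow a.1 h.1
  obtain ⟨hmb, heb⟩ := evalAt_coordPow b.1 h.2.1
  rw [evalAt_mul a.2 (pow_mem hma N) (hu.mem_compRing hf a.2 ha),
    evalAt_mul b.2 (pow_mem hmb N) (hv.mem_compRing hf b.2 (h.mem_not ha)),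
    evalAt_pow a.2 hma, evalAt_pow b.2 hmb, ← hp] at e
  refine mul_left_cancel₀ (pow_ne_zero _ ?_) e
  rw [hea]
  exact pow_ne_zero _ (evalAt_tbc_ne_zero h.1 ha)

theorem SameOn.transfer {c c' : Bool} {a b : Bool × Place k Fb} (h : D.SameOn c a b)
    (ha : D.tbc c' ∈ a.2.toValuationSubring) : D.SameOn c' a b := by
  cases c <;> cases c'
  · exact h
  · exact h.not ha
  · exact h.not ha
  · exact h

variable (D) in
/-- Being the same closed point. -/
def ptSetoid : Setoid (Bool × Place k Fb) where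
  r a b := ∃ c, D.SameOn c a b
  iseqv :=
    { refl := fun a => (exists_tbc_mem a.2).imp fun _ h => sameOn_self h
      symm := fun ⟨c, h⟩ => ⟨c, h.symm⟩
      trans := fun ⟨c, h⟩ ⟨_, h'⟩ => ⟨c, h.trans (h'.transfer h.2.1)⟩ }

variable (D) in
/-- The closed points of the special fibre. -/
def Pts : Type := Quotient D.ptSetoid

variable (D) in
/-- The point at a place of a component. -/
def pt (i : Bool) (Q : Place k Fb) : D.Pts := Quotient.mk D.ptSetoid (i, Q)

/-- The point lies in a chart. -/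
def PtInChart (c : Bool) (y : D.Pts) : Prop :=
  ∃ i Q, D.pt i Q = y ∧ D.tbc c ∈ Q.toValuationSubring

/-- Incidence. -/
def PtOn (y : D.Pts) (i : Bool) : Prop := ∃ Q, D.pt i Q = y

theorem exists_pt_eq (y : D.Pts) : ∃ i Q, D.pt i Q = y :=
  Quotient.inductionOn y fun a => ⟨a.1, a.2, rfl⟩

theorem exists_ptInChart (y : D.Pts) : ∃ c, PtInChart c y := by
  obtain ⟨i, Q, rfl⟩ := exists_pt_eq y
  exact (exists_tbc_mem Q).imp fun c hc => ⟨i, Q, rfl, hc⟩

theorem sameOn_of_pt_eq {c : Bool} {i i' : Bool} {Q Q' : Place k Fb}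
    (h : D.pt i Q = D.pt i' Q') (hQ : D.tbc c ∈ Q.toValuationSubring) :
    D.SameOn c (i, Q) (i', Q') := by
  obtain ⟨c', hc'⟩ := Quotient.exact (s := D.ptSetoid) h
  exact hc'.transfer hQ

theorem pt_eq_of_sameOn {c : Bool} {i i' : Bool} {Q Q' : Place k Fb}
    (h : D.SameOn c (i, Q) (i', Q')) : D.pt i Q = D.pt i' Q' :=
  Quotient.sound (s := D.ptSetoid) ⟨c, h⟩

theorem tbc_mem_of_ptInChart {c i : Bool} {Q : Place k Fb} (h : PtInChart c (D.pt i Q)) :
    D.tbc c ∈ Q.toValuationSubring := by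
  obtain ⟨i', Q', he, hc⟩ := h
  exact (sameOn_of_pt_eq he hc).2.1

theorem exists_ring_lift (c i : Bool) {u : Fb} (hu : u ∈ D.compRing c) :
    ∃ f ∈ D.ring c, D.HasRes i f u := by
  cases i
  · obtain ⟨v, f, -, hf, h0, -⟩ := D.exists_lift_fst c ⟨u, hu⟩
    exact ⟨f, hf, h0⟩
  · obtain ⟨v, f, -, hf, -, h1⟩ := D.exists_lift_snd c ⟨u, hu⟩
    exact ⟨f, hf, h1⟩

theorem pt_injective (i : Bool) : Function.Injective (D.pt i) := fun Q Q' h => by
  obtain ⟨c, hc⟩ := exists_tbc_mem (D := D) Q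
  have hs := sameOn_of_pt_eq h hc
  refine D.place_ext hc hs.2.1 fun u hu => ?_
  obtain ⟨f, hf, hfu⟩ := exists_ring_lift c i hu
  exact hs.2.2 f hf u u hfu hfu

/-- The place of a component at a point, junk off the component. -/
def ptLoc (y : D.Pts) (i : Bool) : Place k Fb :=
  letI := Classical.propDecidable
  if h : PtOn y i then h.choose else (exists_pt_eq y).choose_spec.choose

theorem pt_ptLoc {y : D.Pts} {i : Bool} (h : PtOn y i) : D.pt i (ptLoc y i) = y := by
  rw [ptLoc, dif_pos h]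
  exact h.choose_spec

theorem ptLoc_pt (i : Bool) (Q : Place k Fb) : ptLoc (D.pt i Q) i = Q :=
  pt_injective i (pt_ptLoc ⟨Q, rfl⟩)

theorem tbc_mem_ptLoc {c i : Bool} {y : D.Pts} (hc : PtInChart c y) (hi : PtOn y i) :
    D.tbc c ∈ (ptLoc y i).toValuationSubring :=
  tbc_mem_of_ptInChart ((pt_ptLoc hi).symm ▸ hc)

theorem existsUnique_pt (i : Bool) (Q : Place k Fb) :
    ∃! y : D.Pts, PtOn y i ∧ ptLoc y i = Q :=
  ⟨D.pt i Q, ⟨⟨Q, rfl⟩, ptLoc_pt i Q⟩, fun y hy => by rw [← pt_ptLoc hy.1, hy.2]⟩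

/-- Evaluation of the functions of a chart at a point. -/
theorem evalAt_eq_of_pt_eq {c i i' : Bool} {Q Q' : Place k Fb} (h : D.pt i Q = D.pt i' Q')
    (hQ : D.tbc c ∈ Q.toValuationSubring) {f : F} (hf : f ∈ D.ring c) {u v : Fb}
    (hu : D.HasRes i f u) (hv : D.HasRes i' f v) : evalAt Q u = evalAt Q' v :=
  (sameOn_of_pt_eq h hQ).2.2 f hf u v hu hv

section Places

/-- `P` specialises to `(i, Q)` on the chart `c`. -/
def Spec (c : Bool) (P : Place Qb F) (i : Bool) (Q : Place k Fb) : Prop :=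
  D.tc c ∈ P.toValuationSubring ∧ D.tbc c ∈ Q.toValuationSubring ∧
    ∀ f ∈ D.ring c, ∀ u, D.HasRes i f u →
      ∃ h : evalAt P f ∈ A, residue A ⟨evalAt P f, h⟩ = evalAt Q u

/-- The values at `P` of the functions of a chart are integral. -/
theorem evalAt_mem_of_mem_ring {c : Bool} {P : Place Qb F} (hP : D.tc c ∈ P.toValuationSubring)
    (hPA : evalAt P (D.tc c) ∈ A) {f : F} (hf : f ∈ D.ring c) : evalAt P f ∈ A := by
  have hle : Subring.closure (algebraMap Qb F '' (A : Set Qb) ∪ {D.tc c}) ≤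
      P.toValuationSubring.toSubring := by
    rw [Subring.closure_le]
    rintro _ (⟨x, -, rfl⟩ | rfl)
    · exact P.algebraMap_mem' x
    · exact hP
  let φ := (evalHom P).comp (Subring.inclusion hle)
  have hφ : ∀ x, φ x ∈ A := by
    rintro ⟨x, hx⟩
    induction hx using Subring.closure_induction with
    | mem x hx =>
      rcases hx with ⟨a, ha, rfl⟩ | rfl
      · show evalAt P (algebraMap Qb F a) ∈ A
        rwa [evalAt_algebraMap]
      · exact hPA
    | zero => exact (map_zero φ) ▸ zero_mem A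
    | one => exact (map_one φ) ▸ one_mem A
    | add x y hx hy h h' => exact (map_add φ ⟨x, hx⟩ ⟨y, hy⟩).symm ▸ add_mem h h'
    | neg x hx h => exact (map_neg φ ⟨x, hx⟩).symm ▸ neg_mem h
    | mul x y hx hy h h' => exact (map_mul φ ⟨x, hx⟩ ⟨y, hy⟩).symm ▸ mul_mem h h'
  obtain ⟨R, hR, hRf⟩ := (mem_integralClosure_iff _ _).1 hf
  have hfP : f ∈ P.toValuationSubring := regOn_of_mem_ring hf P hP
  have h0 : R.eval₂ (Subring.inclusion hle) (⟨f, hfP⟩ : P.toValuationSubring) = 0 := by
    apply P.toValuationSubring.subtype_injective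
    rw [Polynomial.hom_eval₂, map_zero]
    exact hRf
  have hroot : R.eval₂ φ (evalAt P f) = 0 := by
    have := congrArg (evalHom P) h0
    rwa [Polynomial.hom_eval₂, map_zero] at this
  have hint : IsIntegral A (evalAt P f) := ⟨R.map (φ.codRestrict A.toSubring hφ), hR.map _, by
    rw [Polynomial.eval₂_map]; exact hroot⟩
  obtain ⟨y, hy⟩ := IsIntegrallyClosed.isIntegral_iff.1 hint
  exact hy ▸ y.2

include hA in
theorem exists_spec (P : Place Qb F) : ∃ c i Q, Spec (D := D) c P i Q := by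
  obtain ⟨c, hP, hPA⟩ : ∃ c, D.tc c ∈ P.toValuationSubring ∧ evalAt P (D.tc c) ∈ A := by
    rcases P.toValuationSubring.mem_or_inv_mem D.t with h | h
    · rcases A.mem_or_inv_mem (evalAt P D.t) with h' | h'
      · exact ⟨false, h, h'⟩
      rcases eq_or_ne (evalAt P D.t) 0 with h0 | h0
      · exact ⟨false, h, by show evalAt P D.t ∈ A; rw [h0]; exact zero_mem A⟩
      have hinv : D.t⁻¹ ∈ P.toValuationSubring :=
        mem_of_ord_nonneg P (by rw [P.ord_inv, ((evalAt_ne_zero_iff P h).1 h0).2, neg_zero])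
      refine ⟨true, hinv, ?_⟩
      have hm := evalAt_mul P h hinv
      rw [mul_inv_cancel₀ D.t_ne_zero, evalAt_one] at hm
      show evalAt P D.t⁻¹ ∈ A
      rwa [eq_inv_of_mul_eq_one_right hm.symm]
    · by_cases h0 : evalAt P D.t⁻¹ ∈ A
      · exact ⟨true, h, h0⟩
      have hne : evalAt P D.t⁻¹ ≠ 0 := fun h1 => h0 (by rw [h1]; exact zero_mem A)
      have hm' : D.t ∈ P.toValuationSubring := by
        have := mem_of_ord_nonneg P (f := D.t⁻¹⁻¹)
          (by rw [P.ord_inv, ((evalAt_ne_zero_iff P h).1 hne).2, neg_zero])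
        rwa [inv_inv] at this
      refine ⟨false, hm', ?_⟩
      have hm := evalAt_mul P h hm'
      rw [inv_mul_cancel₀ D.t_ne_zero, evalAt_one] at hm
      show evalAt P D.t ∈ A
      rw [eq_inv_of_mul_eq_one_right hm.symm]
      exact (A.mem_or_inv_mem _).resolve_left h0
  let χ : D.ring c →+* k :=
    { toFun := fun f => residue A ⟨evalAt P (f : F), evalAt_mem_of_mem_ring hP hPA f.2⟩
      map_one' := (congrArg (residue A) (Subtype.ext (evalAt_one P))).trans (map_one _)
      map_mul' := fun f g => by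
        rw [← map_mul]
        exact congrArg (residue A) (Subtype.ext
          (evalAt_mul P (regOn_of_mem_ring f.2 P hP) (regOn_of_mem_ring g.2 P hP)))
      map_zero' := (congrArg (residue A) (Subtype.ext (evalAt_zero P))).trans (map_zero _)
      map_add' := fun f g => by
        rw [← map_add]
        exact congrArg (residue A) (Subtype.ext
          (evalAt_add P (regOn_of_mem_ring f.2 P hP) (regOn_of_mem_ring g.2 P hP))) }
  obtain ⟨i, Q, hQ, hχ⟩ := exists_comp_of_hom hA χ fun a =>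
    congrArg (residue A) (Subtype.ext (evalAt_algebraMap P (a : Qb)))
  exact ⟨c, i, Q, hP, hQ, fun f hf u hu => ⟨_, hχ f hf u hu⟩⟩

theorem Spec.congr {c : Bool} {P : Place Qb F} {i i' : Bool} {Q Q' : Place k Fb}
    (h : Spec (D := D) c P i Q) (he : D.pt i Q = D.pt i' Q') : Spec (D := D) c P i' Q' := by
  have hs := sameOn_of_pt_eq he h.2.1
  refine ⟨h.1, hs.2.1, fun f hf v hv => ?_⟩
  obtain ⟨ha, hres⟩ := h.2.2 f hf _ (hasRes_red (mem_V_of_mem_ring hf i))
  exact ⟨ha, hres.trans (hs.2.2 f hf _ v (hasRes_red (mem_V_of_mem_ring hf i)) hv)⟩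

theorem Spec.not {c : Bool} {P : Place Qb F} {i : Bool} {Q : Place k Fb}
    (h : Spec (D := D) c P i Q) (hQ : D.tbc (!c) ∈ Q.toValuationSubring) :
    Spec (D := D) (!c) P i Q := by
  obtain ⟨hP, hQc, hval⟩ := h
  obtain ⟨hτA, hτ⟩ := hval _ (D.tc_mem_ring (c := c)) _ (D.hasRes_tc c i)
  obtain ⟨hm, he⟩ := evalAt_coordPow i hQc
  have hne : evalAt Q (if i then D.tbc c ^ p else D.tbc c) ≠ 0 := by
    rw [he]; exact pow_ne_zero _ (evalAt_tbc_ne_zero hQc hQ)
  set τ := evalAt P (D.tc c)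
  have hu : IsUnit (⟨τ, hτA⟩ : A) := by
    by_contra hn
    exact hne (hτ.symm.trans ((IsLocalRing.residue_eq_zero_iff _).2 hn))
  obtain ⟨τ', hτ'⟩ := hu.exists_left_inv
  have hτ0 : τ ≠ 0 := fun h0 => hu.ne_zero (Subtype.ext h0)
  have hPn : D.tc (!c) ∈ P.toValuationSubring := by
    rw [tc_not]
    exact mem_of_ord_nonneg P (by rw [P.ord_inv, ((evalAt_ne_zero_iff P hP).1 hτ0).2, neg_zero])
  refine ⟨hPn, hQ, fun f hf u hu => ?_⟩
  obtain ⟨N, hN⟩ := exists_pow_mul_mem_ring hf
  have hN' := hN N le_rfl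
  rw [Bool.not_not] at hN'
  obtain ⟨hxA, hx⟩ := hval _ hN' _ (((D.hasRes_tc c i).pow N).mul hu)
  rw [evalAt_mul Q (pow_mem hm N) (hu.mem_compRing hf Q hQ), evalAt_pow Q hm, ← hτ] at hx
  have hval' : evalAt P (D.tc c ^ N * f) = τ ^ N * evalAt P f := by
    rw [evalAt_mul P (pow_mem hP N) (regOn_of_mem_ring hf P hPn), evalAt_pow P hP]
  have hfA : evalAt P f ∈ A := by
    have hmem : ((τ' : Qb) ^ N) * evalAt P (D.tc c ^ N * f) ∈ A := mul_mem (pow_mem τ'.2 N) hxA
    rwa [hval', ← mul_assoc, ← mul_pow, show (τ' : Qb) * τ = 1 from congrArg Subtype.val hτ',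
      one_pow, one_mul] at hmem
  refine ⟨hfA, mul_left_cancel₀ (pow_ne_zero N (hτ.symm ▸ hne :
    residue A ⟨τ, hτA⟩ ≠ 0)) ?_⟩
  rw [← hx, ← map_pow, ← map_mul]
  exact congrArg (residue A) (Subtype.ext hval'.symm)

variable (D) in
/-- The specialisation of a place. -/
def ptSp (P : Place Qb F) : D.Pts :=
  letI := Classical.propDecidable
  if h : ∃ c i Q, Spec (D := D) c P i Q then D.pt h.choose_spec.choose h.choose_spec.choose_spec.choose
  else D.pt false (Classical.choice (exists_place_ord_pos (K := k) D.transcendental_tb).nonempty)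

theorem pt_eq_of_spec {c c' : Bool} {P : Place Qb F} {i i' : Bool} {Q Q' : Place k Fb}
    (h : Spec (D := D) c P i Q) (h' : Spec (D := D) c' P i' Q') : D.pt i Q = D.pt i' Q' := by
  have same : ∀ {d : Bool} {j j' : Bool} {R R' : Place k Fb}, Spec (D := D) d P j R →
      Spec (D := D) d P j' R' → D.pt j R = D.pt j' R' := fun {d j j' R R'} g g' =>
    pt_eq_of_sameOn (c := d) ⟨g.2.1, g'.2.1, fun f hf u v hu hv => by
      obtain ⟨_, e⟩ := g.2.2 f hf u hu
      obtain ⟨_, e'⟩ := g'.2.2 f hf v hv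
      exact e.symm.trans e'⟩
  by_cases hcc : c' = c
  · exact same h (hcc ▸ h')
  obtain rfl : c' = !c := by cases c <;> cases c' <;> simp_all
  by_cases hQ : D.tbc (!c) ∈ Q.toValuationSubring
  · exact same (h.not hQ) h'
  by_cases hQ' : D.tbc c ∈ Q'.toValuationSubring
  · exact same h (by simpa using h'.not (by rwa [Bool.not_not]))
  exfalso
  -- both coordinates would reduce to zero at `P`
  have h0 : evalAt Q (D.tbc c) = 0 := by
    by_contra hn; exact hQ (tbc_not_mem h.2.1 hn)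
  have h0' : evalAt Q' (D.tbc (!c)) = 0 := by
    by_contra hn; exact hQ' (by simpa using tbc_not_mem h'.2.1 hn)
  obtain ⟨ha, ea⟩ := h.2.2 _ (D.tc_mem_ring (c := c)) _ (D.hasRes_tc c i)
  obtain ⟨ha', ea'⟩ := h'.2.2 _ (D.tc_mem_ring (c := !c)) _ (D.hasRes_tc (!c) i')
  rw [(evalAt_coordPow i h.2.1).2, h0,
    zero_pow (by have := (Fact.out : p.Prime).ne_zero; cases i <;> simp [this])] at ea
  rw [(evalAt_coordPow i' h'.2.1).2, h0',
    zero_pow (by have := (Fact.out : p.Prime).ne_zero; cases i' <;> simp [this])] at ea'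
  have hm := evalAt_mul P h.1 h'.1
  rw [tc_not, mul_inv_cancel₀, evalAt_one] at hm
  · have e : residue A ⟨evalAt P (D.tc c), ha⟩ * residue A ⟨evalAt P (D.tc (!c)), ha'⟩ = 1 := by
      rw [← map_mul, ← map_one (residue A)]
      refine congrArg (residue A) (Subtype.ext ?_)
      show evalAt P (D.tc c) * evalAt P (D.tc (!c)) = 1
      rw [tc_not]; exact hm.symm
    rw [ea, zero_mul] at e
    exact zero_ne_one e
  · intro ht
    exact D.t_ne_zero (by cases c <;> simpa [tc] using ht)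

include hA in
theorem spec_ptSp {P : Place Qb F} {i : Bool} {Q : Place k Fb} (he : D.pt i Q = D.ptSp P)
    {c : Bool} (hc : D.tbc c ∈ Q.toValuationSubring) : Spec (D := D) c P i Q := by
  have h := exists_spec (D := D) hA P
  rw [ptSp, dif_pos h] at he
  have hs := (h.choose_spec.choose_spec.choose_spec).congr he.symm
  generalize h.choose = c' at hs
  by_cases hcc : c = c'
  · exact hcc ▸ hs
  obtain rfl : c = !c' := by cases c <;> cases c' <;> simp_all
  exact hs.not hc

include hA in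
theorem ptSp_eq_of_spec {c : Bool} {P : Place Qb F} {i : Bool} {Q : Place k Fb}
    (h : Spec (D := D) c P i Q) : D.ptSp P = D.pt i Q := by
  have h' := exists_spec (D := D) hA P
  rw [ptSp, dif_pos h']
  exact pt_eq_of_spec h'.choose_spec.choose_spec.choose_spec h

/-- Values of conjugates. -/
theorem evalAt_act (σ : Γℚ) (P : Place Qb F) {f : F} (hf : f ∈ P.toValuationSubring) :
    evalAt (D.act σ • P) (D.act σ • f) = σ (evalAt P f) := by
  have hf' : D.act σ • f ∈ (D.act σ • P).toValuationSubring := act_mem_place_iff.2 hf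
  set a := evalAt P f
  have key : evalAt (D.act σ • P) (D.act σ • (f - algebraMap Qb F a)) = 0 := by
    rw [evalAt_eq_zero_iff _ (act_mem_place_iff.2 (sub_mem hf (P.algebraMap_mem' _))),
      SemilinearAut.ord_smul]
    exact (evalAt_spec P hf).imp (fun h => by rw [h, smul_zero]) id
  rw [smul_sub, act_algebraMap, evalAt_sub _ hf' ((D.act σ • P).algebraMap_mem' _),
    evalAt_algebraMap, sub_eq_zero] at key
  exact key

include hA in
theorem ptSp_act {σ : Γℚ} (hσ : σ ∈ A.inertiaSubgroupIn ℚ) (P : Place Qb F) :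
    D.ptSp (D.act σ • P) = D.ptSp P := by
  obtain ⟨c, i, Q, hs⟩ := exists_spec (D := D) hA P
  rw [ptSp_eq_of_spec hA hs]
  refine ptSp_eq_of_spec hA (c := c) ⟨?_, hs.2.1, fun f hf u hu => ?_⟩
  · have := (act_mem_place_iff (D := D) (σ := σ) (P := P)).2 hs.1
    rwa [tc_fixed] at this
  have hσ' := inv_mem hσ
  obtain ⟨ha, e⟩ := hs.2.2 _ (act_mem_ring hσ' hf) u (hu.act hσ')
  have hval : evalAt (D.act σ • P) f = σ (evalAt P (D.act σ⁻¹ • f)) := by
    rw [← evalAt_act (D := D) σ P (regOn_of_mem_ring (act_mem_ring hσ' hf) P hs.1), map_inv,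
      smul_inv_smul]
  obtain ⟨h, e'⟩ := EC.residue_apply_eq_of_mem_inertia A hσ ha
  refine ⟨hval ▸ h, ?_⟩
  rw [← e, ← e']
  exact congrArg (residue A) (Subtype.ext hval)

include hA in
/-- A place specialising into a chart lies in the chart. -/
theorem tc_mem_of_ptInChart {c : Bool} {P : Place Qb F} (h : PtInChart c (D.ptSp P)) :
    D.tc c ∈ P.toValuationSubring := by
  obtain ⟨i, Q, he, hc⟩ := h
  exact (spec_ptSp hA he hc).1

include hA in
/-- Values at a place reduce to values at its specialisation. -/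
theorem evalAt_ptSp {c : Bool} {P : Place Qb F} (hc : PtInChart c (D.ptSp P)) {i : Bool}
    (hi : PtOn (D.ptSp P) i) {f : F} (hf : f ∈ D.ring c) {u : Fb} (hu : D.HasRes i f u) :
    ∃ h : evalAt P f ∈ A, residue A ⟨evalAt P f, h⟩ = evalAt (ptLoc (D.ptSp P) i) u :=
  (spec_ptSp hA (pt_ptLoc hi) (tbc_mem_ptLoc hc hi)).2.2 f hf u hu

end Places

end Fermat.Agent.LevelP.X0.ChartInputs
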